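/-
GATE-E / E8.4 (DS-ω), route V of helper47 (board 7304/7365), nodal-instance plumbing (helper65):
**the class → representative bridge for (B)** (`DeepCoord.coord_le_of_deep`, helper71 7333).

(B) is stated on a REPRESENTATIVE: `u ≠ 0` with `div u = p • (Σ X_i − D0(𝔠))`, `X_i` in the chart discs
with parameter values `τ_i`, and `u` deep for both valuations (`DeepAt R p u`: for every constant
`c ≠ 0`, `u = b^p (1 + c r)` with `b ≠ 0`, `r ∈ R.Rw`).  The consumer (`Main`) has a CLASS: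
`y : Kum_p(F)` with `Deep R1 p y`, `Deep R2 p y` (`GF/NormDepth/Inst/Deep`), whose Kummer image
`ξ = kum y ∈ Pic⁰(F)[p]` has coordinates `τ` in the chart `𝔠` (`IsCoord 𝔠 ξ τ`).  This file produces
the representative.

* `DeepAt R p u`          : the representative-level deepness (7333 spelling);
* `deepAt_of_deep`        : every representative `u = u₀ d^p` of a deep class `[u₀]` is `DeepAt`;
* `exists_adapted_unit`   : `[D] = [(1/p) div u₀]` in `Pic⁰` ⟹ `∃ d`, `div (u₀ d^p) = p • D`;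
* `exists_adapted_rep`    : `IsCoord 𝔠 (kum y) τ` ⟹ the ADAPTED representative `u` of `y`:
                            `div u = p • (Σ X_i − D0)`, `X_i ∈ disc (𝔠.Q i)`, `t_i(X_i) = τ_i`;
* `adapted_deep`          : the same with `DeepAt R1 p u ∧ DeepAt R2 p u` from
                            `Deep R1 p y`, `Deep R2 p y` — the binder block of (B);
* `adapted_deep_kumJ`     : the modular form, `kumJ N p y = ξ` in `J₀(N)`.
-/
import Mathlib
import Fermat.Agent.GF.NormDepth.Inst.Deep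
import Fermat.Agent.GH.KummerPic
import Fermat.Agent.GS.Frame.Vocab
import Fermat.Agent.GF.Shape.Plug

set_option autoImplicit false
set_option linter.unusedSectionVars false

noncomputable section

open AlgebraicCurve

namespace Fermat.Agent.GE8.LLP.DSOmega.AdaptedRep

open Fermat.Agent.GJ.J1 Fermat.Agent.GJ.KumGroup Fermat.Agent.GF.NormDepth.Inst
open Fermat.Agent.GH.KummerPic Fermat.Agent.GS.Frame Fermat.Agent.GH Fermat.Agent.RRh45

open scoped Classical

/-! ### representative-level deepness -/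

section Rep

variable {K F k Ft : Type*} [Field K] [Field F] [Algebra K F] [Field k] [Field Ft] [Algebra k Ft]

/-- **`u` is a `p`-th power times a function arbitrarily close to `1`** for the valuation of `R`
(representative-level form of `Deep`; spelling of helper71, board 7333). -/
def DeepAt (R : RedData K F k Ft) (p : ℕ) (u : F) : Prop :=
  ∀ c : K, c ≠ 0 → ∃ b : F, b ≠ 0 ∧ ∃ r ∈ R.Rw, u = b ^ p * (1 + algebraMap K F c * r)

theorem deepAt_iff {R : RedData K F k Ft} {p : ℕ} {u : F} :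
    DeepAt R p u ↔
      ∀ c : K, c ≠ 0 → ∃ b : F, b ≠ 0 ∧ ∃ r ∈ R.Rw, u = b ^ p * (1 + algebraMap K F c * r) :=
  Iff.rfl

/-- **every representative of a deep class is deep.** -/
theorem deepAt_of_deep {R : RedData K F k Ft} {p : ℕ} {u₀ : pDivUnits K F p}
    (hx : Deep R p (Additive.ofMul (Kum.mk u₀))) {u : F}
    (hu : ∃ d : Fˣ, u = ((u₀ : Fˣ) : F) * (d : F) ^ p) : DeepAt R p u := by
  obtain ⟨d, rfl⟩ := hu
  intro c hc
  obtain ⟨u', hu', r, hr, hur⟩ := hx c hc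
  have h1 : Kum.mk u' = Kum.mk u₀ := congrArg Additive.toMul hu'
  obtain ⟨w, hw⟩ := Kum.mk_eq_mk_iff.1 h1
  refine ⟨(w : F) * (d : F), mul_ne_zero w.ne_zero d.ne_zero, r, hr, ?_⟩
  have h2 : ((u₀ : Fˣ) : F) = ((u' : Fˣ) : F) * (w : F) ^ p := by
    rw [hw, Units.val_mul, Units.val_pow_eq_pow_val]
  have h3 : ((u' : Fˣ) : F) = 1 + algebraMap K F c * r := by rw [← hur]; ring
  rw [h2, h3]
  ring

/-- deepness of a representative only depends on the function up to `p`-th powers. -/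
theorem DeepAt.mul_pow {R : RedData K F k Ft} {p : ℕ} {u : F} (h : DeepAt R p u) {f : F}
    (hf : f ≠ 0) : DeepAt R p (u * f ^ p) := by
  intro c hc
  obtain ⟨b, hb, r, hr, hur⟩ := h c hc
  refine ⟨b * f, mul_ne_zero hb hf, r, hr, ?_⟩
  rw [hur]
  ring

theorem DeepAt.ne_zero_or {R : RedData K F k Ft} {p : ℕ} {u : F} (h : DeepAt R p u)
    (hA : ∃ c : K, c ≠ 0 ∧ R.A.valuation c < 1) : u ≠ 0 := by
  obtain ⟨c, hc, hlt⟩ := hA
  obtain ⟨b, hb, r, hr, hur⟩ := h c hc
  rw [hur]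
  refine mul_ne_zero (pow_ne_zero p hb) ?_
  intro h0
  -- `1 = -(c r)` has value `< 1`
  have h1 : (1 : F) = -(algebraMap K F c * r) := by
    rw [eq_neg_iff_add_eq_zero]; exact h0
  have hcW : R.Rw.valuation (algebraMap K F c) < 1 := by
    have h2 : ¬ R.Rw.valuation (algebraMap K F (1 : K)) ≤ R.Rw.valuation (algebraMap K F c) := by
      rw [val_algebraMap_le_iff R hc, map_one]
      exact not_le.2 hlt
    rw [map_one, map_one] at h2
    exact not_le.1 h2
  have h3 : R.Rw.valuation (1 : F) < 1 := by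
    rw [h1, Valuation.map_neg, map_mul]
    calc R.Rw.valuation (algebraMap K F c) * R.Rw.valuation r
        ≤ R.Rw.valuation (algebraMap K F c) * 1 :=
          mul_le_mul' le_rfl ((R.Rw.valuation_le_one_iff r).2 hr)
      _ = R.Rw.valuation (algebraMap K F c) := mul_one _
      _ < 1 := hcW
  rw [map_one] at h3
  exact lt_irrefl _ h3

end Rep

/-! ### the adapted representative -/

section Adapted

variable {K F : Type*} [Field K] [Field F] [Algebra K F] [HasPrincipalDivisors K F]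
variable {p : ℕ} [NeZero p]

/-- if `[D] = [(1/p) div u₀]` in `Pic⁰`, some representative `u₀ d^p` of the Kummer class of `u₀`
has divisor `p • D`. -/
theorem exists_adapted_unit (u₀ : pDivUnits K F p) (D : Divisor.degZero (K := K) (F := F))
    (hD : Pic0.mk D = Pic0.mk ⟨divDiv p u₀, degree_divDiv p u₀⟩) :
    ∃ d : Fˣ, ∀ v : Place K F,
      v.ord (((u₀ : Fˣ) : F) * (d : F) ^ p) = (p : ℤ) * (D : Divisor K F) v := by
  have h1 := (QuotientAddGroup.eq).mp hD
  rw [AddSubgroup.mem_addSubgroupOf, AddSubgroup.coe_add, AddSubgroup.coe_neg] at h1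
  obtain ⟨f, hf0, hf⟩ := h1
  refine ⟨(Units.mk0 f hf0)⁻¹, fun v => ?_⟩
  have hd0 : (((Units.mk0 f hf0)⁻¹ : Fˣ) : F) ^ p ≠ 0 := pow_ne_zero p (Units.ne_zero _)
  have h2 := hf v
  rw [Finsupp.add_apply, Finsupp.neg_apply] at h2
  rw [v.ord_mul (u₀ : Fˣ).ne_zero hd0, Fermat.Agent.GJ.Kum.DivBasic.ord_pow_natCast,
    Units.val_inv_eq_inv_val, Units.val_mk0, Place.ord_inv, ← h2, ← mul_divDiv_apply p u₀ v]
  show (p : ℤ) * divDiv p u₀ v + (p : ℤ) * -(-(D : Divisor K F) v + divDiv p u₀ v) = _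
  ring

variable {k Sp 𝒬 : Type*} [Field k] [CommRing Sp] [Algebra k Sp]

/-- **the adapted representative** of a Kummer class whose image in `Pic⁰` has coordinates `τ` in the
chart `𝔠`. -/
theorem exists_adapted_rep {Φ : DiscData K F k Sp 𝒬} {n : ℕ} (𝔠 : Chart Φ n)
    (y : Additive (Kum K F p)) {τ : Fin n → K}
    (hτ : IsCoord 𝔠 ((kum p y : Pic0.torsion K F p) : Pic0 K F) τ) :
    ∃ (X : Fin n → Place K F) (u₀ : pDivUnits K F p) (d : Fˣ),
      Additive.ofMul (Kum.mk u₀) = y ∧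
      (∀ i, X i ∈ Φ.disc (𝔠.Q i)) ∧ (∀ i, ValueAt (X i) (𝔠.pt i).t (τ i)) ∧
      ∀ v : Place K F, v.ord (((u₀ : Fˣ) : F) * (d : F) ^ p) =
        (p : ℤ) * ((∑ i, Finsupp.single (X i) (1 : ℤ)) - 𝔠.D0) v := by
  obtain ⟨u₀, hu₀⟩ := Kum.mk_surjective (Additive.toMul y)
  have hy : y = Additive.ofMul (Kum.mk u₀) := by rw [hu₀]; rfl
  obtain ⟨X, hX, hval, hdeg, hξ⟩ := hτ
  rw [hy, kum_mk] at hξ
  obtain ⟨d, hd⟩ := exists_adapted_unit u₀ ⟨_, hdeg⟩ hξ
  exact ⟨X, u₀, d, hy.symm, hX, hval, hd⟩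

variable {Ft1 Ft2 : Type*} [Field Ft1] [Algebra k Ft1] [Field Ft2] [Algebra k Ft2]

/-- **the binder block of (B)**: a doubly deep class with coordinates `τ` in the chart `𝔠` has an
adapted representative which is deep for both valuations. -/
theorem adapted_deep {R1 : RedData K F k Ft1} {R2 : RedData K F k Ft2}
    {Φ : DiscData K F k Sp 𝒬} {n : ℕ} (𝔠 : Chart Φ n)
    {y : Additive (Kum K F p)} (h1 : Deep R1 p y) (h2 : Deep R2 p y) {τ : Fin n → K}
    (hτ : IsCoord 𝔠 ((kum p y : Pic0.torsion K F p) : Pic0 K F) τ) :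
    ∃ (X : Fin n → Place K F) (u : F), u ≠ 0 ∧
      (∀ i, X i ∈ Φ.disc (𝔠.Q i)) ∧ (∀ i, ValueAt (X i) (𝔠.pt i).t (τ i)) ∧
      (∀ v : Place K F, v.ord u =
        (p : ℤ) * ((∑ i, Finsupp.single (X i) (1 : ℤ)) - 𝔠.D0) v) ∧
      DeepAt R1 p u ∧ DeepAt R2 p u := by
  obtain ⟨X, u₀, d, hy, hX, hval, hdiv⟩ := exists_adapted_rep 𝔠 y hτ
  subst hy
  exact ⟨X, ((u₀ : Fˣ) : F) * (d : F) ^ p,
    mul_ne_zero (u₀ : Fˣ).ne_zero (pow_ne_zero p d.ne_zero), hX, hval, hdiv,
    deepAt_of_deep h1 ⟨d, rfl⟩, deepAt_of_deep h2 ⟨d, rfl⟩⟩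

end Adapted

/-! ### the modular form -/

section Modular

open ModularCurve Fermat.Agent.GF.Shape.Plug Fermat.Agent.GH.TorsionCount

local notation "Qb" => AlgebraicClosure ℚ

variable {N : ℕ} [NeZero N] {p : ℕ} [NeZero p]
variable {k Sp 𝒬 Ft1 Ft2 : Type*} [Field k] [CommRing Sp] [Algebra k Sp]
  [Field Ft1] [Algebra k Ft1] [Field Ft2] [Algebra k Ft2]

/-- **the binder block of (B) on the modular curve**: `y ∈ Kum_p(F_N)` doubly deep, `kumJ y = ξ`
with coordinates `τ` in the chart `𝔠`. -/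
theorem adapted_deep_kumJ {R1 : RedData Qb (FK N) k Ft1} {R2 : RedData Qb (FK N) k Ft2}
    {Φ : DiscData Qb (FK N) k Sp 𝒬} {n : ℕ} (𝔠 : Chart Φ n)
    {y : Additive (Kum Qb (FK N) p)} (h1 : Deep R1 p y) (h2 : Deep R2 p y) {τ : Fin n → Qb}
    (hτ : IsCoord 𝔠 (kumJ N p y) τ) :
    ∃ (X : Fin n → Place Qb (FK N)) (u : FK N), u ≠ 0 ∧
      (∀ i, X i ∈ Φ.disc (𝔠.Q i)) ∧ (∀ i, ValueAt (X i) (𝔠.pt i).t (τ i)) ∧
      (∀ v : Place Qb (FK N), v.ord u =
        (p : ℤ) * ((∑ i, Finsupp.single (X i) (1 : ℤ)) - 𝔠.D0) v) ∧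
      DeepAt R1 p u ∧ DeepAt R2 p u := by
  have := hasPrincipalDivisors_FK N
  exact adapted_deep 𝔠 h1 h2 hτ

end Modular

end Fermat.Agent.GE8.LLP.DSOmega.AdaptedRep

end
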