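/-
S59 PRE-WORK / E8.4 LLP, RISK-1, node (DS-ω) (helper47), file 1: **the abstract Hopf-order half.**

`A` a valuation subring of a field `K`, `M` an abelian group, `T : ι → M → K` "coordinate functions"
with values in `A`, `T i 0 = 0`, which are `Δ`-stable over `A[T]`
(`hΔ : (q ↦ T j (q.1 + q.2)) ∈ tens (Algebra.adjoin A (Set.range T))`, the conclusion of
`GS/Loc2/ChartsDisc.coords_disc` VERBATIM).

* `add_approx`     : `|f (x + y) - f x - f y + f 0| ≤ r s` if all `|T i x| ≤ r`, all `|T i y| ≤ s`;
* `nsmul_approx`   : `|T j (m • y) - m T j y| ≤ r²`, and the coordinates of `m • y` are `≤ r`;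
* `small_torsion`  : **no small `p`-torsion**: `p • y = 0` and `|T i y|^(p-1) < |p|` for all `i`
                     imply `T i y = 0` for all `i` (Gregory–Newton formula: `f (p • y) = Σ C(p,k) (Δ_y^k f)(0)`
                     and `Δ_y` divides by the size `r` of `y`: `|(Δ_y^k f)(0)| ≤ r^k`);
* `act_eq_nsmul`   : **the `ω`-criterion**: if `σ` is a ring endomorphism of `K` which is trivial on
                     the residue field of `A`, `s` an additive endomorphism of `M` with
                     `T i (s x) = σ (T i x)`, `|lam|^(p-1) = |p|`, `σ lam ≡ a lam (mod lam²)`, then every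
                     `p`-torsion `x` with all `|T i x| ≤ |lam|` satisfies `s x = a • x`.
-/
import Mathlib
import Fermat.Agent.GH.Ord.Tens

set_option autoImplicit false
set_option linter.unusedSectionVars false

noncomputable section

namespace Fermat.Agent.GE8.LLP.DSOmega

open Fermat.Agent.GH
open fwdDiff

variable {K : Type*} [Field K] (A : ValuationSubring K) {M : Type*} [AddCommGroup M]
  {ι : Type*} (T : ι → M → K)

/-- the `A`-algebra generated by the coordinate functions. -/
abbrev coordAlg : Subalgebra A (M → K) := Algebra.adjoin A (Set.range T)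

variable {A T}

/-- values of `A[T]` lie in `A`. -/
theorem coordAlg_val (hval : ∀ i x, T i x ∈ A) :
    ∀ f ∈ coordAlg A T, ∀ x, f x ∈ A := by
  intro f hf
  induction hf using Algebra.adjoin_induction with
  | mem f hf =>
    obtain ⟨i, rfl⟩ := hf
    exact fun x => hval i x
  | algebraMap r => exact fun x => r.2
  | add f g _ _ hf hg => exact fun x => A.add_mem _ _ (hf x) (hg x)
  | mul f g _ _ hf hg => exact fun x => A.mul_mem _ _ (hf x) (hg x)

theorem coordAlg_val_le (hval : ∀ i x, T i x ∈ A) {f : M → K} (hf : f ∈ coordAlg A T) (x : M) :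
    A.valuation (f x) ≤ 1 :=
  (A.valuation_le_one_iff _).mpr (coordAlg_val hval f hf x)

/-- the augmentation ideal is small at small points. -/
theorem sub_zero_le (hval : ∀ i x, T i x ∈ A) (h0 : ∀ i, T i 0 = 0) {x : M}
    {r : A.ValueGroup} (hx : ∀ i, A.valuation (T i x) ≤ r) :
    ∀ f ∈ coordAlg A T, A.valuation (f x - f 0) ≤ r := by
  intro f hf
  induction hf using Algebra.adjoin_induction with
  | mem f hf =>
    obtain ⟨i, rfl⟩ := hf
    rw [h0 i, sub_zero]
    exact hx i
  | algebraMap a =>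
    simp
  | add f g hf hg ihf ihg =>
    have : (f + g) x - (f + g) 0 = (f x - f 0) + (g x - g 0) := by
      simp only [Pi.add_apply]; ring
    rw [this]
    exact (A.valuation.map_add _ _).trans (max_le ihf ihg)
  | mul f g hf hg ihf ihg =>
    have : (f * g) x - (f * g) 0 = f x * (g x - g 0) + (f x - f 0) * g 0 := by
      simp only [Pi.mul_apply]; ring
    rw [this]
    refine (A.valuation.map_add _ _).trans (max_le ?_ ?_)
    · rw [map_mul]
      calc A.valuation (f x) * A.valuation (g x - g 0) ≤ 1 * r :=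
            mul_le_mul' (coordAlg_val_le hval hf x) ihg
        _ = r := one_mul r
    · rw [map_mul]
      calc A.valuation (f x - f 0) * A.valuation (g 0) ≤ r * 1 :=
            mul_le_mul' ihf (coordAlg_val_le hval hg 0)
        _ = r := mul_one r

/-- `Δ`-closure of the whole algebra from the generators. -/
theorem comp_add_mem_tens
    (hΔ : ∀ j, (fun q : M × M => T j (q.1 + q.2)) ∈ tens (coordAlg A T)) :
    ∀ f ∈ coordAlg A T, (fun q : M × M => f (q.1 + q.2)) ∈ tens (coordAlg A T) := by
  refine comp_add_mem_tens_of_generators (Set.range T) ?_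
  rintro _ ⟨j, rfl⟩
  exact hΔ j

/-- **(A1)**: addition is additive up to the product of the sizes. -/
theorem add_approx (hval : ∀ i x, T i x ∈ A) (h0 : ∀ i, T i 0 = 0)
    (hΔ : ∀ j, (fun q : M × M => T j (q.1 + q.2)) ∈ tens (coordAlg A T))
    {x y : M} {r s : A.ValueGroup} (hx : ∀ i, A.valuation (T i x) ≤ r)
    (hy : ∀ i, A.valuation (T i y) ≤ s) {f : M → K} (hf : f ∈ coordAlg A T) :
    A.valuation (f (x + y) - f x - f y + f 0) ≤ r * s := by
  obtain ⟨κ, _, a, b, ha, hb, hab⟩ := comp_add_mem_tens hΔ f hf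
  have e1 : f (x + y) = ∑ l, a l x * b l y := hab x y
  have e2 : f x = ∑ l, a l x * b l 0 := by
    have := hab x 0
    simpa using this
  have e3 : f y = ∑ l, a l 0 * b l y := by
    have := hab 0 y
    simpa using this
  have e4 : f 0 = ∑ l, a l 0 * b l 0 := by
    have := hab 0 0
    simpa using this
  have : f (x + y) - f x - f y + f 0 = ∑ l, (a l x - a l 0) * (b l y - b l 0) := by
    rw [e1, e2, e3, e4, ← Finset.sum_sub_distrib, ← Finset.sum_sub_distrib, ← Finset.sum_add_distrib]
    refine Finset.sum_congr rfl fun l _ => ?_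
    ring
  rw [this]
  refine Valuation.map_sum_le _ fun l _ => ?_
  rw [map_mul]
  exact mul_le_mul' (sub_zero_le hval h0 hx _ (ha l)) (sub_zero_le hval h0 hy _ (hb l))

/-! ### the scaled lattices `𝔞_s · A[T]` -/

variable (A T)

/-- the `A`-span of the functions `c • h`, `|c| ≤ s`, `h ∈ A[T]`. -/
def scaled (s : A.ValueGroup) : Submodule A (M → K) :=
  Submodule.span A {g | ∃ c : K, ∃ h ∈ coordAlg A T, A.valuation c ≤ s ∧ g = c • h}

variable {A T}

theorem smul_mem_scaled {s : A.ValueGroup} {c : K} (hc : A.valuation c ≤ s) {h : M → K}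
    (hh : h ∈ coordAlg A T) : c • h ∈ scaled A T s :=
  Submodule.subset_span ⟨c, h, hh, hc, rfl⟩

theorem mem_scaled_one {h : M → K} (hh : h ∈ coordAlg A T) : h ∈ scaled A T 1 := by
  have := smul_mem_scaled (s := 1) (c := (1 : K)) (by rw [map_one]) hh
  rwa [one_smul] at this

/-- values of `𝔞_s · A[T]` have size `≤ s`. -/
theorem scaled_val (hval : ∀ i x, T i x ∈ A) {s : A.ValueGroup} {g : M → K}
    (hg : g ∈ scaled A T s) (z : M) : A.valuation (g z) ≤ s := by
  induction hg using Submodule.span_induction with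
  | mem g hg =>
    obtain ⟨c, h, hh, hc, rfl⟩ := hg
    rw [Pi.smul_apply, smul_eq_mul, map_mul]
    calc A.valuation c * A.valuation (h z) ≤ s * 1 := mul_le_mul' hc (coordAlg_val_le hval hh z)
      _ = s := mul_one s
  | zero => simp
  | add g g' _ _ ih ih' =>
    rw [Pi.add_apply]
    exact (A.valuation.map_add _ _).trans (max_le ih ih')
  | smul a g _ ih =>
    rw [Pi.smul_apply, Algebra.smul_def, map_mul]
    calc A.valuation (algebraMap A K a) * A.valuation (g z) ≤ 1 * s :=
          mul_le_mul' ((A.valuation_le_one_iff _).mpr a.2) ih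
      _ = s := one_mul s

/-- scaling by a constant. -/
theorem const_smul_mem_scaled {s r : A.ValueGroup} {c : K} (hc : A.valuation c ≤ s) {g : M → K}
    (hg : g ∈ scaled A T r) : c • g ∈ scaled A T (s * r) := by
  induction hg using Submodule.span_induction with
  | mem g hg =>
    obtain ⟨c', h, hh, hc', rfl⟩ := hg
    rw [smul_smul]
    exact smul_mem_scaled (by rw [map_mul]; exact mul_le_mul' hc hc') hh
  | zero => rw [smul_zero]; exact Submodule.zero_mem _
  | add g g' _ _ ih ih' => rw [smul_add]; exact Submodule.add_mem _ ih ih'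
  | smul a g _ ih =>
    rw [smul_comm]
    exact Submodule.smul_mem _ a ih

/-- the difference operator `Δ_y` maps `A[T]` into `𝔞_r · A[T]`, `r` the size of `y`. -/
theorem fwdDiff_mem_scaled (hval : ∀ i x, T i x ∈ A) (h0 : ∀ i, T i 0 = 0)
    (hΔ : ∀ j, (fun q : M × M => T j (q.1 + q.2)) ∈ tens (coordAlg A T))
    {y : M} {r : A.ValueGroup} (hy : ∀ i, A.valuation (T i y) ≤ r) {h : M → K}
    (hh : h ∈ coordAlg A T) : Δ_[y] h ∈ scaled A T r := by
  obtain ⟨κ, _, a, b, ha, hb, hab⟩ := comp_add_mem_tens hΔ h hh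
  have : Δ_[y] h = ∑ l, (b l y - b l 0) • a l := by
    funext z
    rw [fwdDiff, Finset.sum_apply]
    have e1 : h (z + y) = ∑ l, a l z * b l y := hab z y
    have e2 : h z = ∑ l, a l z * b l 0 := by
      have := hab z 0
      simpa using this
    rw [e1, e2, ← Finset.sum_sub_distrib]
    refine Finset.sum_congr rfl fun l _ => ?_
    rw [Pi.smul_apply, smul_eq_mul]
    ring
  rw [this]
  exact Submodule.sum_mem _ fun l _ =>
    smul_mem_scaled (sub_zero_le hval h0 hy _ (hb l)) (ha l)

/-- `Δ_y` maps `𝔞_s · A[T]` into `𝔞_{s r} · A[T]`. -/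
theorem fwdDiff_scaled (hval : ∀ i x, T i x ∈ A) (h0 : ∀ i, T i 0 = 0)
    (hΔ : ∀ j, (fun q : M × M => T j (q.1 + q.2)) ∈ tens (coordAlg A T))
    {y : M} {r s : A.ValueGroup} (hy : ∀ i, A.valuation (T i y) ≤ r) {g : M → K}
    (hg : g ∈ scaled A T s) : Δ_[y] g ∈ scaled A T (s * r) := by
  induction hg using Submodule.span_induction with
  | mem g hg =>
    obtain ⟨c, h, hh, hc, rfl⟩ := hg
    rw [fwdDiff_const_smul]
    exact const_smul_mem_scaled hc (fwdDiff_mem_scaled hval h0 hΔ hy hh)
  | zero =>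
    have : Δ_[y] (0 : M → K) = 0 := by
      funext z; simp [fwdDiff]
    rw [this]
    exact Submodule.zero_mem _
  | add g g' _ _ ih ih' =>
    rw [fwdDiff_add]
    exact Submodule.add_mem _ ih ih'
  | smul a g _ ih =>
    rw [fwdDiff_const_smul]
    exact Submodule.smul_mem _ a ih

/-- the iterated differences. -/
theorem fwdDiff_iter_mem_scaled (hval : ∀ i x, T i x ∈ A) (h0 : ∀ i, T i 0 = 0)
    (hΔ : ∀ j, (fun q : M × M => T j (q.1 + q.2)) ∈ tens (coordAlg A T))
    {y : M} {r : A.ValueGroup} (hy : ∀ i, A.valuation (T i y) ≤ r) {h : M → K}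
    (hh : h ∈ coordAlg A T) (k : ℕ) : (fwdDiff y)^[k] h ∈ scaled A T (r ^ k) := by
  induction k with
  | zero =>
    rw [pow_zero, Function.iterate_zero, id]
    exact mem_scaled_one hh
  | succ k ih =>
    rw [Function.iterate_succ_apply', pow_succ]
    exact fwdDiff_scaled hval h0 hΔ hy ih

theorem fwdDiff_iter_val (hval : ∀ i x, T i x ∈ A) (h0 : ∀ i, T i 0 = 0)
    (hΔ : ∀ j, (fun q : M × M => T j (q.1 + q.2)) ∈ tens (coordAlg A T))
    {y : M} {r : A.ValueGroup} (hy : ∀ i, A.valuation (T i y) ≤ r) {h : M → K}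
    (hh : h ∈ coordAlg A T) (k : ℕ) (z : M) : A.valuation ((fwdDiff y)^[k] h z) ≤ r ^ k :=
  scaled_val hval (fwdDiff_iter_mem_scaled hval h0 hΔ hy hh k) z

/-! ### multiples -/

/-- **multiples are additive up to `r²`**, and stay of size `≤ r`. -/
theorem nsmul_approx (hval : ∀ i x, T i x ∈ A) (h0 : ∀ i, T i 0 = 0)
    (hΔ : ∀ j, (fun q : M × M => T j (q.1 + q.2)) ∈ tens (coordAlg A T))
    {y : M} {r : A.ValueGroup} (hr : r ≤ 1) (hy : ∀ i, A.valuation (T i y) ≤ r) (m : ℕ) :
    (∀ j, A.valuation (T j (m • y) - m * T j y) ≤ r * r) ∧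
      ∀ j, A.valuation (T j (m • y)) ≤ r := by
  have hnat : ∀ n : ℕ, A.valuation (n : K) ≤ 1 := fun n =>
    (A.valuation_le_one_iff _).mpr (natCast_mem A n)
  have hrr : r * r ≤ r := by
    calc r * r ≤ r * 1 := mul_le_mul' le_rfl hr
      _ = r := mul_one r
  induction m with
  | zero =>
    refine ⟨fun j => ?_, fun j => ?_⟩
    · rw [zero_smul, h0 j, Nat.cast_zero, zero_mul, sub_zero, map_zero]; exact zero_le
    · rw [zero_smul, h0 j, map_zero]; exact zero_le
  | succ m ih =>
    obtain ⟨ih1, ih2⟩ := ih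
    have key : ∀ j, A.valuation (T j ((m + 1) • y) - ((m + 1 : ℕ) : K) * T j y) ≤ r * r := by
      intro j
      have hj : T j ∈ coordAlg A T := Algebra.subset_adjoin ⟨j, rfl⟩
      have h1 := add_approx hval h0 hΔ ih2 hy hj
      rw [h0 j, add_zero] at h1
      have : T j ((m + 1) • y) - ((m + 1 : ℕ) : K) * T j y =
          (T j (m • y + y) - T j (m • y) - T j y) + (T j (m • y) - m * T j y) := by
        rw [succ_nsmul]; push_cast; ring
      rw [this]
      exact (A.valuation.map_add _ _).trans (max_le h1 (ih1 j))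
    refine ⟨key, fun j => ?_⟩
    have : T j ((m + 1) • y) = (T j ((m + 1) • y) - ((m + 1 : ℕ) : K) * T j y) +
        ((m + 1 : ℕ) : K) * T j y := by ring
    rw [this]
    refine (A.valuation.map_add _ _).trans (max_le ((key j).trans hrr) ?_)
    rw [map_mul]
    calc A.valuation ((m + 1 : ℕ) : K) * A.valuation (T j y) ≤ 1 * r :=
          mul_le_mul' (hnat _) (hy j)
      _ = r := one_mul r

/-! ### no small `p`-torsion -/

/-- **(A2) no small `p`-torsion**: a point killed by `p` all of whose coordinates satisfy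
`|T i y|^(p-1) < |p|` has all coordinates `0`. -/
theorem small_torsion [Finite ι] {p : ℕ} (hp : p.Prime) (hp0 : (p : K) ≠ 0)
    (hval : ∀ i x, T i x ∈ A) (h0 : ∀ i, T i 0 = 0)
    (hΔ : ∀ j, (fun q : M × M => T j (q.1 + q.2)) ∈ tens (coordAlg A T))
    {y : M} (hpy : p • y = 0)
    (hsm : ∀ i, A.valuation (T i y) ^ (p - 1) < A.valuation (p : K)) :
    ∀ i, T i y = 0 := by
  classical
  have := Fintype.ofFinite ι
  by_contra hne
  push Not at hne
  obtain ⟨i₀, hi₀⟩ := hne
  obtain ⟨i₁, -, hmax⟩ := Finset.exists_max_image Finset.univ (fun i => A.valuation (T i y))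
    ⟨i₀, Finset.mem_univ _⟩
  set r : A.ValueGroup := A.valuation (T i₁ y) with hr
  have hy : ∀ i, A.valuation (T i y) ≤ r := fun i => hmax i (Finset.mem_univ _)
  have hr0 : r ≠ 0 := by
    intro h
    have := hy i₀
    rw [h, le_zero_iff, map_eq_zero] at this
    exact hi₀ this
  have hr1 : r ≤ 1 := (A.valuation_le_one_iff _).mpr (hval i₁ y)
  have hvp0 : A.valuation (p : K) ≠ 0 := (map_ne_zero _).mpr hp0
  have hvp1 : A.valuation (p : K) ≤ 1 := (A.valuation_le_one_iff _).mpr (natCast_mem A p)
  have hj : T i₁ ∈ coordAlg A T := Algebra.subset_adjoin ⟨i₁, rfl⟩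
  have hp2 : 2 ≤ p := hp.two_le
  -- Gregory–Newton
  have hN := shift_eq_sum_fwdDiff_iter y (T i₁) p 0
  rw [zero_add, hpy, h0 i₁] at hN
  have hsplit : p + 1 = (p - 1) + 1 + 1 := by omega
  rw [hsplit, Finset.sum_range_succ', Finset.sum_range_succ'] at hN
  simp only [Function.iterate_zero, id, Nat.choose_zero_right, one_smul, h0 i₁, add_zero,
    Function.iterate_one, zero_add, Nat.choose_one_right] at hN
  have hd1 : Δ_[y] (T i₁) 0 = T i₁ y := by
    rw [fwdDiff, zero_add, h0 i₁, sub_zero]
  rw [hd1] at hN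
  -- the bound on the tail
  set B : A.ValueGroup := max (A.valuation (p : K) * (r * r)) (r ^ p) with hB
  have htail : A.valuation (∑ k ∈ Finset.range (p - 1),
      (p.choose (k + 1 + 1)) • (fwdDiff y)^[k + 1 + 1] (T i₁) 0) ≤ B := by
    refine Valuation.map_sum_le _ fun k hk => ?_
    rw [Finset.mem_range] at hk
    have hc := fwdDiff_iter_val hval h0 hΔ hy hj (k + 1 + 1) 0
    rw [nsmul_eq_mul, map_mul]
    rcases Nat.lt_or_ge (k + 2) p with hlt | hge
    · -- `p ∣ C(p, k+2)`
      have hdvd : p ∣ p.choose (k + 1 + 1) := hp.dvd_choose_self (by omega) hlt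
      obtain ⟨d, hd⟩ := hdvd
      have h1 : A.valuation ((p.choose (k + 1 + 1) : ℕ) : K) ≤ A.valuation (p : K) := by
        rw [hd, Nat.cast_mul, map_mul]
        calc A.valuation (p : K) * A.valuation (d : K) ≤ A.valuation (p : K) * 1 :=
              mul_le_mul' le_rfl ((A.valuation_le_one_iff _).mpr (natCast_mem A d))
          _ = A.valuation (p : K) := mul_one _
      have h2 : r ^ (k + 1 + 1) ≤ r * r := by
        rw [pow_succ, pow_succ]
        calc r ^ k * r * r ≤ 1 * r * r :=
              mul_le_mul' (mul_le_mul' (pow_le_one' hr1 k) le_rfl) le_rfl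
          _ = r * r := by rw [one_mul]
      exact (mul_le_mul' h1 (hc.trans h2)).trans (le_max_left _ _)
    · have hk2 : k + 1 + 1 = p := by omega
      rw [hk2, Nat.choose_self, Nat.cast_one, map_one, one_mul]
      rw [hk2] at hc
      exact hc.trans (le_max_right _ _)
  have hmain : A.valuation (p : K) * r ≤ B := by
    have : (p : K) * T i₁ y = -(∑ k ∈ Finset.range (p - 1),
        (p.choose (k + 1 + 1)) • (fwdDiff y)^[k + 1 + 1] (T i₁) 0) := by
      rw [nsmul_eq_mul] at hN
      linear_combination -hN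
    calc A.valuation (p : K) * r = A.valuation ((p : K) * T i₁ y) := by rw [map_mul]
      _ = A.valuation (∑ k ∈ Finset.range (p - 1),
          (p.choose (k + 1 + 1)) • (fwdDiff y)^[k + 1 + 1] (T i₁) 0) := by
        rw [this, Valuation.map_neg]
      _ ≤ B := htail
  have hrlt : r < 1 := by
    rcases lt_or_eq_of_le hr1 with h | h
    · exact h
    · exfalso
      have := hsm i₁
      rw [← hr, h, one_pow] at this
      exact absurd hvp1 (not_le.mpr this)
  rcases le_max_iff.mp hmain with h | h
  · -- `|p| r ≤ |p| r²`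
    have h1 : r ≤ r * r := le_of_mul_le_mul_left h (zero_lt_iff.mpr hvp0)
    have h2 : r * r < r * 1 := mul_lt_mul_of_pos_left hrlt (zero_lt_iff.mpr hr0)
    rw [mul_one] at h2
    exact absurd h1 (not_le.mpr h2)
  · -- `|p| r ≤ r^p`
    have hpp : r ^ p = r ^ (p - 1) * r := by
      rw [← pow_succ]; congr 1; omega
    rw [hpp] at h
    have h1 : A.valuation (p : K) ≤ r ^ (p - 1) :=
      le_of_mul_le_mul_right h (zero_lt_iff.mpr hr0)
    exact absurd h1 (not_le.mpr (hsm i₁))

/-! ### the `ω`-criterion -/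

/-- **(A3) the `ω`-criterion.** -/
theorem act_eq_nsmul [Finite ι] {p : ℕ} (hp : p.Prime) (hp0 : (p : K) ≠ 0)
    (hplt : A.valuation (p : K) < 1)
    (hval : ∀ i x, T i x ∈ A) (h0 : ∀ i, T i 0 = 0)
    (hΔ : ∀ j, (fun q : M × M => T j (q.1 + q.2)) ∈ tens (coordAlg A T))
    (hsep : ∀ z : M, (∀ i, T i z = 0) → z = 0)
    (σ : K →+* K) (hσA : ∀ c ∈ A, σ c ∈ A) (hσI : ∀ c ∈ A, A.valuation (σ c - c) < 1)
    (s : M →+ M) (hsT : ∀ i x, T i (s x) = σ (T i x))
    {lam : K} (hlam0 : lam ≠ 0) (hlam : A.valuation lam ^ (p - 1) = A.valuation (p : K))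
    {a : ℕ} (hσlam : A.valuation (σ lam - a * lam) ≤ A.valuation lam * A.valuation lam)
    {x : M} (hpx : p • x = 0) (hx : ∀ i, A.valuation (T i x) ≤ A.valuation lam) :
    s x = a • x := by
  set r : A.ValueGroup := A.valuation lam with hr
  have hr0 : r ≠ 0 := (map_ne_zero _).mpr hlam0
  have hr0' : 0 < r := zero_lt_iff.mpr hr0
  have hp2 : 2 ≤ p := hp.two_le
  have hnat : ∀ n : ℕ, A.valuation (n : K) ≤ 1 := fun n =>
    (A.valuation_le_one_iff _).mpr (natCast_mem A n)
  -- `r < 1`
  have hrlt : r < 1 := by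
    by_contra h
    push Not at h
    have : 1 ≤ r ^ (p - 1) := one_le_pow_of_one_le' h _
    rw [hlam] at this
    exact absurd hplt (not_lt.mpr this)
  have hr1 : r ≤ 1 := hrlt.le
  have hrr : r * r < r := by
    have := mul_lt_mul_of_pos_left hrlt hr0'
    rwa [mul_one] at this
  -- `|p| ≤ r`
  have hpr : A.valuation (p : K) ≤ r := by
    rw [← hlam]
    have hsplit : p - 1 = (p - 2) + 1 := by omega
    rw [hsplit, pow_succ]
    calc r ^ (p - 2) * r ≤ 1 * r := mul_le_mul' (pow_le_one' hr1 _) le_rfl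
      _ = r := one_mul r
  -- the complementary multiple
  set a' : ℕ := p - a % p with ha'
  have hamod : a % p < p := Nat.mod_lt _ hp.pos
  obtain ⟨n, hn⟩ : ∃ n : ℕ, a + a' = p * n := by
    refine ⟨a / p + 1, ?_⟩
    have := Nat.div_add_mod a p
    rw [ha', mul_add, mul_one]
    omega
  set y : M := s x + a' • x with hy
  have hpy : p • y = 0 := by
    rw [hy, smul_add, ← map_nsmul, hpx, map_zero, smul_comm, hpx, smul_zero, add_zero]
  -- `σ lam` has size `≤ r`
  have hσlam' : A.valuation (σ lam) ≤ r := by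
    have : σ lam = (σ lam - a * lam) + a * lam := by ring
    rw [this]
    refine (A.valuation.map_add _ _).trans (max_le (hσlam.trans hrr.le) ?_)
    rw [map_mul]
    calc A.valuation (a : K) * r ≤ 1 * r := mul_le_mul' (hnat a) le_rfl
      _ = r := one_mul r
  -- the quotient `ξ = t / lam`
  have hξ : ∀ i, T i x / lam ∈ A := by
    intro i
    rw [← A.valuation_le_one_iff, map_div₀]
    exact div_le_one_of_le₀ (hx i) zero_le
  have hσt : ∀ i, σ (T i x) = σ lam * σ (T i x / lam) := by
    intro i
    rw [← map_mul, mul_div_cancel₀ _ hlam0]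
  have hsx : ∀ i, A.valuation (T i (s x)) ≤ r := by
    intro i
    rw [hsT, hσt, map_mul]
    calc A.valuation (σ lam) * A.valuation (σ (T i x / lam)) ≤ r * 1 :=
          mul_le_mul' hσlam' ((A.valuation_le_one_iff _).mpr (hσA _ (hξ i)))
      _ = r := mul_one r
  obtain ⟨hm1, hm2⟩ := nsmul_approx hval h0 hΔ hr1 hx a'
  -- all coordinates of `y` are `< r`
  have hylt : ∀ i, A.valuation (T i y) < r := by
    intro i
    have hj : T i ∈ coordAlg A T := Algebra.subset_adjoin ⟨i, rfl⟩
    have h1 := add_approx hval h0 hΔ hsx hm2 hj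
    rw [h0 i, add_zero] at h1
    -- `σ t - a t`
    have h3 : A.valuation (σ (T i x) - a * T i x) < r := by
      have : σ (T i x) - a * T i x = (σ lam - a * lam) * σ (T i x / lam) +
          a * lam * (σ (T i x / lam) - T i x / lam) := by
        rw [hσt i]
        field_simp
        ring
      rw [this]
      refine lt_of_le_of_lt (A.valuation.map_add _ _) (max_lt ?_ ?_)
      · rw [map_mul]
        calc A.valuation (σ lam - a * lam) * A.valuation (σ (T i x / lam)) ≤ r * r * 1 :=
              mul_le_mul' hσlam ((A.valuation_le_one_iff _).mpr (hσA _ (hξ i)))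
          _ = r * r := mul_one _
          _ < r := hrr
      · rw [map_mul, map_mul]
        calc A.valuation (a : K) * r * A.valuation (σ (T i x / lam) - T i x / lam)
            ≤ 1 * r * A.valuation (σ (T i x / lam) - T i x / lam) :=
              mul_le_mul' (mul_le_mul' (hnat a) le_rfl) le_rfl
          _ = r * A.valuation (σ (T i x / lam) - T i x / lam) := by rw [one_mul]
          _ < r * 1 := mul_lt_mul_of_pos_left (hσI _ (hξ i)) hr0'
          _ = r := mul_one r
    -- `(a + a') t`
    have h4 : A.valuation (((a + a' : ℕ) : K) * T i x) < r := by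
      rw [hn, Nat.cast_mul, map_mul, map_mul]
      calc A.valuation (p : K) * A.valuation (n : K) * A.valuation (T i x)
          ≤ r * 1 * r := mul_le_mul' (mul_le_mul' hpr (hnat n)) (hx i)
        _ = r * r := by rw [mul_one]
        _ < r := hrr
    have : T i y = (T i (s x + a' • x) - T i (s x) - T i (a' • x)) +
        (T i (a' • x) - a' * T i x) + (σ (T i x) - a * T i x) +
        ((a + a' : ℕ) : K) * T i x := by
      rw [hy, hsT]
      push_cast
      ring
    rw [this]
    refine lt_of_le_of_lt (A.valuation.map_add _ _) (max_lt ?_ h4)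
    refine lt_of_le_of_lt (A.valuation.map_add _ _) (max_lt ?_ h3)
    exact lt_of_le_of_lt (A.valuation.map_add _ _)
      (max_lt (lt_of_le_of_lt h1 hrr) (lt_of_le_of_lt (hm1 i) hrr))
  have hysm : ∀ i, A.valuation (T i y) ^ (p - 1) < A.valuation (p : K) := by
    intro i
    rw [← hlam]
    exact pow_lt_pow_left₀ (hylt i) zero_le (by omega)
  have hy0 : y = 0 := hsep y (small_torsion hp hp0 hval h0 hΔ hpy hysm)
  have hsum : a • x + a' • x = 0 := by
    rw [← add_smul, hn, mul_comm, mul_smul, hpx, smul_zero]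
  rw [hy] at hy0
  calc s x = -(a' • x) := eq_neg_of_add_eq_zero_left hy0
    _ = a • x := (eq_neg_of_add_eq_zero_left hsum).symm

end Fermat.Agent.GE8.LLP.DSOmega

end
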