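/-
S59 PRE-WORK / E8.4 LLP, RISK-1, node (DS-ω) (helper47), file 3: **the assembly.**

`N` with `p ∥ N`, `p` odd (`p = 3 → 2 ∣ N`), `A | p`.  On the pinned nodal disc frame `pinData H` of
GATE-S (`GS/Top/FrameNodeAll`) the classes of `M⁰_p` have coordinates in ONE `I_A`-equivariant chart
`𝔠₀` (`coords_disc`: `𝔪_A`-valued, separating, `Δ`-stable).  If the coordinates of the class of `x`
have size `≤ |ζ - 1|` (hypothesis `hB`, = (B) "deep at both Gauss valuations ⟹ small coordinates",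
`DSOmega/DeepCoord*`), then `σ x = ω(σ) x` for every `σ ∈ I_A` (`SmallTors.act_eq_nsmul`).
-/
import Mathlib
import Fermat.Agent.GS.Top.FrameNodeAll
import Fermat.Agent.GF.Shape.Plug
import Fermat.Agent.GF.NormDepth.Inst.Deep
import Fermat.Agent.GP.Ram.KummerBreak
import Fermat.Agent.GE8.LLP.DSOmega.SmallTors

set_option autoImplicit false
set_option linter.unusedSectionVars false
set_option linter.unusedVariables false
set_option linter.style.haveILetI false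

noncomputable section

open AlgebraicCurve ModularCurve IsLocalRing

namespace Fermat.Agent.GE8.LLP.DSOmega

open Fermat.Agent.S24 Fermat.Agent.S24_helper62 Fermat.Agent.RRh45 Fermat.Agent.RR
open Fermat.Agent.GJ.J1 Fermat.Agent.GJ.J1.Val Fermat.Agent.GJ.J1.InstGen
open Fermat.Agent.GK.AL Fermat.Agent.GK.MultiVal
open Fermat.Agent.GK.CuspSep Fermat.Agent.GK.SymChart Fermat.Agent.GK.SymDegree
open Fermat.Agent.GS.Nodal.LSR2 Fermat.Agent.GS.Nodal.Inst Fermat.Agent.GS.Nodal.SupplyPin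
open Fermat.Agent.GS.Nodal.DiscFacts2
open Fermat.Agent.GS.Frame Fermat.Agent.GS.Top.FramePlug Fermat.Agent.GS.Top.FrameNodeAll
open Fermat.Agent.GS.F Fermat.Agent.GS.Loc2 Fermat.Agent.GS.Loc2.Disc
open Fermat.Agent.GJ Fermat.Agent.GJ.KumGroup Fermat.Agent.GJ.Kum Fermat.Agent.GJ.CycChar
open Fermat.Agent.GF.Shape.Plug Fermat.Agent.GH Fermat.Agent.GK.BallTwo

attribute [local instance] finiteResidues_FN hasPrincipalDivisors_FN nonempty_place_FN
  isAlgClosed_res finiteResidues_Fres hasPrincipalDivisors_Fres nonempty_place_Fres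

local notation "Qb" => AlgebraicClosure ℚ
local notation "GQ" => (AlgebraicClosure ℚ ≃ₐ[ℚ] AlgebraicClosure ℚ)

/-! ### `σ (ζ - 1) ≡ a (ζ - 1)` modulo `(ζ - 1)²` -/

/-- `ζ^a - 1 - a (ζ - 1) ∈ (ζ - 1)² A`. -/
theorem val_pow_sub_one_sub_le (A : ValuationSubring Qb) {ζ : Qb} (hζA : ζ ∈ A) (a : ℕ) :
    A.valuation (ζ ^ a - 1 - a * (ζ - 1)) ≤ A.valuation (ζ - 1) * A.valuation (ζ - 1) := by
  have h1 : ∀ j : ℕ, ζ ^ j - 1 = (ζ - 1) * ∑ i ∈ Finset.range j, ζ ^ i := fun j => by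
    rw [mul_comm, ← mul_geom_sum, mul_comm]
  have e2 : (∑ j ∈ Finset.range a, ζ ^ j) - a = ∑ j ∈ Finset.range a, (ζ ^ j - 1) := by
    rw [Finset.sum_sub_distrib, Finset.sum_const, Finset.card_range, nsmul_eq_mul, mul_one]
  have e3 : ∑ j ∈ Finset.range a, (ζ ^ j - 1) =
      (ζ - 1) * ∑ j ∈ Finset.range a, ∑ i ∈ Finset.range j, ζ ^ i := by
    rw [Finset.mul_sum]
    exact Finset.sum_congr rfl fun j _ => h1 j
  have h2 : ζ ^ a - 1 - a * (ζ - 1) =
      (ζ - 1) * ((ζ - 1) * ∑ j ∈ Finset.range a, ∑ i ∈ Finset.range j, ζ ^ i) := by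
    rw [← e3, ← e2, h1 a]
    ring
  rw [h2, map_mul, map_mul, ← mul_assoc]
  have h3 : (∑ j ∈ Finset.range a, ∑ i ∈ Finset.range j, ζ ^ i) ∈ A :=
    A.toSubring.sum_mem fun j _ => A.toSubring.sum_mem fun i _ => A.toSubring.pow_mem hζA i
  calc A.valuation (ζ - 1) * A.valuation (ζ - 1) *
        A.valuation (∑ j ∈ Finset.range a, ∑ i ∈ Finset.range j, ζ ^ i)
      ≤ A.valuation (ζ - 1) * A.valuation (ζ - 1) * 1 :=
        mul_le_mul' le_rfl ((A.valuation_le_one_iff _).mpr h3)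
    _ = A.valuation (ζ - 1) * A.valuation (ζ - 1) := mul_one _

/-! ### the assembly -/

/-- **(DS-ω) from the coordinate bound (B)**: if on every pinned nodal frame the coordinates of the
class of `x ∈ M⁰_p` have size `≤ |ζ - 1|`, then `I_A` acts on `x` through `ω`. -/
theorem gal_eq_cyc_smul_of_coordBound {p N : ℕ} [NeZero N] [Fact p.Prime] (h : ExactDvd p N)
    (hp2 : p ≠ 2) (hside : p = 3 → 2 ∣ N) (A : ValuationSubring Kbar) (hA : A.LiesOverPrime p)
    {ζ : Qb} (hζ : IsPrimitiveRoot ζ p)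
    (x : Additive (Kum Qb (FK N) p)) (hxM : x ∈ M0Kum N A h p)
    (hB : haveI : Infinite (ResidueField A) := IsAlgClosed.instInfinite
      ∀ {ι : Type} [Fintype ι] {P Q : ι → Place (ResidueField A) (FresBar N A)} {c : ℤ} {n₀ : ℕ}
      (FF : FrameFacts N A h P Q)
      (H : NodalHyp (redCompatFN N A h) P Q (CS N h) (Dτ N A p) (Dτ N A p)
        (genusRR Kbar (FN N)) c n₀)
      {n : ℕ} (hn : (n : ℤ) = genusRR Kbar (FN N)) (𝔠 : Chart (pinData H) n) (τ : Fin n → Kbar),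
      IsCoord 𝔠 (kumJ N p x) τ → ∀ i, A.valuation (τ i) ≤ A.valuation (ζ - 1))
    {σ : GQ} (hσ : σ ∈ A.inertiaSubgroupIn ℚ) :
    KumType.gal N p σ x = ((cyc p σ : (ZMod p)ˣ) : ZMod p) • x := by
  haveI : NeZero p := ⟨(Fact.out : p.Prime).ne_zero⟩
  have hp : p.Prime := Fact.out
  obtain ⟨ι, hι, P, Q, c, n₀, FF, H⟩ :=
    exists_nodalHyp_of_exactDvd N p A h hA (fun e => absurd e hp2) hside
  haveI : Nonempty ι := nonempty_of_frameFacts N A h hA FF
  haveI : Infinite (ResidueField A) := IsAlgClosed.instInfinite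
  haveI : Infinite (Place (ResidueField A) (FresBar N A)) := infinite_place_Fres N A
  have hg : 0 ≤ genusRR Kbar (FN N) := by
    have h1 := genusRR_eq_of_frameFacts N A h hA FF
    have h2 : 0 < Fintype.card ι := Fintype.card_pos
    have h3 : (0 : ℤ) < (Fintype.card ι : ℤ) := by exact_mod_cast h2
    have h4 : (0 : ℤ) ≤ (genusFF (ResidueField A) (FresBar N A) : ℤ) := Int.natCast_nonneg _
    linarith
  obtain ⟨n, hn⟩ : ∃ n : ℕ, (n : ℤ) = genusRR Kbar (FN N) :=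
    ⟨(genusRR Kbar (FN N)).toNat, Int.toNat_of_nonneg hg⟩
  obtain ⟨hΦ, hsup, hadd, hun, hsm, hinj⟩ :=
    pin_target H FF.injP FF.injQ (Fermat.Agent.GH.Inst.harch A h.prime hA) n hn
  obtain ⟨𝔠₀, h𝔠⟩ := Fermat.Agent.GS.Gal.FixedChart2.exists_equivariant_chart N A h hA H
    (ff2_pin H) (fun _ hq => hq.1) (fun _ hq => hq.1) hsup
  have hex := Fermat.Agent.GS.F.A2Plug.coordExists_M0mod_nodal h hA H (ff2_pin H) hn
    FF.degP FF.degQ
  -- the finite group `M⁰_p` and its coordinates in the chart `𝔠₀`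
  haveI : Finite ↥(M0mod N A h p) := finite_M0mod A h
  choose T hT using fun m : ↥(M0mod N A h p) => hex 𝔠₀ m.1 m.2
  obtain ⟨hvalnu, hsepar, hΔ⟩ := coords_disc hun hsm hinj hex hsup hadd
    (M0mod N A h p).subtype (AddSubgroup.subtype_injective _) (fun m => m.2) 𝔠₀
    (fun i m => T m i) (fun m => hT m)
  have hval : ∀ i (m : ↥(M0mod N A h p)), T m i ∈ A := fun i m =>
    mem_A_of_mem_nonunits A (hvalnu i m)
  have h0 : ∀ i, T 0 i = 0 := by
    intro i
    have h1 := hun 𝔠₀ _ _ _ (hT 0) (isCoord_zero 𝔠₀)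
    exact congrFun h1 i
  have hsep : ∀ z : ↥(M0mod N A h p), (∀ i, T z i = 0) → z = 0 := by
    intro z hz
    by_contra hne
    obtain ⟨i, hi⟩ := hsepar z 0 hne
    exact hi (by rw [hz i, h0 i])
  -- the action of `σ`
  have hσD : σ ∈ A.decompositionSubgroup ℚ :=
    Fermat.Agent.S05.mem_decompositionSubgroup_of_mem_inertiaSubgroupIn hσ
  let s : ↥(M0mod N A h p) →+ ↥(M0mod N A h p) :=
    { toFun := fun m => ⟨σ • m.1, smul_mem_M0mod hσD m.2⟩
      map_zero' := Subtype.ext (smul_zero σ)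
      map_add' := fun a b => Subtype.ext (smul_add σ a.1 b.1) }
  have hs : ∀ m : ↥(M0mod N A h p), ((s m : ↥(M0mod N A h p)) : JZero N) = σ • m.1 := fun _ => rfl
  have hsT : ∀ i (m : ↥(M0mod N A h p)), T (s m) i = (σ : Qb →+* Qb) (T m i) := by
    intro i m
    have h1 := h𝔠 σ hσ m.1 (T m) (hT m)
    have h2 := hun 𝔠₀ _ _ _ (hT (s m)) h1
    exact congrFun h2 i
  -- the root of unity
  have hζA : ζ ∈ A := by
    rw [← A.valuation_le_one_iff]
    have h1 : A.valuation ζ ^ p = 1 := by rw [← map_pow, hζ.pow_eq_one, map_one]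
    exact le_of_eq ((pow_eq_one_iff_of_nonneg zero_le hp.ne_zero).mp h1)
  have hlam0 : ζ - 1 ≠ 0 := sub_ne_zero.mpr (hζ.ne_one hp.one_lt)
  have hlam : A.valuation (ζ - 1) ^ (p - 1) = A.valuation ((p : ℕ) : Qb) :=
    (Fermat.Agent.GP.Ram.KummerBreak.val_p_eq A.valuation hζ).symm
  have hp0 : ((p : ℕ) : Qb) ≠ 0 := Nat.cast_ne_zero.mpr hp.ne_zero
  have hplt : A.valuation ((p : ℕ) : Qb) < 1 := A.mem_nonunits_iff.mp hA
  obtain ⟨a, ha⟩ : ∃ a : ℕ, a = ((cyc p σ : (ZMod p)ˣ) : ZMod p).val := ⟨_, rfl⟩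
  have hσζ : σ ζ = ζ ^ a := by rw [ha]; exact apply_eq_pow hζ σ
  have hσlam : A.valuation ((σ : Qb →+* Qb) (ζ - 1) - a * (ζ - 1)) ≤
      A.valuation (ζ - 1) * A.valuation (ζ - 1) := by
    have : (σ : Qb →+* Qb) (ζ - 1) = ζ ^ a - 1 := by
      rw [map_sub, map_one]
      exact congrArg (· - 1) hσζ
    rw [this]
    exact val_pow_sub_one_sub_le A hζA a
  -- the class of `x`
  obtain ⟨x', hx'⟩ : ∃ x' : ↥(M0mod N A h p), (x' : JZero N) = kumJ N p x :=
    ⟨⟨_, mem_M0Kum.1 hxM⟩, rfl⟩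
  have hpx : p • x' = 0 := by
    apply Subtype.ext
    have := smul_eq_zero_of_mem_M0mod x'.2
    rw [natCast_zsmul] at this
    exact this
  have hxb : ∀ i, A.valuation (T x' i) ≤ A.valuation (ζ - 1) :=
    hB FF H hn 𝔠₀ (T x') (hx' ▸ hT x')
  have hmain := act_eq_nsmul (A := A) (T := fun i m => T m i) hp hp0 hplt hval
    h0 hΔ hsep (σ : Qb →+* Qb)
    (fun c hc => (Fermat.Agent.S05.apply_mem_iff_of_mem_inertiaSubgroupIn hσ c).2 hc)
    (fun c hc => A.mem_nonunits_iff.mp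
      (Fermat.Agent.S05.apply_sub_mem_nonunits_of_mem_inertiaSubgroupIn hσ hc))
    s hsT hlam0 hlam hσlam hpx hxb
  -- back to `Kum`
  apply kumJ_injective N p
  rw [kumJ_gal]
  have h1 : σ • kumJ N p x = a • kumJ N p x := by
    have h2 := congrArg (fun m : ↥(M0mod N A h p) => (m : JZero N)) hmain
    rw [← hx']
    exact h2
  rw [h1, ← map_nsmul]
  congr 1
  rw [← Nat.cast_smul_eq_nsmul (ZMod p), ha, ZMod.natCast_zmod_val]

end Fermat.Agent.GE8.LLP.DSOmega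

end
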