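/-
S59 PRE-WORK / E8.4 LLP, RISK-1, node (DS-ω) (helper47), file 4: **the last seam.**

`CoordBoundAt p N h` is statement (B) of the route on the modular nodal frames: for every `A | p ∥ N`,
every constant `lam` with `|lam|^(p-1) = |p|`, every class `x` of `M⁰_p` which is deep for BOTH Gauss
valuations above `A`, every nodal frame `(FF, H)` of the level and every chart `𝔠` of `pinData H`:
the coordinates of `kumJ x` in `𝔠` have size `≤ |lam|`.

* `dsOmegaAt_of_coordBoundAt` : `CoordBoundAt p (M' p) h → DSOmegaAt p M' h`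
  (`p ≠ 2`, `p = 3 → 2 ∣ M' p`), by `Main.gal_eq_cyc_smul_of_coordBound` at `lam := ζ - 1`.
* `dsOmega_of_coordBound`, `torP_of_coordBound` : the all-levels forms for `5 ≤ p`.
-/
import Mathlib
import Fermat.Agent.GE8.LLP.DSOmegaStmt
import Fermat.Agent.GE8.LLP.DSOmega.Main

set_option autoImplicit false
set_option linter.unusedSectionVars false
set_option linter.unusedVariables false
set_option linter.style.haveILetI false

noncomputable section

open AlgebraicCurve ModularCurve IsLocalRing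

namespace Fermat.Agent.GE8.LLP.DSOmega

open Fermat.Agent.S24 Fermat.Agent.S24_helper62 Fermat.Agent.RRh45 Fermat.Agent.RR
open Fermat.Agent.GJ.J1 Fermat.Agent.GJ.J1.Val Fermat.Agent.GJ.J1.InstGen
open Fermat.Agent.GK.AL Fermat.Agent.GK.MultiVal
open Fermat.Agent.GK.CuspSep Fermat.Agent.GK.SymChart Fermat.Agent.GK.SymDegree
open Fermat.Agent.GS.Nodal.LSR2 Fermat.Agent.GS.Nodal.Inst Fermat.Agent.GS.Nodal.SupplyPin
open Fermat.Agent.GS.Nodal.DiscFacts2
open Fermat.Agent.GS.Frame Fermat.Agent.GS.Top.FramePlug Fermat.Agent.GS.Top.FrameNodeAll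
open Fermat.Agent.GS.F Fermat.Agent.GS.Loc2 Fermat.Agent.GS.Loc2.Disc
open Fermat.Agent.GJ Fermat.Agent.GJ.KumGroup Fermat.Agent.GJ.Kum Fermat.Agent.GJ.CycChar
open Fermat.Agent.GF.Shape.Plug Fermat.Agent.GH Fermat.Agent.GK.BallTwo
open Fermat.Agent.GF.NormDepth.Inst Fermat.Agent.GE8.LLP.TorP

attribute [local instance] finiteResidues_FN hasPrincipalDivisors_FN nonempty_place_FN
  isAlgClosed_res finiteResidues_Fres hasPrincipalDivisors_Fres nonempty_place_Fres

local notation "Qb" => AlgebraicClosure ℚ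
local notation "GQ" => (AlgebraicClosure ℚ ≃ₐ[ℚ] AlgebraicClosure ℚ)

/-- **Statement (B) on the modular nodal frames of the level `N`, `p ∥ N`**: a class of `M⁰_p` which
is deep for both Gauss valuations above `A | p` has all its chart coordinates (any nodal frame of
the level, any chart) of size `≤ |lam|`, for every constant with `|lam|^(p-1) = |p|`. -/
def CoordBoundAt (p N : ℕ) [NeZero N] [Fact p.Prime] (h : ExactDvd p N) : Prop :=
  ∀ (A : ValuationSubring Kbar), A.LiesOverPrime p →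
    ∀ lam : Qb, A.valuation lam ^ (p - 1) = A.valuation ((p : ℕ) : Qb) →
    ∀ x : Additive (Kum Qb (FK N) p), x ∈ M0Kum N A h p →
      Deep (redDataBar N A) p x → Deep (redData2 N A h) p x →
      haveI : Infinite (ResidueField A) := IsAlgClosed.instInfinite
      ∀ {ι : Type} [Fintype ι] {P Q : ι → Place (ResidueField A) (FresBar N A)} {c : ℤ} {n₀ : ℕ}
      (FF : FrameFacts N A h P Q)
      (H : NodalHyp (redCompatFN N A h) P Q (CS N h) (Dτ N A p) (Dτ N A p)
        (genusRR Kbar (FN N)) c n₀)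
      {n : ℕ} (hn : (n : ℤ) = genusRR Kbar (FN N)) (𝔠 : Chart (pinData H) n) (τ : Fin n → Kbar),
      IsCoord 𝔠 (kumJ N p x) τ → ∀ i, A.valuation (τ i) ≤ A.valuation lam

/-- **(B) ⟹ (DS-ω) at the level `M' p`.** -/
theorem dsOmegaAt_of_coordBoundAt {p : ℕ} [Fact p.Prime] {M' : ℕ} [NeZero M']
    (h : ExactDvd p (M' * p)) (hp2 : p ≠ 2) (hside : p = 3 → 2 ∣ M' * p)
    (hB : CoordBoundAt p (M' * p) h) : DSOmegaAt p M' h := by
  intro A hA σ hσ x hxM hd1 hd2
  obtain ⟨ζ, hζ⟩ := exists_primitiveRoot p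
  have hlam : A.valuation (ζ - 1) ^ (p - 1) = A.valuation ((p : ℕ) : Qb) :=
    (Fermat.Agent.GP.Ram.KummerBreak.val_p_eq A.valuation hζ).symm
  exact gal_eq_cyc_smul_of_coordBound h hp2 hside A hA hζ x hxM
    (fun FF H _ hn 𝔠 τ hτ => hB A hA (ζ - 1) hlam x hxM hd1 hd2 FF H hn 𝔠 τ hτ) hσ

/-- **(B) at every level ⟹ (DS-ω)**, `5 ≤ p`. -/
theorem dsOmega_of_coordBound {p : ℕ} [Fact p.Prime] (hp5 : 5 ≤ p)
    (hB : ∀ (M' : ℕ) [NeZero M'] (h : ExactDvd p (M' * p)), CoordBoundAt p (M' * p) h) :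
    DSOmegaStmt p :=
  fun M' _ h => dsOmegaAt_of_coordBoundAt h (by omega) (by omega) (hB M' h)

/-- **(B) at every level ⟹ (TOR-p)**, `5 ≤ p`. -/
theorem torP_of_coordBound {p : ℕ} [Fact p.Prime] (hp5 : 5 ≤ p)
    (hB : ∀ (M' : ℕ) [NeZero M'] (h : ExactDvd p (M' * p)), CoordBoundAt p (M' * p) h) :
    TorPStmt p :=
  torP_of_dsOmega (dsOmega_of_coordBound hp5 hB)

end Fermat.Agent.GE8.LLP.DSOmega

end
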