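/-
S59 PRE-WORK / E8.4 LLP, RISK-1, node (DS-ω) (helper47), file 5 (`DSOmega/Top.lean`): **(B) on the modular nodal frames.**

`coordBoundAt : CoordBoundAt p N h` — the nodal instance of helper71's abstract
`DeepCoordAdm.coord_le_of_deepRep_star` at `Φ := pinData H` (pattern `GS/F/A2Plug`), fed with the
adapted Kummer function `u₀ d^p` of a doubly deep class of `M⁰_p` (helper65 `AdaptedRep`):

* `x ∈ M⁰_p` gives an admissible unit `u₀ ∈ goodUnitsMod` with `[u₀] = x` in `Kum_p(F_N)`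
  (`mem_M0mod_iff`, `kumJ_injective`), `Adm2 R1 R2 u₀` (`adm2_of_mem_goodUnitsMod`);
* `IsCoord 𝔠 (kumJ x) τ` gives `X_i` and `d` with `div (u₀ d^p) = p (Σ X_i - D0)`
  (`exists_adapted_unit`);
* `Deep R_i p x` gives `DeepRep R_i p (u₀ d^p)` (`deepAt_of_deep`).

With `Final.dsOmegaAt_of_coordBoundAt` this closes (DS-ω): `dsOmegaAt`, `dsOmegaStmt`, `torPStmt`.
-/
import Mathlib
import Fermat.Agent.GE8.LLP.DSOmega.Final
import Fermat.Agent.GE8.LLP.DSOmega.DeepCoordAdm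
import Fermat.Agent.GE8.LLP.DSOmega.AdaptedRep
import Fermat.Agent.GS.F.A2Plug

set_option autoImplicit false
set_option linter.unusedSectionVars false
set_option linter.unusedVariables false
set_option linter.style.haveILetI false

noncomputable section

open AlgebraicCurve ModularCurve IsLocalRing

namespace Fermat.Agent.GE8.LLP.DSOmega

open Fermat.Agent.S24 Fermat.Agent.S24_helper62 Fermat.Agent.RRh45 Fermat.Agent.RR
open Fermat.Agent.GJ.J1 Fermat.Agent.GJ.J1.Val Fermat.Agent.GJ.J1.InstGen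
open Fermat.Agent.GK.AL Fermat.Agent.GK.MultiVal
open Fermat.Agent.GK.CuspSep Fermat.Agent.GK.SymChart Fermat.Agent.GK.SymDegree
open Fermat.Agent.GS.Nodal.LSR2 Fermat.Agent.GS.Nodal.Inst Fermat.Agent.GS.Nodal.SupplyPin
open Fermat.Agent.GS.Nodal.DiscFacts2
open Fermat.Agent.GS.Frame Fermat.Agent.GS.Top.FramePlug Fermat.Agent.GS.Top.FrameNodeAll
open Fermat.Agent.GS.F Fermat.Agent.GS.Loc2 Fermat.Agent.GS.Loc2.Disc Fermat.Agent.GS.Loc2.Ker
open Fermat.Agent.GJ Fermat.Agent.GJ.KumGroup Fermat.Agent.GJ.Kum Fermat.Agent.GJ.CycChar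
open Fermat.Agent.GF.Shape.Plug Fermat.Agent.GH Fermat.Agent.GK.BallTwo
open Fermat.Agent.GF.NormDepth.Inst Fermat.Agent.GE8.LLP.TorP
open Fermat.Agent.GH.KummerPic Fermat.Agent.GS.Nodal.L5
open Fermat.Agent.GE8.LLP.DSOmega.DeepCoord Fermat.Agent.GE8.LLP.DSOmega.AdaptedRep

attribute [local instance] finiteResidues_FN hasPrincipalDivisors_FN nonempty_place_FN
  isAlgClosed_res finiteResidues_Fres hasPrincipalDivisors_Fres nonempty_place_Fres

local notation "Qb" => AlgebraicClosure ℚ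
local notation "GQ" => (AlgebraicClosure ℚ ≃ₐ[ℚ] AlgebraicClosure ℚ)

/-- **(B) on the modular nodal frames**: the coordinates of a doubly deep class of `M⁰_p` have size
`≤ |lam|`, `|lam|^(p-1) = |p|`. -/
theorem coordBoundAt {p N : ℕ} [NeZero N] [Fact p.Prime] (h : ExactDvd p N) :
    CoordBoundAt p N h := by
  intro A hA lam hlam x hxM hd1 hd2
  intro ι _ P Q c n₀ FF H n hn 𝔠 τ hτ
  haveI : NeZero p := ⟨(Fact.out : p.Prime).ne_zero⟩
  have hp : p.Prime := Fact.out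
  haveI : Infinite (ResidueField A) := IsAlgClosed.instInfinite
  haveI : Nonempty ι := nonempty_of_frameFacts N A h hA FF
  haveI : Infinite (Place (ResidueField A) (FresBar N A)) := infinite_place_Fres N A
  haveI : CharP (ResidueField A) p := charP_res A hp hA
  -- the admissible generator of the class
  obtain ⟨u, hu, D, hD, hxD⟩ := mem_M0mod_iff.1 (mem_M0Kum.1 hxM)
  have hadm : Adm2 (redDataBar N A) (redData2 N A h) (u : FK N) := adm2_of_mem_goodUnitsMod hu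
  have hupd : u ∈ pDivUnits Qb (FK N) p := fun v => ⟨(D : Divisor Qb (FK N)) v, (hD v).symm⟩
  have hxu : Additive.ofMul (Kum.mk (⟨u, hupd⟩ : pDivUnits Qb (FK N) p)) = x := by
    apply kumJ_injective N p
    rw [hxD]
    show Pic0.mk ⟨divDiv p (⟨u, hupd⟩ : pDivUnits Qb (FK N) p), _⟩ = Pic0.mk D
    congr 1
    apply Subtype.ext
    ext v
    have h1 := mul_divDiv_apply p (⟨u, hupd⟩ : pDivUnits Qb (FK N) p) v
    have hp0 : (p : ℤ) ≠ 0 := Int.natCast_ne_zero.2 hp.ne_zero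
    apply mul_left_cancel₀ hp0
    rw [h1]
    exact (hD v).symm
  -- the coordinates
  obtain ⟨X, hX, hval, hdeg, hξ⟩ := hτ
  rw [← hxu] at hξ
  obtain ⟨d, hd⟩ := exists_adapted_unit (⟨u, hupd⟩ : pDivUnits Qb (FK N) p) ⟨_, hdeg⟩ hξ
  have hdr1 : DeepRep (redDataBar N A) p ((u : FK N) * (d : FK N) ^ p) :=
    deepAt_of_deep (u₀ := (⟨u, hupd⟩ : pDivUnits Qb (FK N) p)) (hxu ▸ hd1) ⟨d, rfl⟩
  have hdr2 : DeepRep (redData2 N A h) p ((u : FK N) * (d : FK N) ^ p) :=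
    deepAt_of_deep (u₀ := (⟨u, hupd⟩ : pDivUnits Qb (FK N) p)) (hxu ▸ hd2) ⟨d, rfl⟩
  have hp0 : ((p : ℕ) : Qb) ≠ 0 := Nat.cast_ne_zero.mpr hp.ne_zero
  have hplt : A.valuation ((p : ℕ) : Qb) < 1 := A.mem_nonunits_iff.mp hA
  exact coord_le_of_deepRep_star (redCompatFN N A h) (discFacts_nodal H (ff2_pin H)) rfl
    (glueHyp_nodal H (ff2_pin H)).ball (fun x h1 h2 hB e1 e2 => Prod.ext e1 e2)
    (chartSupply_pin H FF.injP FF.injQ n hn) p (hperf_res A hp.pos)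
    (fun c => IsAlgClosed.exists_pow_nat_eq c hp.pos)
    FF.degP FF.degQ (unram_redDataBar N A) (unram_redData2 N A h) 𝔠
    (chart_glue (glueHyp_nodal H (ff2_pin H)) p
      (fun Qf _ X hX => l5p_of_nodal H (ff2_pin H) (hexcl_of_nodal H (ff2_pin H)) _ p Qf X hX) 𝔠)
    hX hval hadm d.ne_zero hd hdr1 hdr2 hlam.symm hp0 hplt

/-! ### (DS-ω) -/

/-- **(DS-ω) at the level `M' p`**, `p` odd (`p = 3`: even level). -/
theorem dsOmegaAt {p : ℕ} [Fact p.Prime] {M' : ℕ} [NeZero M'] (h : ExactDvd p (M' * p))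
    (hp2 : p ≠ 2) (hside : p = 3 → 2 ∣ M' * p) : DSOmegaAt p M' h :=
  dsOmegaAt_of_coordBoundAt h hp2 hside (coordBoundAt h)

/-- **(DS-ω)** at every level, `5 ≤ p`. -/
theorem dsOmegaStmt {p : ℕ} [Fact p.Prime] (hp5 : 5 ≤ p) : DSOmegaStmt p :=
  dsOmega_of_coordBound hp5 fun M' _ h => coordBoundAt h

/-- **(TOR-p)**, `5 ≤ p`. -/
theorem torPStmt {p : ℕ} [Fact p.Prime] (hp5 : 5 ≤ p) : TorPStmt p :=
  torP_of_dsOmega (dsOmegaStmt hp5)

end Fermat.Agent.GE8.LLP.DSOmega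

end
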