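/-
GATE-E (S59) / RISK-1 (DS-ω), leaf GE8-LLP-DSOMEGA-ASRESIDUE (helper19), file 1:
**the Artin–Schreier residue of a `p`-th root at the critical depth** — Mathlib only.

`F` a field, `W` a valuation subring, `ζ ∈ F` a primitive `p`-th root of unity (`p` prime) with
`π := ζ − 1 ∈ 𝔪_W` (residue characteristic `p`).  `theta ζ j := (ζ^j − 1)/(ζ − 1) = Σ_{i<j} ζ^i`.

* `one_add_mul_pow_sub_one` : `(1 + π d)^p − 1 = π^p · ∏_{j<p} (d − θ_j)`   (exact);
* `prod_sub_natCast`        : in a field of characteristic `p`: `∏_{j<p} (x − j) = x^p − x`;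
* `natCast_mem_nonunits`    : `p ∈ 𝔪_W`;
* **`exists_root_form`**    : `e^p ≡ 1 + π^p g` modulo `π^p 𝔪_W`, `g ∈ W`  ⟹
  `e = ζ^j (1 + π d)`, `d ∈ W`, and `∏_{i<p}(d − θ_i) − g ∈ 𝔪_W`;
* **`red_eq_pow_sub`**      : for any reduction `red : W →+* κ` (kernel `𝔪_W`):
  `red g = (red d)^p − red d`   (the Artin–Schreier equation `ḡ = ℘(d̄)`);
* `red_root_unique`         : `d̄` is determined by `e` up to the shift `j ↦ j'`:
  `ζ^j (1 + π d) = ζ^j' (1 + π d')  ⟹  d̄' + j' = d̄ + j`;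
* `red_root_mul`            : root forms multiply, residues add;
* `val_theta_eq_one`, `red_theta` : `θ_a` is a unit with residue `a` (`p ∤ a`): the rescaling
  `π ↦ ζ^a − 1 = θ_a π` (the `ω`-rule for `σ ζ = ζ^a`) divides `d̄` and `ḡ` by `a`.
-/
import Mathlib

set_option autoImplicit false

noncomputable section

namespace Fermat.Agent.GE8.LLP.DSOmega.ASResidue

open Polynomial Finset

/-! ### characteristic `p` -/

section CharP

variable {κ : Type*} [Field κ] {p : ℕ} [hp : Fact p.Prime]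

theorem natCast_pow_self (hp0 : (p : κ) = 0) (j : ℕ) : ((j : κ)) ^ p = j := by
  have : CharP κ p := (CharP.charP_iff_prime_eq_zero hp.out).2 hp0
  have h := map_natCast (frobenius κ p) j
  rwa [frobenius_def] at h

theorem natCast_injOn (hp0 : (p : κ) = 0) :
    Set.InjOn (fun j : ℕ => (j : κ)) (range p : Set ℕ) := by
  have : CharP κ p := (CharP.charP_iff_prime_eq_zero hp.out).2 hp0
  intro a ha b hb hab
  have ha' : a < p := by simpa using ha
  have hb' : b < p := by simpa using hb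
  have h1 : (a : κ) = (b : κ) := hab
  rw [CharP.natCast_eq_natCast κ p] at h1
  exact Nat.ModEq.eq_of_lt_of_lt h1 ha' hb'

/-- **`∏_{j<p} (x − j) = x^p − x` in characteristic `p`.** -/
theorem prod_sub_natCast (hp0 : (p : κ) = 0) (x : κ) :
    ∏ j ∈ range p, (x - (j : κ)) = x ^ p - x := by
  classical
  have hp1 : 1 < p := hp.out.one_lt
  set P : κ[X] := ∏ j ∈ range p, (X - C ((j : ℕ) : κ)) with hP
  have hPm : P.Monic := monic_prod_of_monic _ _ (fun j _ => monic_X_sub_C _)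
  have hPd : P.natDegree = p := by
    rw [hP, natDegree_prod_of_monic _ _ (fun j _ => monic_X_sub_C _)]
    simp only [natDegree_X_sub_C, sum_const, card_range, smul_eq_mul, mul_one]
  have hQm : (X ^ p - X : κ[X]).Monic := monic_X_pow_sub (by
    rw [degree_X]; exact_mod_cast hp1)
  have hQd : (X ^ p - X : κ[X]).natDegree = p := by
    rw [natDegree_sub_eq_left_of_natDegree_lt] <;> simp [hp1]
  have hD : (X ^ p - X - P : κ[X]) = 0 := by
    by_contra hne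
    have hdeg : (X ^ p - X - P : κ[X]).natDegree < p := by
      have h1 : (X ^ p - X - P : κ[X]).degree < (X ^ p - X : κ[X]).degree :=
        degree_sub_lt_left (by rw [degree_eq_natDegree hQm.ne_zero, degree_eq_natDegree hPm.ne_zero,
          hQd, hPd]) hQm.ne_zero (by rw [hQm.leadingCoeff, hPm.leadingCoeff])
      rw [degree_eq_natDegree hne, degree_eq_natDegree hQm.ne_zero, hQd] at h1
      exact_mod_cast h1
    refine hne (eq_zero_of_natDegree_lt_card_of_eval_eq_zero' _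
      ((range p).image (fun j : ℕ => (j : κ))) ?_ ?_)
    · intro y hy
      obtain ⟨j, hj, rfl⟩ := mem_image.1 hy
      rw [eval_sub, eval_sub, eval_pow, eval_X, natCast_pow_self hp0, sub_self, zero_sub,
        neg_eq_zero, hP, eval_prod]
      exact prod_eq_zero hj (by simp)
    · rw [card_image_of_injOn (natCast_injOn hp0), card_range]
      exact hdeg
  have h2 : P = X ^ p - X := (sub_eq_zero.1 hD).symm
  have h3 := congrArg (eval x) h2
  rw [hP, eval_prod] at h3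
  simpa using h3

end CharP

/-! ### the root form at the critical depth -/

section Val

variable {F : Type*} [Field F] (W : ValuationSubring F) {p : ℕ} [hp : Fact p.Prime] {ζ : F}

/-- `θ_j = (ζ^j − 1)/(ζ − 1) = Σ_{i<j} ζ^i`. -/
def theta (ζ : F) (j : ℕ) : F := ∑ i ∈ range j, ζ ^ i

theorem theta_mul_sub_one (ζ : F) (j : ℕ) : theta ζ j * (ζ - 1) = ζ ^ j - 1 :=
  geom_sum_mul ζ j

@[simp] theorem theta_zero (ζ : F) : theta ζ 0 = 0 := by simp [theta]

@[simp] theorem theta_one (ζ : F) : theta ζ 1 = 1 := by simp [theta]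

theorem pow_eq_one_add (ζ : F) (j : ℕ) : ζ ^ j = 1 + (ζ - 1) * theta ζ j := by
  rw [mul_comm, theta_mul_sub_one]; ring

variable {W}

theorem zeta_mem (hζ : IsPrimitiveRoot ζ p) : ζ ∈ W := by
  rw [← W.valuation_le_one_iff]
  have h1 : W.valuation ζ ^ p = 1 := by rw [← map_pow, hζ.pow_eq_one, map_one]
  exact ((pow_eq_one_iff_of_nonneg zero_le hp.out.ne_zero).1 h1).le

theorem val_zeta (hζ : IsPrimitiveRoot ζ p) : W.valuation ζ = 1 := by
  have h1 : W.valuation ζ ^ p = 1 := by rw [← map_pow, hζ.pow_eq_one, map_one]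
  exact (pow_eq_one_iff_of_nonneg zero_le hp.out.ne_zero).1 h1

theorem theta_mem (hζ : IsPrimitiveRoot ζ p) (j : ℕ) : theta ζ j ∈ W :=
  sum_mem (fun i _ => pow_mem (zeta_mem hζ) i)

theorem sub_one_ne_zero (hζ : IsPrimitiveRoot ζ p) : ζ - 1 ≠ 0 :=
  sub_ne_zero.2 (hζ.ne_one hp.out.one_lt)

/-- **`(1 + π d)^p − 1 = π^p ∏_{j<p} (d − θ_j)`.** -/
theorem one_add_mul_pow_sub_one (hζ : IsPrimitiveRoot ζ p) (d : F) :
    (1 + (ζ - 1) * d) ^ p - 1 = (ζ - 1) ^ p * ∏ j ∈ range p, (d - theta ζ j) := by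
  have h1 := X_pow_sub_C_eq_prod hζ hp.out.pos (one_pow p)
  have h2 := congrArg (eval (1 + (ζ - 1) * d)) h1
  rw [eval_sub, eval_pow, eval_X, eval_C, eval_prod] at h2
  have h3 : (ζ - 1) ^ p = ∏ _j ∈ range p, (ζ - 1) := by rw [prod_const, card_range]
  rw [h2, h3, ← prod_mul_distrib]
  refine prod_congr rfl (fun j _ => ?_)
  rw [eval_sub, eval_X, eval_C, mul_one, pow_eq_one_add ζ j]
  ring

/-- `y^p − 1 = ∏_{j<p} (y − ζ^j)`. -/
theorem pow_sub_one_eq_prod (hζ : IsPrimitiveRoot ζ p) (y : F) :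
    y ^ p - 1 = ∏ j ∈ range p, (y - ζ ^ j) := by
  have h1 := X_pow_sub_C_eq_prod hζ hp.out.pos (one_pow p)
  have h2 := congrArg (eval y) h1
  rw [eval_sub, eval_pow, eval_X, eval_C, eval_prod] at h2
  rw [h2]
  exact prod_congr rfl (fun j _ => by rw [eval_sub, eval_X, eval_C, mul_one])

/-- `p = −π · Σ_{i<p} θ_i`. -/
theorem natCast_eq (hζ : IsPrimitiveRoot ζ p) :
    (p : F) = -((ζ - 1) * ∑ i ∈ range p, theta ζ i) := by
  have h0 : ∑ i ∈ range p, ζ ^ i = 0 := hζ.geom_sum_eq_zero hp.out.one_lt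
  have h1 : ∑ i ∈ range p, (ζ ^ i - 1) = -(p : F) := by
    rw [sum_sub_distrib, h0]; simp
  have h2 : ∑ i ∈ range p, (ζ ^ i - 1) = (ζ - 1) * ∑ i ∈ range p, theta ζ i := by
    rw [mul_sum]
    exact sum_congr rfl (fun i _ => by rw [mul_comm, theta_mul_sub_one])
  rw [← h2, h1, neg_neg]

/-- `p ∈ 𝔪_W`. -/
theorem natCast_mem_nonunits (hζ : IsPrimitiveRoot ζ p) (hπ : ζ - 1 ∈ W.nonunits) :
    (p : F) ∈ W.nonunits := by
  rw [W.mem_nonunits_iff] at hπ ⊢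
  rw [natCast_eq hζ, Valuation.map_neg, map_mul]
  have h1 : W.valuation (∑ i ∈ range p, theta ζ i) ≤ 1 :=
    (W.valuation_le_one_iff _).2 (sum_mem (fun i _ => theta_mem hζ i))
  calc W.valuation (ζ - 1) * W.valuation (∑ i ∈ range p, theta ζ i)
      ≤ W.valuation (ζ - 1) * 1 := mul_le_mul_right h1 _
    _ < 1 := by rwa [mul_one]

/-- **the root form**: if `e^p ≡ 1 + π^p g` modulo `π^p 𝔪_W` with `g ∈ W`, then `e = ζ^j (1 + π d)`
with `d ∈ W` and `∏_{i<p}(d − θ_i) ≡ g` modulo `𝔪_W`. -/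
theorem exists_root_form (hζ : IsPrimitiveRoot ζ p) {e g : F} (hg : g ∈ W)
    (h : W.valuation (e ^ p - (1 + (ζ - 1) ^ p * g)) < W.valuation (ζ - 1) ^ p) :
    ∃ j : ℕ, j < p ∧ ∃ d : F, d ∈ W ∧ e = ζ ^ j * (1 + (ζ - 1) * d) ∧
      W.valuation (∏ i ∈ range p, (d - theta ζ i) - g) < 1 := by
  set v := W.valuation with hv
  have hπ0 : ζ - 1 ≠ 0 := sub_one_ne_zero hζ
  have hvπ : v (ζ - 1) ≠ 0 := (Valuation.ne_zero_iff _).2 hπ0
  have hvπp : 0 < v (ζ - 1) ^ p := pow_pos (zero_lt_iff.2 hvπ) p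
  -- step 1
  have h1 : v (e ^ p - 1) ≤ v (ζ - 1) ^ p := by
    have : e ^ p - 1 = (e ^ p - (1 + (ζ - 1) ^ p * g)) + (ζ - 1) ^ p * g := by ring
    rw [this]
    refine (Valuation.map_add _ _ _).trans (max_le h.le ?_)
    rw [map_mul, map_pow]
    calc v (ζ - 1) ^ p * v g ≤ v (ζ - 1) ^ p * 1 :=
          mul_le_mul_right ((W.valuation_le_one_iff _).2 hg) _
      _ = v (ζ - 1) ^ p := mul_one _
  -- step 2, 3
  rw [pow_sub_one_eq_prod hζ e, map_prod] at h1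
  obtain ⟨j, hj, hmin⟩ := exists_min_image (range p) (fun i => v (e - ζ ^ i))
    ⟨0, mem_range.2 hp.out.pos⟩
  have hjp : j < p := mem_range.1 hj
  -- step 4
  have h4 : v (e - ζ ^ j) ≤ v (ζ - 1) := by
    by_contra hcon
    rw [not_le] at hcon
    have h5 : v (ζ - 1) ^ p < ∏ i ∈ range p, v (e - ζ ^ i) := by
      calc v (ζ - 1) ^ p < v (e - ζ ^ j) ^ p :=
            pow_lt_pow_left₀ hcon zero_le hp.out.ne_zero
        _ = ∏ _i ∈ range p, v (e - ζ ^ j) := by rw [prod_const, card_range]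
        _ ≤ ∏ i ∈ range p, v (e - ζ ^ i) :=
            prod_le_prod' (fun i hi => hmin i hi)
    exact absurd h1 (not_le.2 h5)
  -- step 5
  have hζj : ζ ^ j ≠ 0 := pow_ne_zero _ (hζ.ne_zero hp.out.ne_zero)
  have hvζj : v (ζ ^ j) = 1 := by rw [map_pow, hv, val_zeta hζ, one_pow]
  set d : F := (e - ζ ^ j) / ((ζ - 1) * ζ ^ j) with hd
  have hdW : d ∈ W := by
    rw [← W.valuation_le_one_iff, ← hv, hd, map_div₀, map_mul, hvζj, mul_one]
    exact (div_le_one₀ (zero_lt_iff.2 hvπ)).2 h4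
  have hed : e = ζ ^ j * (1 + (ζ - 1) * d) := by
    rw [hd]; field_simp; ring
  refine ⟨j, hjp, d, hdW, hed, ?_⟩
  -- step 6
  have h6 : e ^ p = (1 + (ζ - 1) * d) ^ p := by
    rw [hed, mul_pow, ← pow_mul, mul_comm j p, pow_mul, hζ.pow_eq_one, one_pow, one_mul]
  have h7 : e ^ p - (1 + (ζ - 1) ^ p * g) =
      (ζ - 1) ^ p * (∏ i ∈ range p, (d - theta ζ i) - g) := by
    rw [mul_sub, ← one_add_mul_pow_sub_one hζ d, h6]; ring
  rw [h7, map_mul, map_pow] at h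
  by_contra hcon
  rw [not_lt] at hcon
  have : v (ζ - 1) ^ p * 1 ≤ v (ζ - 1) ^ p * v (∏ i ∈ range p, (d - theta ζ i) - g) :=
    mul_le_mul_right hcon _
  rw [mul_one] at this
  exact absurd h (not_lt.2 this)

/-! ### reductions -/

variable {κ : Type*} [Field κ] (red : W →+* κ)
  (hred : ∀ x : W, red x = 0 ↔ (x : F) ∈ W.nonunits)

include hred

theorem red_zeta (hζ : IsPrimitiveRoot ζ p) (hπ : ζ - 1 ∈ W.nonunits) :
    red ⟨ζ, zeta_mem hζ⟩ = 1 := by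
  have h0 : (((⟨ζ, zeta_mem hζ⟩ - 1 : W) : W) : F) = ζ - 1 := rfl
  have h1 : red (⟨ζ, zeta_mem hζ⟩ - 1) = 0 := (hred _).2 (by rw [h0]; exact hπ)
  rwa [map_sub, map_one, sub_eq_zero] at h1

/-- `θ̄_j = j`. -/
theorem red_theta (hζ : IsPrimitiveRoot ζ p) (hπ : ζ - 1 ∈ W.nonunits) (j : ℕ) :
    red ⟨theta ζ j, theta_mem hζ j⟩ = (j : κ) := by
  have h1 : (⟨theta ζ j, theta_mem hζ j⟩ : W) = ∑ i ∈ range j, (⟨ζ, zeta_mem hζ⟩ : W) ^ i := by
    apply Subtype.ext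
    simp [theta]
  rw [h1, map_sum]
  simp only [map_pow, red_zeta red hred hζ hπ, one_pow, sum_const, card_range, nsmul_eq_mul,
    mul_one]

theorem red_natCast (hζ : IsPrimitiveRoot ζ p) (hπ : ζ - 1 ∈ W.nonunits) : (p : κ) = 0 := by
  have h1 : red ((p : ℕ) : W) = 0 := (hred _).2 (by simpa using natCast_mem_nonunits hζ hπ)
  simpa using h1

/-- `θ_a` is a unit of `W` for `p ∤ a`. -/
theorem val_theta_eq_one (hζ : IsPrimitiveRoot ζ p) (hπ : ζ - 1 ∈ W.nonunits) {a : ℕ}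
    (ha : ¬ p ∣ a) : W.valuation (theta ζ a) = 1 := by
  refine le_antisymm ((W.valuation_le_one_iff _).2 (theta_mem hζ a)) ?_
  by_contra hcon
  rw [not_le] at hcon
  have h1 : red ⟨theta ζ a, theta_mem hζ a⟩ = 0 :=
    (hred _).2 ((W.mem_nonunits_iff).2 hcon)
  rw [red_theta red hred hζ hπ] at h1
  have : CharP κ p := (CharP.charP_iff_prime_eq_zero hp.out).2 (red_natCast red hred hζ hπ)
  exact ha ((CharP.cast_eq_zero_iff κ p a).1 h1)

/-- **the Artin–Schreier equation**: in the situation of `exists_root_form`,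
`ḡ = d̄^p − d̄`. -/
theorem red_eq_pow_sub (hζ : IsPrimitiveRoot ζ p) (hπ : ζ - 1 ∈ W.nonunits) {d g : F}
    (hd : d ∈ W) (hg : g ∈ W)
    (h : W.valuation (∏ i ∈ range p, (d - theta ζ i) - g) < 1) :
    red ⟨g, hg⟩ = red ⟨d, hd⟩ ^ p - red ⟨d, hd⟩ := by
  have h1 : (∏ i ∈ range p, ((⟨d, hd⟩ : W) - ⟨theta ζ i, theta_mem hζ i⟩) - ⟨g, hg⟩ : W) ∈
      {x : W | red x = 0} := by
    refine (hred _).2 ?_
    rw [W.mem_nonunits_iff]
    convert h using 2
    simp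
  have h2 : red (∏ i ∈ range p, ((⟨d, hd⟩ : W) - ⟨theta ζ i, theta_mem hζ i⟩) - ⟨g, hg⟩) = 0 :=
    h1
  rw [map_sub, map_prod, sub_eq_zero] at h2
  rw [← h2, ← prod_sub_natCast (red_natCast red hred hζ hπ)]
  refine prod_congr rfl (fun i _ => ?_)
  rw [map_sub, red_theta red hred hζ hπ]

/-- **the root form with its Artin–Schreier equation.** -/
theorem exists_root_red (hζ : IsPrimitiveRoot ζ p) (hπ : ζ - 1 ∈ W.nonunits) {e g : F}
    (hg : g ∈ W)
    (h : W.valuation (e ^ p - (1 + (ζ - 1) ^ p * g)) < W.valuation (ζ - 1) ^ p) :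
    ∃ j : ℕ, j < p ∧ ∃ (d : F) (hd : d ∈ W), e = ζ ^ j * (1 + (ζ - 1) * d) ∧
      red ⟨g, hg⟩ = red ⟨d, hd⟩ ^ p - red ⟨d, hd⟩ := by
  obtain ⟨j, hj, d, hd, hed, h1⟩ := exists_root_form hζ hg h
  exact ⟨j, hj, d, hd, hed, red_eq_pow_sub red hred hζ hπ hd hg h1⟩

/-- **uniqueness of the residue up to the index shift.** -/
theorem red_root_unique (hζ : IsPrimitiveRoot ζ p) (hπ : ζ - 1 ∈ W.nonunits) {j j' : ℕ}
    {d d' : F} (hd : d ∈ W) (hd' : d' ∈ W)
    (h : ζ ^ j * (1 + (ζ - 1) * d) = ζ ^ j' * (1 + (ζ - 1) * d')) :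
    red ⟨d', hd'⟩ + (j' : κ) = red ⟨d, hd⟩ + (j : κ) := by
  have hπ0 : ζ - 1 ≠ 0 := sub_one_ne_zero hζ
  rw [pow_eq_one_add ζ j, pow_eq_one_add ζ j'] at h
  have h1 : theta ζ j' + d' + (ζ - 1) * (theta ζ j' * d') =
      theta ζ j + d + (ζ - 1) * (theta ζ j * d) := by
    apply mul_left_cancel₀ hπ0
    linear_combination -h
  have h2 : (⟨theta ζ j', theta_mem hζ j'⟩ + ⟨d', hd'⟩ +
      (⟨ζ, zeta_mem hζ⟩ - 1) * (⟨theta ζ j', theta_mem hζ j'⟩ * ⟨d', hd'⟩) : W) =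
      ⟨theta ζ j, theta_mem hζ j⟩ + ⟨d, hd⟩ +
      (⟨ζ, zeta_mem hζ⟩ - 1) * (⟨theta ζ j, theta_mem hζ j⟩ * ⟨d, hd⟩) :=
    Subtype.ext (by simpa using h1)
  have h3 := congrArg red h2
  simp only [map_add, map_mul, map_sub, map_one, red_zeta red hred hζ hπ, sub_self, zero_mul,
    add_zero, red_theta red hred hζ hπ] at h3
  rw [add_comm (red ⟨d', hd'⟩), add_comm (red ⟨d, hd⟩)]
  exact h3

/-- **root forms multiply, residues add.** -/
theorem red_root_mul (hζ : IsPrimitiveRoot ζ p) (hπ : ζ - 1 ∈ W.nonunits) {d d' : F}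
    (hd : d ∈ W) (hd' : d' ∈ W) :
    ∃ (d'' : F) (hd'' : d'' ∈ W),
      (1 + (ζ - 1) * d) * (1 + (ζ - 1) * d') = 1 + (ζ - 1) * d'' ∧
      red ⟨d'', hd''⟩ = red ⟨d, hd⟩ + red ⟨d', hd'⟩ := by
  have hπW : ζ - 1 ∈ W := W.nonunits_subset hπ
  refine ⟨d + d' + (ζ - 1) * (d * d'),
    W.add_mem _ _ (W.add_mem _ _ hd hd') (W.mul_mem _ _ hπW (W.mul_mem _ _ hd hd')), by ring, ?_⟩
  have h2 : (⟨d + d' + (ζ - 1) * (d * d'), W.add_mem _ _ (W.add_mem _ _ hd hd')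
      (W.mul_mem _ _ hπW (W.mul_mem _ _ hd hd'))⟩ : W) =
      ⟨d, hd⟩ + ⟨d', hd'⟩ + (⟨ζ, zeta_mem hζ⟩ - 1) * (⟨d, hd⟩ * ⟨d', hd'⟩) :=
    Subtype.ext (by simp)
  rw [h2]
  simp only [map_add, map_mul, map_sub, map_one, red_zeta red hred hζ hπ, sub_self, zero_mul,
    add_zero]

end Val

end Fermat.Agent.GE8.LLP.DSOmega.ASResidue
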