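/-
GATE-E (S59) / E8.4 LLP, RISK-1, node (DS-ω), step (B) of helper47's route (board 7304), ABSTRACT form
(helper71): **doubly deep ⟹ every chart coordinate has `|τ_j| ≤ |λ|`** on a two-component disc frame
(binders of `GS/Loc2/KerStar.coordExists_of_glued`).

Frame: `R1 R2` two reduction data of `F/K` over the same valuation ring (`RedCompat`), both unramified,
`glued P Q E₁ E₂` the glued Riemann–Roch space of the nodal fibre, `Φ` an abstract disc frame coupled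
to `(R1, R2)` by `hA`, `hball`, `hred`.

* `DeepRep R p u`     : representative-level depth, `∀ c ≠ 0, u = b^p (1 + c r)`, `r ∈ R.Rw`
                        (= `GF/NormDepth/Inst/Deep.Deep` read on ANY representative of the class);
* `red_eq_pow_of_deepRep` : (B)(i), local half.  `u ∈ R.Rw` deep, `u - 1 = γ^p e`, `e ∈ R.Rw`,
                        `|p| < |γ|^(p-1)` (i.e. `|γ| > |λ|`) ⟹ `red e` is a `p`-th power.
* `exists_eq_mul_of_deepRep` : (B)(i).  `u ∈ L(p • D0) ∩ ball2` doubly deep, (L5) + (NS), and the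
                        normalisation `hkill` ⟹ `u - 1 ∈ λ^p • ball2`.
* `coord_le_of_deepRep`  : **(B)**.  `div u = p (Σ X_i - D0)`, `u(P*) = 1` at a point `P*` off the chart
                        discs, `u` doubly deep ⟹ `|τ_j| ≤ |λ|` for the coordinates `τ_j = t_j(X_j)`.
-/
import Mathlib
import Fermat.Agent.GS.Loc2.KerStar
import Fermat.Agent.GS.Frame.Gen.DivBook
import Fermat.Agent.GH.Add.ValueAlg

set_option autoImplicit false
set_option linter.unusedSectionVars false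

noncomputable section

open AlgebraicCurve Module

namespace Fermat.Agent.GE8.LLP.DSOmega.DeepCoord

open Fermat.Agent.RRh45 Fermat.Agent.GJ.J1 Fermat.Agent.GK.MultiVal Fermat.Agent.GS.Nodal.LSR2
open Fermat.Agent.GS.Frame Fermat.Agent.GS.Loc2.PthRoot Fermat.Agent.GS.Loc2.Ker
open Fermat.Agent.GJ.S37MinDiv Fermat.Agent.GH

open scoped Classical

/-! ### representative-level depth -/

section Local

variable {K F k Ft : Type*} [Field K] [Field F] [Algebra K F] [Field k] [Field Ft] [Algebra k Ft]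

/-- **`u` is deep for the valuation of `R`**: for every constant `c ≠ 0`, `u` is a `p`-th power times
an element of `1 + c • R.Rw`. -/
def DeepRep (R : RedData K F k Ft) (p : ℕ) (u : F) : Prop :=
  ∀ c : K, c ≠ 0 → ∃ b : F, b ≠ 0 ∧ ∃ r ∈ R.Rw, u = b ^ p * (1 + algebraMap K F c * r)

variable {R : RedData K F k Ft}

/-- a constant of norm `< 1` has norm `< 1` in `R.Rw`. -/
theorem val_algebraMap_lt_one {a : K} (ha : R.A.valuation a < 1) :
    R.Rw.valuation (algebraMap K F a) < 1 := by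
  have haA : a ∈ R.A := (R.A.valuation_le_one_iff a).mp ha.le
  have haW : algebraMap K F a ∈ R.Rw := (R.mem_A_iff a).1 haA
  have h0 : R.res ⟨a, haA⟩ = 0 := (Fermat.Agent.GH.Disc.res_eq_zero_iff (R := R) ⟨a, haA⟩).mpr ha
  have h1 : R.red ⟨algebraMap K F a, haW⟩ = 0 := by
    rw [R.red_algebraMap ⟨a, haA⟩, h0, map_zero]
  rw [R.red_eq_zero_iff] at h1
  exact (R.Rw.valuation_lt_one_iff _).mp h1

/-- the reduction of a constant of norm `< 1` vanishes. -/
theorem red_algebraMap_eq_zero {a : K} (ha : R.A.valuation a < 1)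
    (haW : algebraMap K F a ∈ R.Rw) : R.red ⟨algebraMap K F a, haW⟩ = 0 := by
  rw [R.red_eq_zero_iff]
  exact (R.Rw.valuation_lt_one_iff _).mpr (val_algebraMap_lt_one ha)

/-- **(B)(i), local half**: if `u ∈ R.Rw` is deep and `u - 1 = γ^p e` with `e ∈ R.Rw` and
`|p| < |γ|^(p-1)`, then the reduction of `e` is a `p`-th power. -/
theorem red_eq_pow_of_deepRep (p : ℕ) [Fact p.Prime] {u : F} (huW : u ∈ R.Rw)
    (hd : DeepRep R p u) {γ : K} (hγ0 : γ ≠ 0) (hγA : γ ∈ R.A)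
    (hp0 : (p : K) ≠ 0) (hpA : R.A.valuation (p : K) < 1)
    (hμ : R.A.valuation (p : K) < R.A.valuation γ ^ (p - 1))
    {e : F} (he : e ∈ R.Rw) (hue : u - 1 = algebraMap K F (γ ^ p) * e) :
    ∃ Y : R.Rw, R.red ⟨e, he⟩ = R.red Y ^ p := by
  have hpp : p.Prime := Fact.out
  have hp1 : 1 ≤ p := hpp.one_lt.le
  set w := R.Rw.valuation with hw
  set v := R.A.valuation with hv
  -- the deep representative at depth `γ^p p`
  have hc0 : γ ^ p * (p : K) ≠ 0 := mul_ne_zero (pow_ne_zero p hγ0) hp0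
  obtain ⟨b, hb0, r', hr', hu⟩ := hd (γ ^ p * (p : K)) hc0
  have hγv : v γ ≤ 1 := (R.A.valuation_le_one_iff γ).mpr hγA
  have hcv : v (γ ^ p * (p : K)) < 1 := by
    rw [map_mul, map_pow]
    calc v γ ^ p * v (p : K) ≤ 1 * v (p : K) := mul_le_mul_left (pow_le_one' hγv p) _
      _ = v (p : K) := one_mul _
      _ < 1 := hpA
  have hcw : w (algebraMap K F (γ ^ p * (p : K))) < 1 := val_algebraMap_lt_one hcv
  have hr'w : w r' ≤ 1 := (R.Rw.valuation_le_one_iff r').mpr hr'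
  -- `s = 1 + c r'` has norm one
  have hsmall : w (algebraMap K F (γ ^ p * (p : K)) * r') < 1 := by
    rw [map_mul]
    calc w (algebraMap K F (γ ^ p * (p : K))) * w r'
        ≤ w (algebraMap K F (γ ^ p * (p : K))) * 1 := mul_le_mul_right hr'w _
      _ = w (algebraMap K F (γ ^ p * (p : K))) := mul_one _
      _ < 1 := hcw
  have hs1 : w (1 + algebraMap K F (γ ^ p * (p : K)) * r') = 1 := by
    have := Valuation.map_add_eq_of_lt_left w (x := (1 : F))
      (y := algebraMap K F (γ ^ p * (p : K)) * r') (by rw [map_one]; exact hsmall)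
    rw [this, map_one]
  -- `b ∈ R.Rw`
  have hbw : w b ≤ 1 := by
    have h1 : w u ≤ 1 := (R.Rw.valuation_le_one_iff u).mpr huW
    rw [hu, map_mul, hs1, mul_one, map_pow] at h1
    exact (pow_le_one_iff hpp.ne_zero).mp h1
  have hbW : b ∈ R.Rw := (R.Rw.valuation_le_one_iff b).mp hbw
  have hβW : b - 1 ∈ R.Rw := R.Rw.sub_mem hbW R.Rw.one_mem
  -- the binomial identity in `R.Rw`
  obtain ⟨r, hr⟩ := exists_add_pow_prime_eq hpp (⟨b - 1, hβW⟩ : R.Rw) 1
  have hrF : b ^ p = (b - 1) ^ p + 1 + (p : F) * (b - 1) * (r : F) := by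
    have := congrArg (fun x : R.Rw => (x : F)) hr
    simp only [one_pow, mul_one] at this
    push_cast at this
    rw [sub_add_cancel] at this
    exact this
  -- the rescaled root `Y = (b - 1) / γ` and the small constant `μ = p / γ^(p-1)`
  set g : F := algebraMap K F γ with hg
  have hg0 : g ≠ 0 := (map_ne_zero (algebraMap K F)).mpr hγ0
  set Y : F := (b - 1) * g⁻¹ with hY
  set μ : K := (p : K) / γ ^ (p - 1) with hμdef
  have hγp : γ ^ p = γ ^ (p - 1) * γ := by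
    rw [← pow_succ, Nat.sub_add_cancel hp1]
  have hμγ : μ * γ ^ (p - 1) = (p : K) := by
    rw [hμdef, div_mul_cancel₀ _ (pow_ne_zero _ hγ0)]
  have hgY : g * Y = b - 1 := by
    rw [hY, mul_comm (b - 1), ← mul_assoc, mul_inv_cancel₀ hg0, one_mul]
  have hμv : v μ < 1 := by
    rw [hμdef, map_div₀, map_pow]
    have hpos : 0 < v γ ^ (p - 1) :=
      lt_of_le_of_lt zero_le hμ
    exact (div_lt_one₀ hpos).mpr hμ
  have hμw : w (algebraMap K F μ) < 1 := val_algebraMap_lt_one hμv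
  have hpw : w (algebraMap K F (p : K)) < 1 := val_algebraMap_lt_one hpA
  -- the equation `e = Y^p + μ Y r + p b^p r'`
  have hE : e = Y ^ p + algebraMap K F μ * Y * (r : F) + algebraMap K F (p : K) * b ^ p * r' := by
    have hgp0 : algebraMap K F (γ ^ p) ≠ 0 :=
      (map_ne_zero (algebraMap K F)).mpr (pow_ne_zero p hγ0)
    apply mul_left_cancel₀ hgp0
    rw [← hue, hu]
    have e1 : algebraMap K F (γ ^ p) * Y ^ p = (b - 1) ^ p := by
      rw [map_pow, ← mul_pow, ← hg, hgY]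
    have e2 : algebraMap K F (γ ^ p) * (algebraMap K F μ * Y * (r : F)) =
        (p : F) * (b - 1) * (r : F) := by
      have : algebraMap K F (γ ^ p) * (algebraMap K F μ * Y * (r : F)) =
          algebraMap K F (μ * γ ^ (p - 1)) * (g * Y) * (r : F) := by
        rw [hγp, map_mul, map_mul, ← hg]
        ring
      rw [this, hμγ, hgY, map_natCast]
    have hm : algebraMap K F (γ ^ p * (p : K)) =
        algebraMap K F (γ ^ p) * algebraMap K F (p : K) := map_mul _ _ _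
    linear_combination hrF - e1 - e2 + b ^ p * r' * hm
  have hrw : w (r : F) ≤ 1 := (R.Rw.valuation_le_one_iff _).mpr r.2
  have hbpw : w (b ^ p) ≤ 1 := by rw [map_pow]; exact pow_le_one' hbw p
  -- `Y ∈ R.Rw`
  have hYw : w Y ≤ 1 := by
    by_contra hcon
    rw [not_le] at hcon
    have hYp : w Y ≤ w (Y ^ p) := by
      rw [map_pow]
      calc w Y = w Y ^ 1 := (pow_one _).symm
        _ ≤ w Y ^ p := pow_le_pow_right' hcon.le hp1
    have hYpos : 0 < w Y := lt_trans zero_lt_one hcon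
    have hT2 : w (algebraMap K F μ * Y * (r : F)) < w (Y ^ p) := by
      rw [map_mul, map_mul]
      calc w (algebraMap K F μ) * w Y * w (r : F)
          ≤ w (algebraMap K F μ) * w Y * 1 := mul_le_mul_right hrw _
        _ = w (algebraMap K F μ) * w Y := mul_one _
        _ < 1 * w Y := mul_lt_mul_of_pos_right hμw hYpos
        _ = w Y := one_mul _
        _ ≤ w (Y ^ p) := hYp
    have hT3 : w (algebraMap K F (p : K) * b ^ p * r') < w (Y ^ p) := by
      rw [map_mul, map_mul]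
      calc w (algebraMap K F (p : K)) * w (b ^ p) * w r'
          ≤ w (algebraMap K F (p : K)) * 1 * 1 := mul_le_mul' (mul_le_mul_right hbpw _) hr'w
        _ = w (algebraMap K F (p : K)) := by rw [mul_one, mul_one]
        _ < 1 := hpw
        _ < w Y := hcon
        _ ≤ w (Y ^ p) := hYp
    have h12 : w (Y ^ p + algebraMap K F μ * Y * (r : F)) = w (Y ^ p) :=
      Valuation.map_add_eq_of_lt_left w hT2
    have h123 : w e = w (Y ^ p) := by
      rw [hE]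
      have := Valuation.map_add_eq_of_lt_left w
        (x := Y ^ p + algebraMap K F μ * Y * (r : F))
        (y := algebraMap K F (p : K) * b ^ p * r') (by rw [h12]; exact hT3)
      rw [this, h12]
    have hew : w e ≤ 1 := (R.Rw.valuation_le_one_iff e).mpr he
    rw [h123] at hew
    exact absurd (lt_of_lt_of_le hcon hYp) (not_lt.mpr hew)
  have hYW : Y ∈ R.Rw := (R.Rw.valuation_le_one_iff Y).mp hYw
  have hμA : μ ∈ R.A := (R.A.valuation_le_one_iff μ).mp hμv.le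
  have hμW : algebraMap K F μ ∈ R.Rw := (R.mem_A_iff μ).1 hμA
  have hpA' : (p : K) ∈ R.A := (R.A.valuation_le_one_iff _).mp hpA.le
  have hpW : algebraMap K F (p : K) ∈ R.Rw := (R.mem_A_iff _).1 hpA'
  refine ⟨⟨Y, hYW⟩, ?_⟩
  have hsub : (⟨e, he⟩ : R.Rw) = ⟨Y, hYW⟩ ^ p + ⟨algebraMap K F μ, hμW⟩ * ⟨Y, hYW⟩ * r +
      ⟨algebraMap K F (p : K), hpW⟩ * ⟨b, hbW⟩ ^ p * ⟨r', hr'⟩ := Subtype.ext hE
  rw [hsub, map_add, map_add, map_mul, map_mul, map_mul, map_mul, map_pow,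
    red_algebraMap_eq_zero hμv hμW, red_algebraMap_eq_zero hpA hpW]
  ring

end Local

/-! ### (B)(i): the sup-norm of `u - 1` -/

section Sup

variable {K F k Ft1 Ft2 : Type*} [Field K] [Field F] [Algebra K F] [Field k]
  [Field Ft1] [Algebra k Ft1] [Field Ft2] [Algebra k Ft2]
variable {R1 : RedData K F k Ft1} {R2 : RedData K F k Ft2}
variable {ι : Type*} {P : ι → Place k Ft1} {Q : ι → Place k Ft2}

/-- (B)(i), the half where the FIRST norm of `u - 1` is the larger one: `e₁ = α (u - 1)` is a unit of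
`R1.Rw` and lies in `R2.Rw`. -/
theorem sup_aux (p : ℕ) [Fact p.Prime] [CharP k p]
    (hA : R1.A = R2.A) (hroot : ∀ c : K, ∃ γ : K, γ ^ p = c)
    (hP : ∀ j, (P j).deg = 1) (hQ : ∀ j, (Q j).deg = 1)
    {E₁ : Divisor k Ft1} {E₂ : Divisor k Ft2}
    (hNS : ∀ z ∈ glued P Q E₁ E₂, ∃ d : k, z = (algebraMap k Ft1 d, algebraMap k Ft2 d))
    {D0 : Divisor K F} (hD0 : 0 ≤ D0)
    (hL5 : ∀ (x : F) (h1 : x ∈ R1.Rw) (h2 : x ∈ R2.Rw), x ∈ riemannRochSpace ((p : ℤ) • D0) →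
      (R1.red ⟨x, h1⟩, R2.red ⟨x, h2⟩) ∈ glued P Q ((p : ℤ) • E₁) ((p : ℤ) • E₂))
    {u : F} (hu1 : u ∈ R1.Rw) (hu2 : u ∈ R2.Rw)
    (huL : u ∈ riemannRochSpace ((p : ℤ) • D0))
    (hd1 : DeepRep R1 p u) (hd2 : DeepRep R2 p u)
    (hkill : ∀ (e : F) (h1 : e ∈ R1.Rw) (h2 : e ∈ R2.Rw) (c : K), c ≠ 0 →
      u - 1 = algebraMap K F c * e → ∀ d : k, R1.red ⟨e, h1⟩ = algebraMap k Ft1 d →
      R2.red ⟨e, h2⟩ = algebraMap k Ft2 d → d = 0)
    {lam : K} (hlam : R1.A.valuation (p : K) = R1.A.valuation lam ^ (p - 1))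
    (hp0 : (p : K) ≠ 0) (hpA : R1.A.valuation (p : K) < 1)
    {α : K} (hα : α ≠ 0)
    (he1 : algebraMap K F α * (u - 1) ∈ R1.Rw) (he1i : (algebraMap K F α * (u - 1))⁻¹ ∈ R1.Rw)
    (he2 : algebraMap K F α * (u - 1) ∈ R2.Rw) (hne : u - 1 ≠ 0) :
    ∃ e : F, e ∈ R1.Rw ∧ e ∈ R2.Rw ∧ u - 1 = algebraMap K F (lam ^ p) * e := by
  have hpp : p.Prime := Fact.out
  have hp1 : 1 ≤ p := hpp.one_lt.le
  have hp2 : p - 1 ≠ 0 := by have := hpp.two_le; omega
  set v := R1.A.valuation with hv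
  set e₁ : F := algebraMap K F α * (u - 1) with he₁
  have hαF : algebraMap K F α ≠ 0 := (map_ne_zero (algebraMap K F)).mpr hα
  have he₁0 : e₁ ≠ 0 := mul_ne_zero hαF hne
  -- `lam ≠ 0`
  have hlam0 : lam ≠ 0 := by
    rintro rfl
    rw [map_zero, zero_pow hp2] at hlam
    exact hp0 ((map_eq_zero v).mp hlam)
  -- `c₁ = α⁻¹ ∈ A`
  have hc₁A : α⁻¹ ∈ R1.A := by
    rw [R1.mem_A_iff]
    have h1 : algebraMap K F α⁻¹ = (u - 1) * e₁⁻¹ := by
      rw [he₁, mul_inv, map_inv₀, mul_comm (algebraMap K F α)⁻¹, ← mul_assoc,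
        mul_inv_cancel₀ hne, one_mul]
    rw [h1]
    exact R1.Rw.mul_mem _ _ (R1.Rw.sub_mem hu1 R1.Rw.one_mem) he1i
  have hue₁ : u - 1 = algebraMap K F α⁻¹ * e₁ := by
    rw [he₁, ← mul_assoc, ← map_mul, inv_mul_cancel₀ hα, map_one, one_mul]
  -- the two cases `|c₁| ≤ |lam|^p` and `|lam|^p < |c₁|`
  have hlamp0 : lam ^ p ≠ 0 := pow_ne_zero p hlam0
  rcases le_or_gt (v α⁻¹) (v (lam ^ p)) with hle | hgt
  · have hmem : α⁻¹ * (lam ^ p)⁻¹ ∈ R1.A := by
      rw [← R1.A.valuation_le_one_iff, map_mul, map_inv₀ _ (lam ^ p), ← div_eq_mul_inv]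
      exact (div_le_one₀ (zero_lt_iff.mpr ((map_ne_zero v).mpr hlamp0))).mpr hle
    refine ⟨algebraMap K F (α⁻¹ * (lam ^ p)⁻¹) * e₁, ?_, ?_, ?_⟩
    · exact R1.Rw.mul_mem _ _ ((R1.mem_A_iff _).1 hmem) he1
    · exact R2.Rw.mul_mem _ _ ((R2.mem_A_iff _).1 (hA ▸ hmem)) he2
    · have h3 : lam ^ p * (α⁻¹ * (lam ^ p)⁻¹) = α⁻¹ := by
        rw [mul_comm α⁻¹, ← mul_assoc, mul_inv_cancel₀ hlamp0, one_mul]
      calc u - 1 = algebraMap K F α⁻¹ * e₁ := hue₁
        _ = algebraMap K F (lam ^ p * (α⁻¹ * (lam ^ p)⁻¹)) * e₁ := by rw [h3]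
        _ = algebraMap K F (lam ^ p) * (algebraMap K F (α⁻¹ * (lam ^ p)⁻¹) * e₁) := by
          rw [map_mul, mul_assoc]
  · exfalso
    obtain ⟨γ, hγ⟩ := hroot α⁻¹
    have hγ0 : γ ≠ 0 := by
      rintro rfl
      rw [zero_pow hpp.ne_zero] at hγ
      exact inv_ne_zero hα hγ.symm
    have hγv : v γ ^ p = v α⁻¹ := by rw [← map_pow, hγ]
    have hγ1 : v γ ≤ 1 := by
      have : v γ ^ p ≤ 1 := by rw [hγv]; exact (R1.A.valuation_le_one_iff _).mpr hc₁A
      exact (pow_le_one_iff hpp.ne_zero).mp this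
    have hγA : γ ∈ R1.A := (R1.A.valuation_le_one_iff γ).mp hγ1
    have hlt : v lam < v γ := by
      rw [map_pow, ← hγv] at hgt
      exact lt_of_pow_lt_pow_left₀ p zero_le hgt
    have hμ : v (p : K) < v γ ^ (p - 1) := by
      rw [hlam]
      exact pow_lt_pow_left₀ hlt zero_le hp2
    have hue : u - 1 = algebraMap K F (γ ^ p) * e₁ := by rw [hγ]; exact hue₁
    -- the two reductions are `p`-th powers
    obtain ⟨Y1, hY1⟩ := red_eq_pow_of_deepRep p hu1 hd1 hγ0 hγA hp0 hpA hμ he1 hue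
    have hγA2 : γ ∈ R2.A := hA ▸ hγA
    have hpA2 : R2.A.valuation (p : K) < 1 := by rw [← hA]; exact hpA
    have hμ2 : R2.A.valuation (p : K) < R2.A.valuation γ ^ (p - 1) := by rw [← hA]; exact hμ
    obtain ⟨Y2, hY2⟩ := red_eq_pow_of_deepRep p hu2 hd2 hγ0 hγA2 hp0 hpA2 hμ2 he2 hue
    -- (L5) + the `p`-th root lemma + (NS)
    have he₁L : e₁ ∈ riemannRochSpace ((p : ℤ) • D0) := by
      rw [he₁, ← Algebra.smul_def]
      refine Submodule.smul_mem _ _ (Submodule.sub_mem _ huL ?_)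
      exact one_mem_riemannRochSpace (smul_nonneg (Int.natCast_nonneg p) hD0)
    have hgl := hL5 e₁ he1 he2 he₁L
    rw [hY1, hY2] at hgl
    have hgl' : (algebraMap k Ft1 1 * R1.red Y1 ^ p, algebraMap k Ft2 1 * R2.red Y2 ^ p) ∈
        glued P Q ((p : ℤ) • E₁) ((p : ℤ) • E₂) := by
      rw [map_one, map_one, one_mul, one_mul]; exact hgl
    have hroot' := glued_of_pow p hP hQ (c₁ := (1 : k)) (c₂ := 1) (κ := 1) one_ne_zero
      (by rw [one_pow, mul_one]) hgl'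
    obtain ⟨d, hd⟩ := hNS _ hroot'
    have hd1' : R1.red Y1 = algebraMap k Ft1 d := congrArg Prod.fst hd
    have hd2' : R2.red Y2 = algebraMap k Ft2 d := by
      have := congrArg Prod.snd hd
      simpa using this
    have hr1 : R1.red ⟨e₁, he1⟩ = algebraMap k Ft1 (d ^ p) := by rw [hY1, hd1', map_pow]
    have hr2 : R2.red ⟨e₁, he2⟩ = algebraMap k Ft2 (d ^ p) := by rw [hY2, hd2', map_pow]
    have hdp : d ^ p = 0 := hkill e₁ he1 he2 α⁻¹ (inv_ne_zero hα) hue₁ (d ^ p) hr1 hr2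
    rw [hdp, map_zero] at hr1
    exact red_ne_zero_of_inv_mem he1 he1i he₁0 hr1

/-- **(B)(i)**: a doubly deep `u ∈ L(p • D0) ∩ ball2`, normalised so that `(u - 1)/c` cannot reduce to
a nonzero constant (`hkill`), satisfies `u - 1 ∈ λ^p • ball2`, where `|p| = |λ|^(p-1)`. -/
theorem exists_eq_mul_of_deepRep (hc : RedCompat R1 R2) (p : ℕ) [Fact p.Prime] [CharP k p]
    (hroot : ∀ c : K, ∃ γ : K, γ ^ p = c)
    (hP : ∀ j, (P j).deg = 1) (hQ : ∀ j, (Q j).deg = 1)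
    (unram1 : ∀ y : F, y ≠ 0 → ∃ c : K, c ≠ 0 ∧ algebraMap K F c * y ∈ R1.Rw ∧
      (algebraMap K F c * y)⁻¹ ∈ R1.Rw)
    (unram2 : ∀ y : F, y ≠ 0 → ∃ c : K, c ≠ 0 ∧ algebraMap K F c * y ∈ R2.Rw ∧
      (algebraMap K F c * y)⁻¹ ∈ R2.Rw)
    {E₁ : Divisor k Ft1} {E₂ : Divisor k Ft2}
    (hNS : ∀ z ∈ glued P Q E₁ E₂, ∃ d : k, z = (algebraMap k Ft1 d, algebraMap k Ft2 d))
    {D0 : Divisor K F} (hD0 : 0 ≤ D0)
    (hL5 : ∀ (x : F) (h1 : x ∈ R1.Rw) (h2 : x ∈ R2.Rw), x ∈ riemannRochSpace ((p : ℤ) • D0) →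
      (R1.red ⟨x, h1⟩, R2.red ⟨x, h2⟩) ∈ glued P Q ((p : ℤ) • E₁) ((p : ℤ) • E₂))
    {u : F} (hu1 : u ∈ R1.Rw) (hu2 : u ∈ R2.Rw)
    (huL : u ∈ riemannRochSpace ((p : ℤ) • D0))
    (hd1 : DeepRep R1 p u) (hd2 : DeepRep R2 p u)
    (hkill : ∀ (e : F) (h1 : e ∈ R1.Rw) (h2 : e ∈ R2.Rw) (c : K), c ≠ 0 →
      u - 1 = algebraMap K F c * e → ∀ d : k, R1.red ⟨e, h1⟩ = algebraMap k Ft1 d →
      R2.red ⟨e, h2⟩ = algebraMap k Ft2 d → d = 0)
    {lam : K} (hlam : R1.A.valuation (p : K) = R1.A.valuation lam ^ (p - 1))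
    (hp0 : (p : K) ≠ 0) (hpA : R1.A.valuation (p : K) < 1) :
    ∃ e : F, e ∈ R1.Rw ∧ e ∈ R2.Rw ∧ u - 1 = algebraMap K F (lam ^ p) * e := by
  by_cases hne : u - 1 = 0
  · exact ⟨0, R1.Rw.zero_mem, R2.Rw.zero_mem, by rw [hne, mul_zero]⟩
  obtain ⟨α₁, hα₁, h11, h11i⟩ := unram1 (u - 1) hne
  obtain ⟨α₂, hα₂, h22, h22i⟩ := unram2 (u - 1) hne
  rcases R2.A.mem_or_inv_mem (α₁ * α₂⁻¹) with he | he
  · -- `|α₁| ≤ |α₂|`: the first norm of `u - 1` is the larger one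
    have h12 : algebraMap K F α₁ * (u - 1) ∈ R2.Rw := by
      have : algebraMap K F α₁ * (u - 1) =
          algebraMap K F (α₁ * α₂⁻¹) * (algebraMap K F α₂ * (u - 1)) := by
        rw [← mul_assoc, ← map_mul, mul_assoc α₁, inv_mul_cancel₀ hα₂, mul_one]
      rw [this]
      exact R2.Rw.mul_mem _ _ ((R2.mem_A_iff _).1 he) h22
    exact sup_aux p hc.A_eq hroot hP hQ hNS hD0 hL5 hu1 hu2 huL hd1 hd2 hkill hlam hp0 hpA hα₁
      h11 h11i h12 hne
  · have he' : α₂ * α₁⁻¹ ∈ R1.A := by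
      rw [hc.A_eq]
      have : (α₁ * α₂⁻¹)⁻¹ = α₂ * α₁⁻¹ := by rw [mul_inv, inv_inv, mul_comm]
      rwa [this] at he
    have h21 : algebraMap K F α₂ * (u - 1) ∈ R1.Rw := by
      have : algebraMap K F α₂ * (u - 1) =
          algebraMap K F (α₂ * α₁⁻¹) * (algebraMap K F α₁ * (u - 1)) := by
        rw [← mul_assoc, ← map_mul, mul_assoc α₂, inv_mul_cancel₀ hα₁, mul_one]
      rw [this]
      exact R1.Rw.mul_mem _ _ ((R1.mem_A_iff _).1 he') h11
    have hNS' : ∀ z ∈ glued Q P E₂ E₁, ∃ d : k, z = (algebraMap k Ft2 d, algebraMap k Ft1 d) := by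
      intro z hz
      obtain ⟨d, hd⟩ := hNS _ (glued_swap.mp hz)
      refine ⟨d, ?_⟩
      have h1 : z.2 = algebraMap k Ft1 d := congrArg Prod.fst hd
      have h2 : z.1 = algebraMap k Ft2 d := congrArg Prod.snd hd
      exact Prod.ext h2 h1
    have hL5' : ∀ (x : F) (h2 : x ∈ R2.Rw) (h1 : x ∈ R1.Rw),
        x ∈ riemannRochSpace ((p : ℤ) • D0) →
        (R2.red ⟨x, h2⟩, R1.red ⟨x, h1⟩) ∈ glued Q P ((p : ℤ) • E₂) ((p : ℤ) • E₁) :=
      fun x h2 h1 hx => glued_swap.mpr (hL5 x h1 h2 hx)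
    have hkill' : ∀ (e : F) (h2 : e ∈ R2.Rw) (h1 : e ∈ R1.Rw) (c : K), c ≠ 0 →
        u - 1 = algebraMap K F c * e → ∀ d : k, R2.red ⟨e, h2⟩ = algebraMap k Ft2 d →
        R1.red ⟨e, h1⟩ = algebraMap k Ft1 d → d = 0 :=
      fun e h2 h1 c hc0 hce d hr2 hr1 => hkill e h1 h2 c hc0 hce d hr1 hr2
    have hlam2 : R2.A.valuation (p : K) = R2.A.valuation lam ^ (p - 1) := by
      rw [← hc.A_eq]; exact hlam
    have hpA2 : R2.A.valuation (p : K) < 1 := by rw [← hc.A_eq]; exact hpA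
    obtain ⟨e, h2, h1, hue⟩ := sup_aux p hc.A_eq.symm hroot hQ hP hNS' hD0 hL5' hu2 hu1 huL hd2 hd1
      hkill' hlam2 hp0 hpA2 hα₂ h22 h22i h21 hne
    exact ⟨e, h1, h2, hue⟩

end Sup

/-! ### (B): the coordinates of a doubly deep class -/

section Frame

open Fermat.Agent.GH.Add

variable {K F k Ft1 Ft2 Sp 𝒬 : Type*} [Field K] [Field F] [Algebra K F] [Field k]
  [Field Ft1] [Algebra k Ft1] [Field Ft2] [Algebra k Ft2] [CommRing Sp] [Algebra k Sp]
variable {R1 : RedData K F k Ft1} {R2 : RedData K F k Ft2}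
variable {ι : Type*} {P : ι → Place k Ft1} {Q : ι → Place k Ft2}

/-- **(B) of (DS-ω)**: on a two-component disc frame, let `u` be the ADAPTED Kummer function of a class
with coordinates `τ` in the chart `𝔠` (`div u = p (Σ X_i - D0)`, `t_i(X_i) = τ_i`), integral for both
Gauss valuations, normalised by `u(P*) = 1` at a point `P*` of a disc off the chart, and DEEP for both
valuations.  Then every coordinate satisfies `|τ_j| ≤ |λ|`, where `|p| = |λ|^(p-1)`. -/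
theorem coord_le_of_deepRep (hc : RedCompat R1 R2) {Φ : DiscData K F k Sp 𝒬} (hF : DiscFacts Φ)
    (hA : Φ.A = R1.A) (hball : ∀ x : F, x ∈ R1.Rw → x ∈ R2.Rw → x ∈ Φ.B)
    (hred : ∀ (x : F) (h1 : x ∈ R1.Rw) (h2 : x ∈ R2.Rw) (hB : x ∈ Φ.B),
      R1.red ⟨x, h1⟩ = 1 → R2.red ⟨x, h2⟩ = 1 → Φ.red ⟨x, hB⟩ = 1)
    {n : ℕ} (p : ℕ) [Fact p.Prime] [CharP k p]
    (hroot : ∀ c : K, ∃ γ : K, γ ^ p = c)
    (hP : ∀ j, (P j).deg = 1) (hQ : ∀ j, (Q j).deg = 1)
    (unram1 : ∀ y : F, y ≠ 0 → ∃ c : K, c ≠ 0 ∧ algebraMap K F c * y ∈ R1.Rw ∧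
      (algebraMap K F c * y)⁻¹ ∈ R1.Rw)
    (unram2 : ∀ y : F, y ≠ 0 → ∃ c : K, c ≠ 0 ∧ algebraMap K F c * y ∈ R2.Rw ∧
      (algebraMap K F c * y)⁻¹ ∈ R2.Rw)
    (𝔠 : Chart Φ n)
    (hchart : ∃ (E₁ : Divisor k Ft1) (E₂ : Divisor k Ft2),
      (∀ z ∈ glued P Q E₁ E₂, ∃ d : k, z = (algebraMap k Ft1 d, algebraMap k Ft2 d)) ∧
      ∀ (x : F) (h1 : x ∈ R1.Rw) (h2 : x ∈ R2.Rw),
        x ∈ riemannRochSpace ((p : ℤ) • 𝔠.D0) →
        (R1.red ⟨x, h1⟩, R2.red ⟨x, h2⟩) ∈ glued P Q ((p : ℤ) • E₁) ((p : ℤ) • E₂))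
    {X : Fin n → Place K F} (hX : ∀ i, X i ∈ Φ.disc (𝔠.Q i))
    {τ : Fin n → K} (hτ : ∀ i, ValueAt (X i) (𝔠.pt i).t (τ i))
    {u : F} (hu0 : u ≠ 0) (hu1 : u ∈ R1.Rw) (hu2 : u ∈ R2.Rw)
    (hdiv : ∀ v : Place K F,
      v.ord u = (p : ℤ) * ((∑ i, Finsupp.single (X i) (1 : ℤ)) v - 𝔠.D0 v))
    {Qs : 𝒬} (hQs : ∀ i, 𝔠.Q i ≠ Qs) {Ps : Place K F} (hPs : Ps ∈ Φ.disc Qs)
    (hval : ValueAt Ps u 1)
    (hd1 : DeepRep R1 p u) (hd2 : DeepRep R2 p u)
    {lam : K} (hlam : R1.A.valuation (p : K) = R1.A.valuation lam ^ (p - 1))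
    (hp0 : (p : K) ≠ 0) (hpA : R1.A.valuation (p : K) < 1) :
    ∀ j, R1.A.valuation (τ j) ≤ R1.A.valuation lam := by
  have hpp : p.Prime := Fact.out
  have hp2 : p - 1 ≠ 0 := by have := hpp.two_le; omega
  have hpZ : (0 : ℤ) < p := by exact_mod_cast hpp.pos
  obtain ⟨E₁, E₂, hNS, hL5⟩ := hchart
  set v := R1.A.valuation with hv
  have hD0 : (0 : Divisor K F) ≤ 𝔠.D0 := sum_single_nonneg _
  have hcen : ∀ i, (𝔠.pt i).P ∈ Φ.disc (𝔠.Q i) := fun i => (𝔠.pt i).hP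
  -- `u ∈ L(p • D0)`
  have huL : u ∈ riemannRochSpace ((p : ℤ) • 𝔠.D0) := by
    rw [mem_riemannRochSpace_iff]
    intro w
    right
    rw [hdiv w, Finsupp.smul_apply, smul_eq_mul]
    have h1 : 0 ≤ (∑ i, Finsupp.single (X i) (1 : ℤ)) w := sum_single_apply_nonneg X w
    nlinarith [mul_nonneg hpZ.le h1]
  -- off the chart discs `u` is a unit
  have hordoff : ∀ w : Place K F, (∀ i, w ∉ Φ.disc (𝔠.Q i)) → w.ord u = 0 := by
    intro w hw
    have h1 : (∑ i, Finsupp.single (X i) (1 : ℤ)) w = 0 := sum_single_apply_of_notMem hX hw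
    have h2 : 𝔠.D0 w = 0 := sum_single_apply_of_notMem hcen hw
    rw [hdiv w, h1, h2, sub_zero, mul_zero]
  -- the normalisation kills constants
  have hkill : ∀ (e : F) (h1 : e ∈ R1.Rw) (h2 : e ∈ R2.Rw) (c : K), c ≠ 0 →
      u - 1 = algebraMap K F c * e → ∀ d : k, R1.red ⟨e, h1⟩ = algebraMap k Ft1 d →
      R2.red ⟨e, h2⟩ = algebraMap k Ft2 d → d = 0 := by
    intro e h1 h2 c hc0 hce d hr1 hr2
    by_contra hd
    obtain ⟨a, ha⟩ := R1.res_surjective d⁻¹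
    have ha2 : (a : K) ∈ R2.A := hc.A_eq ▸ a.2
    have haW1 : algebraMap K F (a : K) ∈ R1.Rw := (R1.mem_A_iff a).1 a.2
    have haW2 : algebraMap K F (a : K) ∈ R2.Rw := (R2.mem_A_iff a).1 ha2
    have hh1 : algebraMap K F (a : K) * e ∈ R1.Rw := R1.Rw.mul_mem _ _ haW1 h1
    have hh2 : algebraMap K F (a : K) * e ∈ R2.Rw := R2.Rw.mul_mem _ _ haW2 h2
    have hhB : algebraMap K F (a : K) * e ∈ Φ.B := hball _ hh1 hh2
    have hr1' : R1.red ⟨algebraMap K F (a : K) * e, hh1⟩ = 1 := by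
      have : (⟨algebraMap K F (a : K) * e, hh1⟩ : R1.Rw) =
          ⟨algebraMap K F (a : K), haW1⟩ * ⟨e, h1⟩ := Subtype.ext rfl
      rw [this, map_mul, R1.red_algebraMap a, ha, hr1, ← map_mul, inv_mul_cancel₀ hd, map_one]
    have hr2' : R2.red ⟨algebraMap K F (a : K) * e, hh2⟩ = 1 := by
      have : (⟨algebraMap K F (a : K) * e, hh2⟩ : R2.Rw) =
          ⟨algebraMap K F (a : K), haW2⟩ * ⟨e, h2⟩ := Subtype.ext rfl
      have hres : R2.res ⟨(a : K), ha2⟩ = d⁻¹ := by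
        rw [← hc.res_eq (a : K) a.2 ha2]; exact ha
      rw [this, map_mul, R2.red_algebraMap ⟨(a : K), ha2⟩, hres, hr2, ← map_mul,
        inv_mul_cancel₀ hd, map_one]
    have hredh : Φ.red ⟨algebraMap K F (a : K) * e, hhB⟩ = 1 := hred _ hh1 hh2 hhB hr1' hr2'
    have hh0 : algebraMap K F (a : K) * e ≠ 0 := ne_zero_of_red_eq_one hF hhB hredh
    have he : e = algebraMap K F c⁻¹ * (u - 1) := by
      rw [hce, ← mul_assoc, ← map_mul, inv_mul_cancel₀ hc0, map_one, one_mul]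
    have hoff : ∀ w : Place K F, (∀ Q' ∈ Finset.univ.image 𝔠.Q, w ∉ Φ.disc Q') →
        0 ≤ w.ord (algebraMap K F (a : K) * e) := by
      intro w hw
      have hw' : ∀ i, w ∉ Φ.disc (𝔠.Q i) := fun i =>
        hw _ (Finset.mem_image_of_mem _ (Finset.mem_univ i))
      have huw : u ∈ w.toValuationSubring :=
        (mem_iff_ord_nonneg w hu0).mpr (hordoff w hw').ge
      have hmem : algebraMap K F (a : K) * e ∈ w.toValuationSubring := by
        rw [he]
        exact mul_mem (w.algebraMap_mem' _)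
          (mul_mem (w.algebraMap_mem' _) (sub_mem huw (one_mem _)))
      exact (mem_iff_ord_nonneg w hh0).mp hmem
    have hzero := hF.ord_eq_zero_off hhB hredh (Finset.univ.image 𝔠.Q) hoff Ps (by
      intro Q' hQ'
      obtain ⟨i, -, rfl⟩ := Finset.mem_image.mp hQ'
      exact Φ.disc_disjoint (hQs i).symm Ps hPs)
    have hv0 : ValueAt Ps (algebraMap K F (a : K) * e) 0 := by
      have h1' : ValueAt Ps (u - 1) (1 - 1) := valueAt_sub hval (valueAt_one Ps)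
      have h2' := valueAt_const_mul (a : K) (valueAt_const_mul c⁻¹ h1')
      rw [sub_self, mul_zero, mul_zero, ← he] at h2'
      exact h2'
    rcases (valueAt_zero_iff Ps _).mp hv0 with h0 | hpos
    · exact hh0 h0
    · omega
  -- (B)(i)
  obtain ⟨e, he1, he2, hue⟩ := exists_eq_mul_of_deepRep hc p hroot hP hQ unram1 unram2 hNS hD0 hL5
    hu1 hu2 huL hd1 hd2 hkill hlam hp0 hpA
  have hlam0 : lam ≠ 0 := by
    rintro rfl
    rw [map_zero, zero_pow hp2] at hlam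
    exact hp0 ((map_eq_zero v).mp hlam)
  have hlamp0 : lam ^ p ≠ 0 := pow_ne_zero p hlam0
  have hee : e = algebraMap K F (lam ^ p)⁻¹ * (u - 1) := by
    rw [hue, ← mul_assoc, ← map_mul, inv_mul_cancel₀ hlamp0, map_one, one_mul]
  have heB : e ∈ Φ.B := hball e he1 he2
  -- (B)(ii)
  intro j
  by_cases hXj : X j = (𝔠.pt j).P
  · have h0 : τ j = 0 := by
      have h1 := hτ j
      rw [hXj] at h1
      exact valueAt_unique h1 (𝔠.pt j).ht0
    rw [h0, map_zero]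
    exact zero_le
  · have htO : (𝔠.pt j).t ∈ Odisc Φ (𝔠.Q j) := (𝔠.pt j).ht
    have htB : (𝔠.pt j).t ∈ Φ.B := htO.1
    have hSX : ∀ w ∈ Φ.disc (𝔠.Q j),
        (∑ i, Finsupp.single (X i) (1 : ℤ)) w = if w = X j then 1 else 0 :=
      fun w hw => sum_single_apply_of_mem 𝔠.hQ hX hw
    have hSD : ∀ w ∈ Φ.disc (𝔠.Q j), 𝔠.D0 w = if w = (𝔠.pt j).P then 1 else 0 :=
      fun w hw => sum_single_apply_of_mem 𝔠.hQ hcen hw
    -- `e t^p` has no pole on the disc of `Q_j`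
    have hmemO : e * (𝔠.pt j).t ^ p ∈ Odisc Φ (𝔠.Q j) := by
      refine ⟨Φ.B.mul_mem heB (Φ.B.pow_mem htB p), fun w hw => ?_⟩
      have htw : (𝔠.pt j).t ∈ w.toValuationSubring := htO.2 w hw
      by_cases hwP : w = (𝔠.pt j).P
      · by_cases ht0 : (𝔠.pt j).t = 0
        · rw [ht0, zero_pow hpp.ne_zero, mul_zero]; exact zero_mem _
        have hordt : 0 < w.ord (𝔠.pt j).t := by
          rw [hwP]
          exact ((valueAt_zero_iff _ _).mp (𝔠.pt j).ht0).resolve_left ht0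
        have hordu : w.ord u = -(p : ℤ) := by
          rw [hdiv, hSX w hw, hSD w hw, if_pos hwP, if_neg (by rw [hwP]; exact Ne.symm hXj)]
          ring
        have htp0 : (𝔠.pt j).t ^ p ≠ 0 := pow_ne_zero p ht0
        have hut : u * (𝔠.pt j).t ^ p ∈ w.toValuationSubring := by
          rw [mem_iff_ord_nonneg w (mul_ne_zero hu0 htp0), w.ord_mul hu0 htp0,
            Fermat.Agent.GJ.Kum.DivBasic.ord_pow_natCast, hordu]
          nlinarith
        have hsplit : e * (𝔠.pt j).t ^ p =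
            algebraMap K F (lam ^ p)⁻¹ * (u * (𝔠.pt j).t ^ p - (𝔠.pt j).t ^ p) := by
          rw [hee]; ring
        rw [hsplit]
        exact mul_mem (w.algebraMap_mem' _) (sub_mem hut (pow_mem htw p))
      · have hordu : 0 ≤ w.ord u := by
          rw [hdiv, hSX w hw, hSD w hw, if_neg hwP, sub_zero]
          split_ifs
          · rw [mul_one]; exact hpZ.le
          · rw [mul_zero]
        have huw : u ∈ w.toValuationSubring := (mem_iff_ord_nonneg w hu0).mpr hordu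
        rw [hee]
        exact mul_mem (mul_mem (w.algebraMap_mem' _) (sub_mem huw (one_mem _))) (pow_mem htw p)
    obtain ⟨a, haA, hva⟩ := hF.exists_value hmemO (X j) (hX j)
    -- `u` vanishes at `X_j`
    have hordX : 0 < (X j).ord u := by
      rw [hdiv, hSX _ (hX j), hSD _ (hX j), if_pos rfl, if_neg hXj, sub_zero, mul_one]
      exact hpZ
    have hvu : ValueAt (X j) u 0 := (valueAt_zero_iff _ u).mpr (Or.inr hordX)
    have hve : ValueAt (X j) e ((lam ^ p)⁻¹ * (0 - 1)) := by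
      rw [hee]
      exact valueAt_const_mul _ (valueAt_sub hvu (valueAt_one _))
    have hvet : ValueAt (X j) (e * (𝔠.pt j).t ^ p) ((lam ^ p)⁻¹ * (0 - 1) * τ j ^ p) :=
      valueAt_mul hve (valueAt_pow (hτ j) p)
    have haeq : a = (lam ^ p)⁻¹ * (0 - 1) * τ j ^ p := valueAt_unique hva hvet
    have haA' : a ∈ R1.A := hA ▸ haA
    have hle : v a ≤ 1 := (R1.A.valuation_le_one_iff a).mpr haA'
    rw [haeq, map_mul, map_mul, map_inv₀, zero_sub, Valuation.map_neg, map_one, mul_one,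
      map_pow, map_pow] at hle
    have hpos : 0 < v lam ^ p := zero_lt_iff.mpr (pow_ne_zero p ((map_ne_zero v).mpr hlam0))
    have hpow : v (τ j) ^ p ≤ v lam ^ p := by
      rwa [inv_mul_le_iff₀ hpos, mul_one] at hle
    exact (pow_le_pow_iff_left₀ zero_le zero_le hpp.ne_zero).mp hpow

end Frame

end Fermat.Agent.GE8.LLP.DSOmega.DeepCoord
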