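/-
GATE-E (S59) / E8.4 LLP, RISK-1, node (DS-ω), step (B), WRAPPERS (helper71): the normalisation
`u(P*) = 1` and the (★) constant of `GS/Loc2/KerStar.exists_isCst_smul` are done INSIDE, so that the
nodal instance only feeds the adapted Kummer function `u = u₀ f^p` of a class of `M⁰`.

* `DeepRep.const_mul`          : `DeepRep` is stable under multiplication by nonzero constants
                                 (`K` closed under `p`-th roots);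
* `coord_le_of_deepRep_unit`   : `coord_le_of_deepRep` for `u` a unit of `R1.Rw ∩ R2.Rw`, WITHOUT the
                                 normalisation `u(P*) = 1`;
* `coord_le_of_deepRep_supply` : the point `P*` from `ChartSupply Φ n`;
* `coord_le_of_deepRep_star`   : **for `u = u₀ f^p`, `u₀` admissible (`Adm2 R1 R2 u₀`), `f ≠ 0`**.
-/
import Mathlib
import Fermat.Agent.GE8.LLP.DSOmega.DeepCoord
import Fermat.Agent.GS.Loc2.KerGlue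

set_option autoImplicit false
set_option linter.unusedSectionVars false

noncomputable section

open AlgebraicCurve Module

namespace Fermat.Agent.GE8.LLP.DSOmega.DeepCoord

open Fermat.Agent.RRh45 Fermat.Agent.GJ.J1 Fermat.Agent.GK.MultiVal Fermat.Agent.GS.Nodal.LSR2
open Fermat.Agent.GS.Frame Fermat.Agent.GS.Loc2.PthRoot Fermat.Agent.GS.Loc2.Ker
open Fermat.Agent.GJ.S37MinDiv Fermat.Agent.GH Fermat.Agent.GH.Add

open scoped Classical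

section Local

variable {K F k Ft : Type*} [Field K] [Field F] [Algebra K F] [Field k] [Field Ft] [Algebra k Ft]
variable {R : RedData K F k Ft}

/-- `DeepRep` is stable under multiplication by a nonzero constant, when constants have `p`-th
roots. -/
theorem DeepRep.const_mul {p : ℕ} (hp : p ≠ 0) (hroot : ∀ c : K, ∃ γ : K, γ ^ p = c) {u : F}
    (hd : DeepRep R p u) {a : K} (ha : a ≠ 0) : DeepRep R p (algebraMap K F a * u) := by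
  intro c hc
  obtain ⟨b, hb0, r, hr, hu⟩ := hd c hc
  obtain ⟨α, hα⟩ := hroot a
  have hα0 : α ≠ 0 := by
    rintro rfl
    rw [zero_pow hp] at hα
    exact ha hα.symm
  refine ⟨algebraMap K F α * b, mul_ne_zero ((map_ne_zero (algebraMap K F)).mpr hα0) hb0, r, hr, ?_⟩
  rw [hu, mul_pow, ← map_pow, hα, mul_assoc]

end Local

section Frame

variable {K F k Ft1 Ft2 Sp 𝒬 : Type*} [Field K] [Field F] [Algebra K F] [Field k]
  [Field Ft1] [Algebra k Ft1] [Field Ft2] [Algebra k Ft2] [CommRing Sp] [Algebra k Sp]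
variable {R1 : RedData K F k Ft1} {R2 : RedData K F k Ft2}
variable {ι : Type*} {P : ι → Place k Ft1} {Q : ι → Place k Ft2}

/-- `coord_le_of_deepRep` for a unit `u` of `R1.Rw ∩ R2.Rw`, without the normalisation at `P*`. -/
theorem coord_le_of_deepRep_unit (hc : RedCompat R1 R2) {Φ : DiscData K F k Sp 𝒬} (hF : DiscFacts Φ)
    (hA : Φ.A = R1.A) (hball : ∀ x : F, x ∈ R1.Rw → x ∈ R2.Rw → x ∈ Φ.B)
    (hred : ∀ (x : F) (h1 : x ∈ R1.Rw) (h2 : x ∈ R2.Rw) (hB : x ∈ Φ.B),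
      R1.red ⟨x, h1⟩ = 1 → R2.red ⟨x, h2⟩ = 1 → Φ.red ⟨x, hB⟩ = 1)
    {n : ℕ} (p : ℕ) [Fact p.Prime] [CharP k p]
    (hroot : ∀ c : K, ∃ γ : K, γ ^ p = c)
    (hP : ∀ j, (P j).deg = 1) (hQ : ∀ j, (Q j).deg = 1)
    (unram1 : ∀ y : F, y ≠ 0 → ∃ c : K, c ≠ 0 ∧ algebraMap K F c * y ∈ R1.Rw ∧
      (algebraMap K F c * y)⁻¹ ∈ R1.Rw)
    (unram2 : ∀ y : F, y ≠ 0 → ∃ c : K, c ≠ 0 ∧ algebraMap K F c * y ∈ R2.Rw ∧
      (algebraMap K F c * y)⁻¹ ∈ R2.Rw)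
    (𝔠 : Chart Φ n)
    (hchart : ∃ (E₁ : Divisor k Ft1) (E₂ : Divisor k Ft2),
      (∀ z ∈ glued P Q E₁ E₂, ∃ d : k, z = (algebraMap k Ft1 d, algebraMap k Ft2 d)) ∧
      ∀ (x : F) (h1 : x ∈ R1.Rw) (h2 : x ∈ R2.Rw),
        x ∈ riemannRochSpace ((p : ℤ) • 𝔠.D0) →
        (R1.red ⟨x, h1⟩, R2.red ⟨x, h2⟩) ∈ glued P Q ((p : ℤ) • E₁) ((p : ℤ) • E₂))
    {X : Fin n → Place K F} (hX : ∀ i, X i ∈ Φ.disc (𝔠.Q i))
    {τ : Fin n → K} (hτ : ∀ i, ValueAt (X i) (𝔠.pt i).t (τ i))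
    {u : F} (hu0 : u ≠ 0) (hu1 : u ∈ R1.Rw) (hu1i : u⁻¹ ∈ R1.Rw) (hu2 : u ∈ R2.Rw)
    (hu2i : u⁻¹ ∈ R2.Rw)
    (hdiv : ∀ v : Place K F,
      v.ord u = (p : ℤ) * ((∑ i, Finsupp.single (X i) (1 : ℤ)) v - 𝔠.D0 v))
    {Qs : 𝒬} (hQs : ∀ i, 𝔠.Q i ≠ Qs) {Ps : Place K F} (hPs : Ps ∈ Φ.disc Qs)
    (hd1 : DeepRep R1 p u) (hd2 : DeepRep R2 p u)
    {lam : K} (hlam : R1.A.valuation (p : K) = R1.A.valuation lam ^ (p - 1))
    (hp0 : (p : K) ≠ 0) (hpA : R1.A.valuation (p : K) < 1) :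
    ∀ j, R1.A.valuation (τ j) ≤ R1.A.valuation lam := by
  have hpp : p.Prime := Fact.out
  have hcen : ∀ i, (𝔠.pt i).P ∈ Φ.disc (𝔠.Q i) := fun i => (𝔠.pt i).hP
  have hui0 : u⁻¹ ≠ 0 := inv_ne_zero hu0
  -- `u` and `u⁻¹` have no pole on the disc of `Qs`
  have hord0 : ∀ w ∈ Φ.disc Qs, w.ord u = 0 := by
    intro w hw
    have hw' : ∀ i, w ∉ Φ.disc (𝔠.Q i) := fun i => Φ.disc_disjoint (hQs i).symm w hw
    have h1 : (∑ i, Finsupp.single (X i) (1 : ℤ)) w = 0 := sum_single_apply_of_notMem hX hw'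
    have h2 : 𝔠.D0 w = 0 := sum_single_apply_of_notMem hcen hw'
    rw [hdiv w, h1, h2, sub_zero, mul_zero]
  have hO : u ∈ Odisc Φ Qs :=
    ⟨hball u hu1 hu2, fun w hw => (mem_iff_ord_nonneg w hu0).mpr (hord0 w hw).ge⟩
  have hOi : u⁻¹ ∈ Odisc Φ Qs :=
    ⟨hball _ hu1i hu2i, fun w hw => (mem_iff_ord_nonneg w hui0).mpr (by
      rw [Place.ord_inv, hord0 w hw, neg_zero])⟩
  obtain ⟨a, -, hva⟩ := hF.exists_value hO Ps hPs
  obtain ⟨a', ha'A, hva'⟩ := hF.exists_value hOi Ps hPs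
  have haa' : a * a' = 1 := by
    have h1 := valueAt_mul hva hva'
    rw [mul_inv_cancel₀ hu0] at h1
    exact valueAt_unique h1 (valueAt_one Ps)
  have ha'0 : a' ≠ 0 := right_ne_zero_of_mul_eq_one haa'
  have ha'1 : a' ∈ R1.A := hA ▸ ha'A
  have ha'2 : a' ∈ R2.A := hc.A_eq ▸ ha'1
  -- the normalised function
  have hu'0 : algebraMap K F a' * u ≠ 0 :=
    mul_ne_zero ((map_ne_zero (algebraMap K F)).mpr ha'0) hu0
  refine coord_le_of_deepRep hc hF hA hball hred p hroot hP hQ unram1 unram2 𝔠 hchart hX hτ hu'0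
    (R1.Rw.mul_mem _ _ ((R1.mem_A_iff _).1 ha'1) hu1)
    (R2.Rw.mul_mem _ _ ((R2.mem_A_iff _).1 ha'2) hu2) ?_ hQs hPs ?_
    (hd1.const_mul hpp.ne_zero hroot ha'0) (hd2.const_mul hpp.ne_zero hroot ha'0) hlam hp0 hpA
  · intro v
    rw [v.ord_mul ((map_ne_zero (algebraMap K F)).mpr ha'0) hu0,
      Fermat.Agent.S24.PlaceB.ord_algebraMap v ha'0, zero_add, hdiv v]
  · have h1 := valueAt_const_mul a' hva
    rw [mul_comm a' a, haa'] at h1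
    exact h1

/-- `coord_le_of_deepRep_unit` with the point `P*` supplied by `ChartSupply`. -/
theorem coord_le_of_deepRep_supply (hc : RedCompat R1 R2) {Φ : DiscData K F k Sp 𝒬}
    (hF : DiscFacts Φ)
    (hA : Φ.A = R1.A) (hball : ∀ x : F, x ∈ R1.Rw → x ∈ R2.Rw → x ∈ Φ.B)
    (hred : ∀ (x : F) (h1 : x ∈ R1.Rw) (h2 : x ∈ R2.Rw) (hB : x ∈ Φ.B),
      R1.red ⟨x, h1⟩ = 1 → R2.red ⟨x, h2⟩ = 1 → Φ.red ⟨x, hB⟩ = 1)
    {n : ℕ} (hsup : ChartSupply Φ n) (p : ℕ) [Fact p.Prime] [CharP k p]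
    (hroot : ∀ c : K, ∃ γ : K, γ ^ p = c)
    (hP : ∀ j, (P j).deg = 1) (hQ : ∀ j, (Q j).deg = 1)
    (unram1 : ∀ y : F, y ≠ 0 → ∃ c : K, c ≠ 0 ∧ algebraMap K F c * y ∈ R1.Rw ∧
      (algebraMap K F c * y)⁻¹ ∈ R1.Rw)
    (unram2 : ∀ y : F, y ≠ 0 → ∃ c : K, c ≠ 0 ∧ algebraMap K F c * y ∈ R2.Rw ∧
      (algebraMap K F c * y)⁻¹ ∈ R2.Rw)
    (𝔠 : Chart Φ n)
    (hchart : ∃ (E₁ : Divisor k Ft1) (E₂ : Divisor k Ft2),
      (∀ z ∈ glued P Q E₁ E₂, ∃ d : k, z = (algebraMap k Ft1 d, algebraMap k Ft2 d)) ∧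
      ∀ (x : F) (h1 : x ∈ R1.Rw) (h2 : x ∈ R2.Rw),
        x ∈ riemannRochSpace ((p : ℤ) • 𝔠.D0) →
        (R1.red ⟨x, h1⟩, R2.red ⟨x, h2⟩) ∈ glued P Q ((p : ℤ) • E₁) ((p : ℤ) • E₂))
    {X : Fin n → Place K F} (hX : ∀ i, X i ∈ Φ.disc (𝔠.Q i))
    {τ : Fin n → K} (hτ : ∀ i, ValueAt (X i) (𝔠.pt i).t (τ i))
    {u : F} (hu0 : u ≠ 0) (hu1 : u ∈ R1.Rw) (hu1i : u⁻¹ ∈ R1.Rw) (hu2 : u ∈ R2.Rw)
    (hu2i : u⁻¹ ∈ R2.Rw)
    (hdiv : ∀ v : Place K F,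
      v.ord u = (p : ℤ) * ((∑ i, Finsupp.single (X i) (1 : ℤ)) v - 𝔠.D0 v))
    (hd1 : DeepRep R1 p u) (hd2 : DeepRep R2 p u)
    {lam : K} (hlam : R1.A.valuation (p : K) = R1.A.valuation lam ^ (p - 1))
    (hp0 : (p : K) ≠ 0) (hpA : R1.A.valuation (p : K) < 1) :
    ∀ j, R1.A.valuation (τ j) ≤ R1.A.valuation lam := by
  intro j
  obtain ⟨𝔡, h𝔡⟩ := hsup (Finset.univ.image 𝔠.Q)
  have hQs : ∀ i, 𝔠.Q i ≠ 𝔡.Q j := fun i h =>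
    h𝔡 j (by rw [← h]; exact Finset.mem_image_of_mem _ (Finset.mem_univ i))
  exact coord_le_of_deepRep_unit hc hF hA hball hred p hroot hP hQ unram1 unram2 𝔠 hchart hX hτ
    hu0 hu1 hu1i hu2 hu2i hdiv hQs (𝔡.pt j).hP hd1 hd2 hlam hp0 hpA j

/-- **(B) for the adapted Kummer function of a class of `M⁰`**: `u = u₀ f^p` with `u₀` admissible for
both valuations, `div u = p (Σ X_i - D0)`, `u` doubly deep ⟹ `|τ_j| ≤ |λ|`. -/
theorem coord_le_of_deepRep_star (hc : RedCompat R1 R2) {Φ : DiscData K F k Sp 𝒬}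
    (hF : DiscFacts Φ)
    (hA : Φ.A = R1.A) (hball : ∀ x : F, x ∈ R1.Rw → x ∈ R2.Rw → x ∈ Φ.B)
    (hred : ∀ (x : F) (h1 : x ∈ R1.Rw) (h2 : x ∈ R2.Rw) (hB : x ∈ Φ.B),
      R1.red ⟨x, h1⟩ = 1 → R2.red ⟨x, h2⟩ = 1 → Φ.red ⟨x, hB⟩ = 1)
    {n : ℕ} (hsup : ChartSupply Φ n) (p : ℕ) [Fact p.Prime] [CharP k p]
    (hperf : ∀ c : k, ∃ κ : k, κ ^ p = c) (hroot : ∀ c : K, ∃ γ : K, γ ^ p = c)
    (hP : ∀ j, (P j).deg = 1) (hQ : ∀ j, (Q j).deg = 1)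
    (unram1 : ∀ y : F, y ≠ 0 → ∃ c : K, c ≠ 0 ∧ algebraMap K F c * y ∈ R1.Rw ∧
      (algebraMap K F c * y)⁻¹ ∈ R1.Rw)
    (unram2 : ∀ y : F, y ≠ 0 → ∃ c : K, c ≠ 0 ∧ algebraMap K F c * y ∈ R2.Rw ∧
      (algebraMap K F c * y)⁻¹ ∈ R2.Rw)
    (𝔠 : Chart Φ n)
    (hchart : ∃ (E₁ : Divisor k Ft1) (E₂ : Divisor k Ft2),
      (∀ z ∈ glued P Q E₁ E₂, ∃ d : k, z = (algebraMap k Ft1 d, algebraMap k Ft2 d)) ∧
      ∀ (x : F) (h1 : x ∈ R1.Rw) (h2 : x ∈ R2.Rw),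
        x ∈ riemannRochSpace ((p : ℤ) • 𝔠.D0) →
        (R1.red ⟨x, h1⟩, R2.red ⟨x, h2⟩) ∈ glued P Q ((p : ℤ) • E₁) ((p : ℤ) • E₂))
    {X : Fin n → Place K F} (hX : ∀ i, X i ∈ Φ.disc (𝔠.Q i))
    {τ : Fin n → K} (hτ : ∀ i, ValueAt (X i) (𝔠.pt i).t (τ i))
    {u₀ f : F} (hu₀ : Adm2 R1 R2 u₀) (hf : f ≠ 0)
    (hdiv : ∀ v : Place K F,
      v.ord (u₀ * f ^ p) = (p : ℤ) * ((∑ i, Finsupp.single (X i) (1 : ℤ)) v - 𝔠.D0 v))
    (hd1 : DeepRep R1 p (u₀ * f ^ p)) (hd2 : DeepRep R2 p (u₀ * f ^ p))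
    {lam : K} (hlam : R1.A.valuation (p : K) = R1.A.valuation lam ^ (p - 1))
    (hp0 : (p : K) ≠ 0) (hpA : R1.A.valuation (p : K) < 1) :
    ∀ j, R1.A.valuation (τ j) ≤ R1.A.valuation lam := by
  have hpp : p.Prime := Fact.out
  have hpZ : (0 : ℤ) < p := by exact_mod_cast hpp.pos
  obtain ⟨E₁, E₂, hNS, hL5⟩ := hchart
  have hu₀0 : u₀ ≠ 0 := hu₀.1.ne_zero
  have hy0 : u₀ * f ^ p ≠ 0 := mul_ne_zero hu₀0 (pow_ne_zero p hf)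
  -- `u₀ f^p ∈ L(p • D0)`
  have hyL : u₀ * f ^ p ∈ riemannRochSpace ((p : ℤ) • 𝔠.D0) := by
    rw [mem_riemannRochSpace_iff]
    intro w
    right
    rw [hdiv w, Finsupp.smul_apply, smul_eq_mul]
    have h1 : 0 ≤ (∑ i, Finsupp.single (X i) (1 : ℤ)) w := sum_single_apply_nonneg X w
    nlinarith [mul_nonneg hpZ.le h1]
  -- (★): admissible up to a constant
  obtain ⟨a, ha, h1, h2⟩ := exists_isCst_smul hc p hperf hP hQ unram1 unram2 hNS hL5 hu₀.1 hu₀.2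
    hf hyL
  have haF : algebraMap K F a ≠ 0 := (map_ne_zero (algebraMap K F)).mpr ha
  refine coord_le_of_deepRep_supply hc hF hA hball hred hsup p hroot hP hQ unram1 unram2 𝔠
    ⟨E₁, E₂, hNS, hL5⟩ hX hτ (mul_ne_zero haF hy0) h1.mem h1.inv_mem h2.mem h2.inv_mem ?_
    (hd1.const_mul hpp.ne_zero hroot ha) (hd2.const_mul hpp.ne_zero hroot ha) hlam hp0 hpA
  intro v
  rw [v.ord_mul haF hy0, Fermat.Agent.S24.PlaceB.ord_algebraMap v ha, zero_add, hdiv v]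

end Frame

end Fermat.Agent.GE8.LLP.DSOmega.DeepCoord
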