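/-
GATE-E (S59) / E8.4 LLP, RISK-1, node (DS-ω), step (B) on the NODAL frame (helper71): the binders
`hA`, `hball`, `hred`, `hchart` of `DSOmega/DeepCoordAdm.coord_le_of_deepRep_star` discharged on
`nodalData H hFF` (helper16 `GS/Nodal/DiscFacts2`; `pinData H = nodalData H (ff2_pin H)`), in the pattern
of `GS/Loc2/KerNodal.coordExists_nodal`.

* `coord_le_of_deepRep_nodal` : `u = u₀ f^p`, `u₀` admissible for both Gauss valuations,
  `div u = p (Σ X_i - D0(𝔠))`, `u` doubly deep ⟹ `|τ_j| ≤ |λ|`, for every chart `𝔠` of the nodal frame.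
-/
import Mathlib
import Fermat.Agent.GE8.LLP.DSOmega.DeepCoordAdm
import Fermat.Agent.GS.Loc2.KerNodal
import Fermat.Agent.GS.Nodal.DiscFacts2

set_option autoImplicit false
set_option linter.unusedSectionVars false

noncomputable section

open AlgebraicCurve Module

namespace Fermat.Agent.GE8.LLP.DSOmega.DeepCoord

open Fermat.Agent.RRh45 Fermat.Agent.GJ.S37MinDiv Fermat.Agent.GJ.J1 Fermat.Agent.GK.MultiVal
open Fermat.Agent.GS.Nodal.LSR2 Fermat.Agent.GS.Nodal.FibreHyp2 Fermat.Agent.GS.Nodal.ROfSurj2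
open Fermat.Agent.GS.Nodal.L5 Fermat.Agent.GS.Nodal.DiscFacts2
open Fermat.Agent.GS.Frame Fermat.Agent.GS.Frame.Local Fermat.Agent.GS.Frame.Glue
open Fermat.Agent.GS.Nod Fermat.Agent.GS.Loc2.Ker Fermat.Agent.GH

open scoped Classical

variable {K F k Ft1 Ft2 : Type*} [Field K] [Field F] [Algebra K F] [Field k]
  [Field Ft1] [Algebra k Ft1] [Field Ft2] [Algebra k Ft2]
variable {R1 : RedData K F k Ft1} {R2 : RedData K F k Ft2} {hc : RedCompat R1 R2}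
variable {ι : Type*} {P : ι → Place k Ft1} {Q : ι → Place k Ft2}
variable {C : Divisor K F} {C₁ : Divisor k Ft1} {C₂ : Divisor k Ft2} {g c : ℤ} {n₀ : ℕ}
variable [FiniteResidues K F] [HasPrincipalDivisors K F] [Nonempty (Place K F)]
variable [FiniteResidues k Ft1] [HasPrincipalDivisors k Ft1] [Nonempty (Place k Ft1)]
variable [FiniteResidues k Ft2] [HasPrincipalDivisors k Ft2] [Nonempty (Place k Ft2)]
variable {S1 : Set (Place k Ft1)} {S2 : Set (Place k Ft2)}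
variable (H : NodalHyp hc P Q C C₁ C₂ g c n₀) (hFF : FF2 R1 R2 (disc1 H) (disc2 H) S1 S2)
variable [Finite ι] [Infinite k]

/-- **(B) on the nodal disc frame.** -/
theorem coord_le_of_deepRep_nodal {n : ℕ} (hsup : ChartSupply (nodalData H hFF) n)
    (p : ℕ) [Fact p.Prime] [CharP k p]
    (hperf : ∀ c : k, ∃ κ : k, κ ^ p = c) (hroot : ∀ c : K, ∃ γ : K, γ ^ p = c)
    (hP : ∀ j, (P j).deg = 1) (hQ : ∀ j, (Q j).deg = 1)
    (unram1 : ∀ y : F, y ≠ 0 → ∃ c : K, c ≠ 0 ∧ algebraMap K F c * y ∈ R1.Rw ∧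
      (algebraMap K F c * y)⁻¹ ∈ R1.Rw)
    (unram2 : ∀ y : F, y ≠ 0 → ∃ c : K, c ≠ 0 ∧ algebraMap K F c * y ∈ R2.Rw ∧
      (algebraMap K F c * y)⁻¹ ∈ R2.Rw)
    (𝔠 : Chart (nodalData H hFF) n)
    {X : Fin n → Place K F} (hX : ∀ i, X i ∈ (nodalData H hFF).disc (𝔠.Q i))
    {τ : Fin n → K} (hτ : ∀ i, ValueAt (X i) (𝔠.pt i).t (τ i))
    {u₀ f : F} (hu₀ : Adm2 R1 R2 u₀) (hf : f ≠ 0)
    (hdiv : ∀ v : Place K F,
      v.ord (u₀ * f ^ p) = (p : ℤ) * ((∑ i, Finsupp.single (X i) (1 : ℤ)) v - 𝔠.D0 v))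
    (hd1 : DeepRep R1 p (u₀ * f ^ p)) (hd2 : DeepRep R2 p (u₀ * f ^ p))
    {lam : K} (hlam : R1.A.valuation (p : K) = R1.A.valuation lam ^ (p - 1))
    (hp0 : (p : K) ≠ 0) (hpA : R1.A.valuation (p : K) < 1) :
    ∀ j, R1.A.valuation (τ j) ≤ R1.A.valuation lam := by
  have G := glueHyp_nodal H hFF
  have hF := discFacts_nodal H hFF
  refine coord_le_of_deepRep_star hc hF rfl (fun x h1 h2 => G.ball x h1 h2) ?_ hsup p hperf hroot
    hP hQ unram1 unram2 𝔠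
    (chart_glue G p (fun Qf _ X hX => l5p_of_nodal H hFF (hexcl_of_nodal H hFF) g p Qf X hX) 𝔠)
    hX hτ hu₀ hf hdiv hd1 hd2 hlam hp0 hpA
  intro x h1 h2 hB hr1 hr2
  exact Prod.ext hr1 hr2

end Fermat.Agent.GE8.LLP.DSOmega.DeepCoord
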