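/-
GATE-E (S59) / E8.4 LLP, RISK-1, node (DS-ω), THE INSTANCE of step (B) (helper71): **`CoordBoundAt p N h`
holds at every level `N` with `p ∥ N`** — the hypothesis of helper47's `DSOmega/Final.lean`.

DE-TWIN (helper71): the VERSION OF RECORD is helper47's `DSOmega/Top.lean` (same statements, landed 6 minutes
earlier); this independent proof lives in the sub-namespace `…DSOmega.CoordBound` so that the two files can
be imported together.

Composition of
* helper65 `DSOmega/AdaptedRep.exists_adapted_rep` + `deepAt_of_deep` (class ⟶ adapted representative),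
* the admissible generator of a class of `M⁰_p` (`GS/F/Modular.mem_M0mod_iff`, `KerBridge`),
* `DSOmega/DeepCoordNodal.coord_le_of_deepRep_nodal` on `pinData H = nodalData H (ff2_pin H)`.

* `coordBoundAt`  : `CoordBoundAt p N h`;
* `dsOmegaAt`     : `DSOmegaAt p M' h` (`p ≠ 2`, `p = 3 → 2 ∣ M' p`);
* `dsOmegaStmt`, `torPStmt` : `DSOmegaStmt p`, `TorPStmt p` for `5 ≤ p`.
-/
import Mathlib
import Fermat.Agent.GE8.LLP.DSOmega.Final
import Fermat.Agent.GE8.LLP.DSOmega.AdaptedRep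
import Fermat.Agent.GE8.LLP.DSOmega.DeepCoordNodal
import Fermat.Agent.GS.F.KerBridge

set_option autoImplicit false
set_option linter.unusedSectionVars false
set_option linter.unusedVariables false
set_option linter.style.haveILetI false

noncomputable section

open AlgebraicCurve ModularCurve IsLocalRing

namespace Fermat.Agent.GE8.LLP.DSOmega.CoordBound

open Fermat.Agent.GE8.LLP.DSOmega

open Fermat.Agent.S24 Fermat.Agent.S24_helper62 Fermat.Agent.RRh45 Fermat.Agent.RR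
open Fermat.Agent.GJ.J1 Fermat.Agent.GJ.J1.Val Fermat.Agent.GJ.J1.InstGen
open Fermat.Agent.GK.AL Fermat.Agent.GK.MultiVal
open Fermat.Agent.GK.CuspSep Fermat.Agent.GK.SymChart Fermat.Agent.GK.SymDegree
open Fermat.Agent.GS.Nodal.LSR2 Fermat.Agent.GS.Nodal.Inst Fermat.Agent.GS.Nodal.SupplyPin
open Fermat.Agent.GS.Nodal.DiscFacts2
open Fermat.Agent.GS.Frame Fermat.Agent.GS.Top.FramePlug Fermat.Agent.GS.Top.FrameNodeAll
open Fermat.Agent.GS.F Fermat.Agent.GS.Loc2 Fermat.Agent.GS.Loc2.Disc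
open Fermat.Agent.GJ Fermat.Agent.GJ.KumGroup Fermat.Agent.GJ.Kum Fermat.Agent.GJ.CycChar
open Fermat.Agent.GF.Shape.Plug Fermat.Agent.GH Fermat.Agent.GK.BallTwo
open Fermat.Agent.GF.NormDepth.Inst Fermat.Agent.GE8.LLP.TorP
open Fermat.Agent.GH.KummerPic

attribute [local instance] finiteResidues_FN hasPrincipalDivisors_FN nonempty_place_FN
  isAlgClosed_res finiteResidues_Fres hasPrincipalDivisors_Fres nonempty_place_Fres

local notation "Qb" => AlgebraicClosure ℚ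
local notation "GQ" => (AlgebraicClosure ℚ ≃ₐ[ℚ] AlgebraicClosure ℚ)

/-- **(B) on the modular nodal frames**: `CoordBoundAt p N h` at every level `N`, `p ∥ N`. -/
theorem coordBoundAt {p N : ℕ} [NeZero N] [Fact p.Prime] (h : ExactDvd p N) :
    CoordBoundAt p N h := by
  intro A hA lam hlam x hxM hd1 hd2
  haveI : Infinite (ResidueField A) := IsAlgClosed.instInfinite
  intro ι _ P Q c n₀ FF H n hn 𝔠 τ hτ
  haveI : NeZero p := ⟨(Fact.out : p.Prime).ne_zero⟩
  have hpp : p.Prime := Fact.out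
  haveI : Nonempty ι := nonempty_of_frameFacts N A h hA FF
  haveI : Infinite (Place (ResidueField A) (FresBar N A)) := infinite_place_Fres N A
  obtain ⟨hΦ, hsup, -, -, -, -⟩ :=
    pin_target H FF.injP FF.injQ (Fermat.Agent.GH.Inst.harch A h.prime hA) n hn
  haveI : CharP (ResidueField A) p := charP_res A h.prime hA
  -- the adapted representative
  obtain ⟨X, u₀, d, hy, hX, hval, hdiv⟩ := AdaptedRep.exists_adapted_rep (p := p) 𝔠 x hτ
  -- the admissible generator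
  obtain ⟨ua, hua, D, hD, hξ⟩ := mem_M0mod_iff.1 (mem_M0Kum.1 hxM)
  have huaP : ua ∈ pDivUnits Qb (FK N) p := fun v => ⟨(D : Divisor Qb (FK N)) v, (hD v).symm⟩
  have hk : kumJ N p (Additive.ofMul (Kum.mk ⟨ua, huaP⟩)) = kumJ N p x := by
    rw [hξ]
    show Pic0.mk ⟨divDiv p ⟨ua, huaP⟩, degree_divDiv p ⟨ua, huaP⟩⟩ = Pic0.mk D
    congr 1
    apply Subtype.ext
    ext v
    have h1 := mul_divDiv_apply p (⟨ua, huaP⟩ : pDivUnits Qb (FK N) p) v
    have h2 := hD v
    have hp0 : (p : ℤ) ≠ 0 := Int.natCast_ne_zero.2 hpp.ne_zero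
    exact mul_left_cancel₀ hp0 (h1.trans h2.symm)
  have hx' : Additive.ofMul (Kum.mk ⟨ua, huaP⟩) = x := kumJ_injective N p hk
  have hmk : Kum.mk (⟨ua, huaP⟩ : pDivUnits Qb (FK N) p) = Kum.mk u₀ := by
    rw [← hy] at hx'
    exact congrArg Additive.toMul hx'
  obtain ⟨w, hw⟩ := Kum.mk_eq_mk_iff.1 hmk
  -- `u₀ d^p = ua (w d)^p`
  have hu : ((u₀ : (FK N)ˣ) : FK N) * (d : FK N) ^ p = (ua : FK N) * ((w : FK N) * (d : FK N)) ^ p := by
    rw [hw]
    push_cast
    ring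
  have hf0 : (w : FK N) * (d : FK N) ≠ 0 := mul_ne_zero w.ne_zero d.ne_zero
  have hdiv' : ∀ v : Place Qb (FK N), v.ord ((ua : FK N) * ((w : FK N) * (d : FK N)) ^ p) =
      (p : ℤ) * ((∑ i, Finsupp.single (X i) (1 : ℤ)) v - 𝔠.D0 v) := by
    intro v
    rw [← hu, hdiv v, Finsupp.sub_apply]
  have hdeep1 : DeepCoord.DeepRep (redDataBar N A) p ((ua : FK N) * ((w : FK N) * (d : FK N)) ^ p) := by
    rw [← hu]
    exact AdaptedRep.deepAt_of_deep (hy ▸ hd1) ⟨d, rfl⟩
  have hdeep2 : DeepCoord.DeepRep (redData2 N A h) p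
      ((ua : FK N) * ((w : FK N) * (d : FK N)) ^ p) := by
    rw [← hu]
    exact AdaptedRep.deepAt_of_deep (hy ▸ hd2) ⟨d, rfl⟩
  have hroot : ∀ c : Qb, ∃ γ : Qb, γ ^ p = c := fun c => IsAlgClosed.exists_pow_nat_eq c hpp.pos
  have hp0 : ((p : ℕ) : Qb) ≠ 0 := Nat.cast_ne_zero.mpr hpp.ne_zero
  have hplt : A.valuation ((p : ℕ) : Qb) < 1 := A.mem_nonunits_iff.mp hA
  exact DeepCoord.coord_le_of_deepRep_nodal H (ff2_pin H) hsup p (hperf_res A hpp.pos) hroot
    FF.degP FF.degQ (unram_redDataBar N A) (unram_redData2 N A h) 𝔠 hX hval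
    (adm2_of_mem_goodUnitsMod hua) hf0 hdiv' hdeep1 hdeep2 hlam.symm hp0 hplt

/-- **(DS-ω) at the level `M' p`**, `p` odd (`p = 3 → 2 ∣ M' p`). -/
theorem dsOmegaAt {p : ℕ} [Fact p.Prime] {M' : ℕ} [NeZero M'] (h : ExactDvd p (M' * p))
    (hp2 : p ≠ 2) (hside : p = 3 → 2 ∣ M' * p) : DSOmegaAt p M' h :=
  dsOmegaAt_of_coordBoundAt h hp2 hside (coordBoundAt h)

/-- **(DS-ω)** for `5 ≤ p`. -/
theorem dsOmegaStmt {p : ℕ} [Fact p.Prime] (hp5 : 5 ≤ p) : DSOmegaStmt p :=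
  dsOmega_of_coordBound hp5 fun _ _ h => coordBoundAt h

/-- **(TOR-p)** for `5 ≤ p`. -/
theorem torPStmt {p : ℕ} [Fact p.Prime] (hp5 : 5 ≤ p) : TorPStmt p :=
  torP_of_coordBound hp5 fun _ _ h => coordBoundAt h

end Fermat.Agent.GE8.LLP.DSOmega.CoordBound

end
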