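/-
GATE-E / E8.4 (DS-ω), route V of helper47 (helper65): **a class of `M⁰_p ⊆ Kum_p(F_N)` is the Kummer
class of an admissible unit** (`exists_adm_rep`).

DE-TWINNED: the closing theorems `coordBoundAt`, `dsOmegaAt`, `dsOmegaStmt`, `torPStmt` landed here
(cd1f84fb) 24 s before helper47's `DSOmega/Top.lean` (6db62b4d) under the SAME names in the SAME
namespace.  VERSION OF RECORD = `Fermat.Agent.GE8.LLP.DSOmega.Top` (helper47, board 7510); the twins
were removed from this file so that both files may sit in one import closure.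
-/
import Mathlib
import Fermat.Agent.GE8.LLP.DSOmega.Final
import Fermat.Agent.GE8.LLP.DSOmega.AdaptedRep
import Fermat.Agent.GE8.LLP.DSOmega.DeepCoordNodal

set_option autoImplicit false
set_option linter.unusedSectionVars false
set_option linter.unusedVariables false
set_option linter.style.haveILetI false

noncomputable section

open AlgebraicCurve ModularCurve IsLocalRing

namespace Fermat.Agent.GE8.LLP.DSOmega

open Fermat.Agent.S24 Fermat.Agent.S24_helper62 Fermat.Agent.RRh45 Fermat.Agent.RR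
open Fermat.Agent.GJ.J1 Fermat.Agent.GJ.J1.Val Fermat.Agent.GJ.J1.InstGen
open Fermat.Agent.GK.AL Fermat.Agent.GK.MultiVal
open Fermat.Agent.GK.CuspSep Fermat.Agent.GK.SymChart Fermat.Agent.GK.SymDegree
open Fermat.Agent.GS.Nodal.LSR2 Fermat.Agent.GS.Nodal.Inst Fermat.Agent.GS.Nodal.SupplyPin
open Fermat.Agent.GS.Nodal.DiscFacts2
open Fermat.Agent.GS.Frame Fermat.Agent.GS.Top.FramePlug Fermat.Agent.GS.Top.FrameNodeAll
open Fermat.Agent.GS.F Fermat.Agent.GS.Loc2.Ker
open Fermat.Agent.GJ Fermat.Agent.GJ.KumGroup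
open Fermat.Agent.GF.Shape.Plug Fermat.Agent.GH Fermat.Agent.GK.BallTwo
open Fermat.Agent.GH.KummerPic Fermat.Agent.GH.TorsionCount
open Fermat.Agent.GF.NormDepth.Inst Fermat.Agent.GE8.LLP.TorP
open Fermat.Agent.GE8.LLP.DSOmega.AdaptedRep Fermat.Agent.GE8.LLP.DSOmega.DeepCoord

open scoped Classical

attribute [local instance] finiteResidues_FN hasPrincipalDivisors_FN nonempty_place_FN
  isAlgClosed_res finiteResidues_Fres hasPrincipalDivisors_Fres nonempty_place_Fres

local notation "Qb" => AlgebraicClosure ℚ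

/-- a class of `M⁰_p ⊆ Kum_p(F_N)` is the Kummer class of an admissible unit. -/
theorem exists_adm_rep {p N : ℕ} [NeZero N] [NeZero p] {A : ValuationSubring Kbar}
    {h : ExactDvd p N} {x : Additive (Kum Qb (FK N) p)} (hxM : x ∈ M0Kum N A h p) :
    ∃ u₀ : pDivUnits Qb (FK N) p,
      Adm2 (redDataBar N A) (redData2 N A h) (((u₀ : (FK N)ˣ) : FK N)) ∧
      Additive.ofMul (Kum.mk u₀) = x := by
  obtain ⟨u, hu0, hadm, D, hD, hξ⟩ := M0mod_subset_admClasses (mem_M0Kum.1 hxM)
  have hmem : Units.mk0 u hu0 ∈ pDivUnits Qb (FK N) p := fun v => ⟨(D : Divisor Qb (FK N)) v, by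
    rw [Units.val_mk0]; exact (hD v).symm⟩
  refine ⟨⟨Units.mk0 u hu0, hmem⟩, hadm, ?_⟩
  apply kumJ_injective N p
  rw [hξ]
  have hp0 : (p : ℤ) ≠ 0 := Int.natCast_ne_zero.2 (NeZero.ne p)
  have hDD : (⟨divDiv p (⟨Units.mk0 u hu0, hmem⟩ : pDivUnits Qb (FK N) p),
      degree_divDiv p _⟩ : Divisor.degZero (K := Qb) (F := FK N)) = D := by
    apply Subtype.ext
    ext v
    apply mul_left_cancel₀ hp0
    show (p : ℤ) * divDiv p (⟨Units.mk0 u hu0, hmem⟩ : pDivUnits Qb (FK N) p) v = _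
    rw [mul_divDiv_apply, hD v]
    rfl
  rw [← hDD]
  rfl

end Fermat.Agent.GE8.LLP.DSOmega

end
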