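/-
GATE-E / E8.4 (DS-ω) (helper18, second seat of helper47's route, board 7304 §3): **`Deep R p` is a
subgroup property of `Kum_p(F)`, stable under the decomposition group** at the two Gauss valuations
of `F_N`.

* `deep_zero`, `deep_add`, `deep_nsmul`, `deep_neg`, `deep_sub` : the deep classes of a reduction datum
  `R` form a subgroup (`deepSubgroup R p`, `0 < p`);
* `deep_gal₁`, `deep_gal₂` : for `σ` in the decomposition group of `A`, `gal σ` preserves
  `Deep (redDataBar N A) p` and `Deep (redData2 N A h) p`;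
* `doublyDeep N A h p` : the subgroup of the classes deep at both Gauss valuations, `gal_mem_doublyDeep`.
-/
import Mathlib
import Fermat.Agent.GF.NormDepth.Inst.Deep
import Fermat.Agent.GK.AL.SecondValGal
import Fermat.Agent.GJ.Kum.KumType

set_option autoImplicit false
set_option linter.unusedSectionVars false

noncomputable section

namespace Fermat.Agent.GE8.LLP.DSOmega.DeepGrp

open Fermat.Agent.GJ.J1 Fermat.Agent.GJ.KumGroup Fermat.Agent.GF.NormDepth.Inst

section General

variable {K F k Ft : Type*} [Field K] [Field F] [Algebra K F] [Field k] [Field Ft] [Algebra k Ft]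
variable {R : RedData K F k Ft} {p : ℕ}

/-- it is enough to produce deep representatives for the constants of `A`. -/
theorem deep_of_small {x : Additive (Kum K F p)}
    (H : ∀ c : K, c ≠ 0 → c ∈ R.A → ∃ u : pDivUnits K F p, Additive.ofMul (Kum.mk u) = x ∧
      ∃ r ∈ R.Rw, ((u : Fˣ) : F) - 1 = algebraMap K F c * r) : Deep R p x := by
  intro c hc
  by_cases hcA : c ∈ R.A
  · exact H c hc hcA
  · -- `c⁻¹ ∈ A`: use the constant `1`
    have hinv : c⁻¹ ∈ R.A := (R.A.mem_or_inv_mem c).resolve_left hcA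
    obtain ⟨u, hu, r, hr, hur⟩ := H 1 one_ne_zero R.A.one_mem
    refine ⟨u, hu, algebraMap K F c⁻¹ * r, R.Rw.mul_mem _ _ ((R.mem_A_iff _).1 hinv) hr, ?_⟩
    rw [hur, map_one, one_mul, ← mul_assoc, ← map_mul, mul_inv_cancel₀ hc, map_one, one_mul]

theorem deep_zero : Deep R p (0 : Additive (Kum K F p)) := by
  intro c _
  refine ⟨1, ?_, 0, R.Rw.zero_mem, ?_⟩
  · rw [map_one]; rfl
  · simp

theorem deep_add {x y : Additive (Kum K F p)} (hx : Deep R p x) (hy : Deep R p y) :
    Deep R p (x + y) := by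
  refine deep_of_small fun c hc hcA => ?_
  obtain ⟨u, hu, r, hr, hur⟩ := hx c hc
  obtain ⟨u', hu', r', hr', hur'⟩ := hy c hc
  have hcR : algebraMap K F c ∈ R.Rw := (R.mem_A_iff _).1 hcA
  refine ⟨u * u', ?_, r + r' + algebraMap K F c * r * r', ?_, ?_⟩
  · rw [map_mul, ← hu, ← hu']; rfl
  · exact R.Rw.add_mem _ _ (R.Rw.add_mem _ _ hr hr') (R.Rw.mul_mem _ _ (R.Rw.mul_mem _ _ hcR hr) hr')
  · have h1 : ((u : Fˣ) : F) = 1 + algebraMap K F c * r := by rw [← hur]; ring
    have h2 : ((u' : Fˣ) : F) = 1 + algebraMap K F c * r' := by rw [← hur']; ring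
    rw [Subgroup.coe_mul, Units.val_mul, h1, h2]
    ring

theorem deep_nsmul {x : Additive (Kum K F p)} (hx : Deep R p x) (n : ℕ) : Deep R p (n • x) := by
  induction n with
  | zero => rw [zero_smul]; exact deep_zero
  | succ n ih => rw [succ_nsmul]; exact deep_add ih hx

/-- `Kum_p` is killed by `p`. -/
theorem nsmul_kum_eq_zero (x : Additive (Kum K F p)) : p • x = 0 := by
  obtain ⟨u, rfl⟩ := Kum.mk_surjective (Additive.toMul x)
  show Additive.ofMul ((Kum.mk u) ^ p) = 0
  rw [← map_pow]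
  have h1 : Kum.mk (u ^ p) = (Kum.mk (1 : pDivUnits K F p) : Kum K F p) := by
    rw [Kum.mk_eq_mk_iff]
    refine ⟨(u : Fˣ)⁻¹, ?_⟩
    rw [Subgroup.coe_pow, inv_pow, mul_inv_cancel, OneMemClass.coe_one]
  rw [h1, map_one]
  rfl

theorem neg_eq_pred_nsmul (hp : 0 < p) (x : Additive (Kum K F p)) : -x = (p - 1) • x := by
  have h2 : p • x = 0 := nsmul_kum_eq_zero x
  have h3 : (p - 1) • x + x = 0 := by
    rw [← succ_nsmul, Nat.sub_add_cancel hp]
    exact h2
  exact neg_eq_of_add_eq_zero_left h3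

theorem deep_neg (hp : 0 < p) {x : Additive (Kum K F p)} (hx : Deep R p x) : Deep R p (-x) := by
  rw [neg_eq_pred_nsmul hp]
  exact deep_nsmul hx _

theorem deep_sub (hp : 0 < p) {x y : Additive (Kum K F p)} (hx : Deep R p x) (hy : Deep R p y) :
    Deep R p (x - y) := by
  rw [sub_eq_add_neg]
  exact deep_add hx (deep_neg hp hy)

/-- **the subgroup of deep classes.** -/
def deepSubgroup (R : RedData K F k Ft) (p : ℕ) (hp : 0 < p) :
    AddSubgroup (Additive (Kum K F p)) where
  carrier := {x | Deep R p x}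
  zero_mem' := deep_zero
  add_mem' := fun hx hy => deep_add hx hy
  neg_mem' := fun hx => deep_neg hp hx

theorem mem_deepSubgroup {hp : 0 < p} {x : Additive (Kum K F p)} :
    x ∈ deepSubgroup R p hp ↔ Deep R p x := Iff.rfl

end General

/-! ### the decomposition group preserves deepness at the two Gauss valuations of `F_N` -/

section Modular

open ModularCurve Fermat.Agent.GK.AL Fermat.Agent.GJ.Kum Fermat.Agent.GJ.Kum.KumType
open Fermat.Agent.S24 Fermat.Agent.GJ.J1.Val

local notation "GQ" => (AlgebraicClosure ℚ ≃ₐ[ℚ] AlgebraicClosure ℚ)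

variable {N : ℕ} [NeZero N] {A : ValuationSubring Kb} {q : ℕ} {h : ExactDvd q N} {p : ℕ}

/-- transport of a deep representative along `galF N σ`, for a reduction datum preserved by `σ`. -/
theorem deep_gal_of_stable {k Ft : Type*} [Field k] [Field Ft] [Algebra k Ft]
    (R : RedData Kb (FK N) k Ft) {σ : GQ}
    (hR : ∀ f : FK N, f ∈ R.Rw → galF N σ f ∈ R.Rw) {x : Additive (Kum Kb (FK N) p)}
    (hx : Deep R p x) : Deep R p (KumType.gal N p σ x) := by
  intro c hc
  have hc' : σ.symm c ≠ 0 := by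
    intro h0
    apply hc
    have := congrArg σ h0
    rwa [AlgEquiv.apply_symm_apply, map_zero] at this
  obtain ⟨u, hu, r, hr, hur⟩ := hx (σ.symm c) hc'
  refine ⟨⟨galUnits N σ u, galUnits_mem N p σ u u.2⟩, ?_, galF N σ r, hR r hr, ?_⟩
  · rw [← hu, gal_mk]
  · have h1 := congrArg (galF N σ) hur
    rw [map_sub, map_one, map_mul, galF_algebraMap, AlgEquiv.apply_symm_apply] at h1
    exact h1

/-- **`D_A` preserves deepness at `w₁`.** -/
theorem deep_gal₁ {σ : GQ} (hσ : σ ∈ A.decompositionSubgroup ℚ)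
    {x : Additive (Kum Kb (FK N) p)} (hx : Deep (redDataBar N A) p x) :
    Deep (redDataBar N A) p (KumType.gal N p σ x) :=
  deep_gal_of_stable (redDataBar N A) (fun _ hf => galF_mem_Rw1 hσ hf) hx

/-- **`D_A` preserves deepness at `w₂`.** -/
theorem deep_gal₂ {σ : GQ} (hσ : σ ∈ A.decompositionSubgroup ℚ)
    {x : Additive (Kum Kb (FK N) p)} (hx : Deep (redData2 N A h) p x) :
    Deep (redData2 N A h) p (KumType.gal N p σ x) :=
  deep_gal_of_stable (redData2 N A h) (fun _ hf => galF_mem_Rw2 hσ hf) hx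

/-- **the subgroup of doubly deep classes** (deep at both Gauss valuations). -/
def doublyDeep (N : ℕ) [NeZero N] (A : ValuationSubring Kb) {q : ℕ} (h : ExactDvd q N) (p : ℕ)
    (hp : 0 < p) : AddSubgroup (Additive (Kum Kb (FK N) p)) :=
  deepSubgroup (redDataBar N A) p hp ⊓ deepSubgroup (redData2 N A h) p hp

theorem mem_doublyDeep {hp : 0 < p} {x : Additive (Kum Kb (FK N) p)} :
    x ∈ doublyDeep N A h p hp ↔ Deep (redDataBar N A) p x ∧ Deep (redData2 N A h) p x :=
  Iff.rfl

/-- **`D_A` preserves the doubly deep classes.** -/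
theorem gal_mem_doublyDeep {hp : 0 < p} {σ : GQ} (hσ : σ ∈ A.decompositionSubgroup ℚ)
    {x : Additive (Kum Kb (FK N) p)} (hx : x ∈ doublyDeep N A h p hp) :
    KumType.gal N p σ x ∈ doublyDeep N A h p hp :=
  ⟨deep_gal₁ hσ hx.1, deep_gal₂ hσ hx.2⟩

end Modular

end Fermat.Agent.GE8.LLP.DSOmega.DeepGrp
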