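/-
GATE-E (S59) / E8.4 RISK-1 (DS-ω), file (A) (helper40; board 7334): **coordinates of absolute value
`≤ |ζ_p - 1|` force the inertia group to act through the mod-`p` cyclotomic character.**
ABSTRACT: Mathlib + `GS/Loc2/Abs` vocabulary (`tens`, `Qb`, `inertiaSubgroupIn`) + `GP/Ram/KummerBreak`.

Setting (the one of helper71's `GS/Loc2/Abs.no_trivial_subquotient_coords`): `A | p` a valuation
subring of `ℚ̄`, `M` an abelian group killed by `p` with an action `act` of `I_A`, coordinate
functions `T i : M → ℚ̄` (`i` in a finite type) which are `I_A`-equivariant (`heq`), separating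
(`hsep`), vanish at `0` (`h0`) and are `Δ`-stable with coefficients in `A[T]`
(`hΔ : T_j (x + y) ∈ tens A[T]`, the weak "`A`-algebra generated" form of the addition law — this
is what `GS/Loc2/Charts.coords_of_charts` delivers from the frame contracts).

* `shiftOp`, `diffOp`, `newton` : `f (y + n • x) = Σ_k C(n,k) (Δ_x^k f)(y)`;
* `val_sub_le`          : coordinates of `x` all `≤ γ` ⟹ `f x ≡ f 0 mod γ` for `f ∈ A[T]`;
* `val_diffOp_pow_le`   : `|Δ_x^k f| ≤ γ^k` on `A[T]` (from `hΔ`: `Δ_x f = Σ (b_l x - b_l 0) a_l`);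
* `val_add_sub_le`      : `T_j (x + y) ≡ T_j x + T_j y mod δ ε`;
* **`val_p_le`** (LB)   : `x ≠ 0`, `p • x = 0` ⟹ `|p| ≤ max_i |T_i x|^(p-1)`.  Newton at `n = p`:
  `p T_j x = -Σ_{2 ≤ k < p} C(p,k) Δ^k T_j (0) - Δ^p T_j (0)`, so `|p| r ≤ max (|p| r², r^p)`.
  NO formal group law, NO associativity/commutativity at the level of polynomials is used;
* **`act_eq_nsmul`**    : if moreover `|T_i x| ≤ |ζ - 1|` for all `i`, `x` (`ζ` a primitive `p`-th root
  of unity), then `σ ζ = ζ^a → act σ x = a • x` for all `σ ∈ I_A`: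
  the coordinates of `z := σ x - a x` are `≡ σ(τ) - a τ mod λ²` (`λ = ζ - 1`), and
  `σ(λ Y) - a λ Y = (σλ - aλ) σY + aλ (σY - Y)` has absolute value `< |λ|`, so `z = 0` by (LB) and
  `|λ|^(p-1) = |p|`.
-/
import Mathlib
import Fermat.Agent.GS.Loc2.Abs
import Fermat.Agent.GP.Ram.KummerBreak

set_option autoImplicit false
set_option linter.unusedSectionVars false
set_option linter.unusedVariables false
set_option linter.style.haveILetI false

open Fermat.Agent.Common_helper32 Fermat.Agent.GL.Local.InertiaField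
open Fermat.Agent.GH

namespace Fermat.Agent.GE8.LLP.DSOmega.OmegaAbs

noncomputable section

/-! ### the shift and difference operators -/

section Ops

variable {M : Type*} [AddCommGroup M] {K : Type*} [Field K]

/-- the shift operator `f ↦ f (· + x)`. -/
def shiftOp (x : M) : Module.End K (M → K) where
  toFun f := fun y => f (y + x)
  map_add' f g := rfl
  map_smul' c f := rfl

/-- the difference operator `f ↦ f (· + x) - f`. -/
def diffOp (x : M) : Module.End K (M → K) := shiftOp x - 1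

theorem shiftOp_apply (x : M) (f : M → K) (y : M) : shiftOp (K := K) x f y = f (y + x) := rfl

theorem diffOp_apply (x : M) (f : M → K) (y : M) :
    diffOp (K := K) x f y = f (y + x) - f y := rfl

theorem shiftOp_eq (x : M) : shiftOp (K := K) x = diffOp x + 1 := by
  unfold diffOp; abel

theorem shiftOp_pow_apply (x : M) (n : ℕ) (f : M → K) (y : M) :
    (shiftOp (K := K) x ^ n) f y = f (y + n • x) := by
  induction n generalizing f y with
  | zero => simp
  | succ n ih =>
    rw [pow_succ, Module.End.mul_apply, ih, shiftOp_apply, succ_nsmul, add_assoc]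

/-- **Newton's forward difference formula**. -/
theorem newton (x : M) (n : ℕ) (f : M → K) (y : M) :
    f (y + n • x) = ∑ k ∈ Finset.range (n + 1), (n.choose k : K) * (diffOp (K := K) x ^ k) f y := by
  have h := shiftOp_pow_apply (K := K) x n f y
  rw [← h, shiftOp_eq, (Commute.one_right (diffOp (K := K) x)).add_pow]
  rw [LinearMap.sum_apply, Finset.sum_apply]
  refine Finset.sum_congr rfl fun k _ => ?_
  rw [one_pow, mul_one, Module.End.mul_apply, Module.End.natCast_apply, map_nsmul, Pi.smul_apply,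
    nsmul_eq_mul]

end Ops

/-! ### valuation bounds on `A[T]` -/

section Bounds

variable (A : ValuationSubring Qb) {M : Type*} [AddCommGroup M] {ι : Type*} (T : ι → M → Qb)

/-- values of `A[T]` lie in `A`. -/
theorem adjoin_val (hval : ∀ i x, T i x ∈ A) :
    ∀ f ∈ Algebra.adjoin A (Set.range T), ∀ x, f x ∈ A := by
  intro f hf
  induction hf using Algebra.adjoin_induction with
  | mem f hf =>
    obtain ⟨i, rfl⟩ := hf
    exact hval i
  | algebraMap r => exact fun x => r.2
  | add f g _ _ hf hg => exact fun x => A.add_mem _ _ (hf x) (hg x)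
  | mul f g _ _ hf hg => exact fun x => A.mul_mem _ _ (hf x) (hg x)

theorem adjoin_val_le (hval : ∀ i x, T i x ∈ A) {f : M → Qb}
    (hf : f ∈ Algebra.adjoin A (Set.range T)) (x : M) : A.valuation (f x) ≤ 1 :=
  (A.valuation_le_one_iff _).2 (adjoin_val A T hval f hf x)

/-- if the coordinates of `x` are `≤ γ` then `f x ≡ f 0 mod γ` for all `f ∈ A[T]`. -/
theorem val_sub_le (hval : ∀ i x, T i x ∈ A) {x : M} {γ : A.ValueGroup}
    (hx : ∀ i, A.valuation (T i x - T i 0) ≤ γ) :
    ∀ f ∈ Algebra.adjoin A (Set.range T), A.valuation (f x - f 0) ≤ γ := by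
  intro f hf
  induction hf using Algebra.adjoin_induction with
  | mem f hf =>
    obtain ⟨i, rfl⟩ := hf
    exact hx i
  | algebraMap r =>
    have : (algebraMap A (M → Qb) r) x - (algebraMap A (M → Qb) r) 0 = 0 := by
      simp [Pi.algebraMap_apply]
    rw [this, map_zero]
    exact zero_le
  | add f g _ _ hf hg =>
    have : (f + g) x - (f + g) 0 = (f x - f 0) + (g x - g 0) := by
      simp only [Pi.add_apply]; ring
    rw [this]
    exact (A.valuation.map_add _ _).trans (max_le hf hg)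
  | mul f g hf' hg' hf hg =>
    have : (f * g) x - (f * g) 0 = f x * (g x - g 0) + (f x - f 0) * g 0 := by
      simp only [Pi.mul_apply]; ring
    rw [this]
    refine (A.valuation.map_add _ _).trans (max_le ?_ ?_)
    · rw [map_mul]
      calc A.valuation (f x) * A.valuation (g x - g 0) ≤ 1 * γ :=
            mul_le_mul' (adjoin_val_le A T hval hf' x) hg
        _ = γ := one_mul _
    · rw [map_mul]
      calc A.valuation (f x - f 0) * A.valuation (g 0) ≤ γ * 1 :=
            mul_le_mul' hf (adjoin_val_le A T hval hg' 0)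
        _ = γ := mul_one _

/-- the comultiplication formula for every element of `A[T]`. -/
theorem exists_decomp
    (hΔ : ∀ j, (fun q : M × M => T j (q.1 + q.2)) ∈ tens (Algebra.adjoin A (Set.range T)))
    {f : M → Qb} (hf : f ∈ Algebra.adjoin A (Set.range T)) :
    ∃ (m : ℕ) (a b : Fin m → (M → Qb)), (∀ l, a l ∈ Algebra.adjoin A (Set.range T)) ∧
      (∀ l, b l ∈ Algebra.adjoin A (Set.range T)) ∧ ∀ u w, f (u + w) = ∑ l, a l u * b l w := by
  have hall := comp_add_mem_tens_of_generators (A := A) (Set.range T)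
    (by rintro _ ⟨j, rfl⟩; exact hΔ j)
  obtain ⟨m, a, b, ha, hb, hab⟩ := exists_fin_of_mem_tens (hall f hf)
  exact ⟨m, a, b, ha, hb, fun u w => hab u w⟩

/-- the difference operator on `A[T]`: `Δ_x f = Σ (b_l x - b_l 0) • a_l`. -/
theorem diffOp_decomp
    (hΔ : ∀ j, (fun q : M × M => T j (q.1 + q.2)) ∈ tens (Algebra.adjoin A (Set.range T)))
    {f : M → Qb} (hf : f ∈ Algebra.adjoin A (Set.range T)) (x : M) :
    ∃ (m : ℕ) (a b : Fin m → (M → Qb)), (∀ l, a l ∈ Algebra.adjoin A (Set.range T)) ∧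
      (∀ l, b l ∈ Algebra.adjoin A (Set.range T)) ∧
      diffOp (K := Qb) x f = ∑ l, (b l x - b l 0) • a l := by
  obtain ⟨m, a, b, ha, hb, hab⟩ := exists_decomp A T hΔ hf
  refine ⟨m, a, b, ha, hb, ?_⟩
  funext y
  rw [diffOp_apply, hab y x, Finset.sum_apply]
  have h1 : f y = ∑ l, a l y * b l 0 := by
    have := hab y 0
    rwa [add_zero] at this
  rw [h1, ← Finset.sum_sub_distrib]
  refine Finset.sum_congr rfl fun l _ => ?_
  rw [Pi.smul_apply, smul_eq_mul]
  ring

/-- **iterated differences are small**: `|Δ_x^k f| ≤ γ^k` on `A[T]`. -/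
theorem val_diffOp_pow_le (hval : ∀ i x, T i x ∈ A)
    (hΔ : ∀ j, (fun q : M × M => T j (q.1 + q.2)) ∈ tens (Algebra.adjoin A (Set.range T)))
    {x : M} {γ : A.ValueGroup} (hx : ∀ i, A.valuation (T i x - T i 0) ≤ γ) (k : ℕ) :
    ∀ f ∈ Algebra.adjoin A (Set.range T), ∀ y,
      A.valuation ((diffOp (K := Qb) x ^ k) f y) ≤ γ ^ k := by
  induction k with
  | zero =>
    intro f hf y
    rw [pow_zero, pow_zero, Module.End.one_apply]
    exact adjoin_val_le A T hval hf y
  | succ k ih =>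
    intro f hf y
    obtain ⟨m, a, b, ha, hb, hab⟩ := diffOp_decomp A T hΔ hf x
    rw [pow_succ, Module.End.mul_apply, hab, map_sum, Finset.sum_apply]
    refine A.valuation.map_sum_le fun l _ => ?_
    rw [map_smul, Pi.smul_apply, smul_eq_mul, map_mul, pow_succ, mul_comm]
    exact mul_le_mul' (ih (a l) (ha l) y) (val_sub_le A T hval hx (b l) (hb l))

/-- **additivity of the coordinates up to second order**. -/
theorem val_add_sub_le (hval : ∀ i x, T i x ∈ A) (h0 : ∀ i, T i 0 = 0)
    (hΔ : ∀ j, (fun q : M × M => T j (q.1 + q.2)) ∈ tens (Algebra.adjoin A (Set.range T)))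
    {x y : M} {δ ε : A.ValueGroup} (hx : ∀ i, A.valuation (T i x) ≤ δ)
    (hy : ∀ i, A.valuation (T i y) ≤ ε) (j : ι) :
    A.valuation (T j (x + y) - T j x - T j y) ≤ δ * ε := by
  obtain ⟨m, a, b, ha, hb, hab⟩ :=
    exists_decomp A T hΔ (Algebra.subset_adjoin (⟨j, rfl⟩ : T j ∈ Set.range T))
  have h1 : T j x = ∑ l, a l x * b l 0 := by have := hab x 0; rwa [add_zero] at this
  have h2 : T j y = ∑ l, a l 0 * b l y := by have := hab 0 y; rwa [zero_add] at this
  have h3 : (0 : Qb) = ∑ l, a l 0 * b l 0 := by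
    have := hab 0 0; rwa [add_zero, h0] at this
  have h4 : T j (x + y) - T j x - T j y = ∑ l, (a l x - a l 0) * (b l y - b l 0) := by
    have : T j (x + y) - T j x - T j y = T j (x + y) - T j x - T j y + 0 := by ring
    rw [this, hab x y, h1, h2, h3, ← Finset.sum_sub_distrib, ← Finset.sum_sub_distrib,
      ← Finset.sum_add_distrib]
    refine Finset.sum_congr rfl fun l _ => ?_
    ring
  rw [h4]
  refine A.valuation.map_sum_le fun l _ => ?_
  rw [map_mul]
  refine mul_le_mul' (val_sub_le A T hval (fun i => ?_) (a l) (ha l))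
    (val_sub_le A T hval (fun i => ?_) (b l) (hb l))
  · rw [h0, sub_zero]; exact hx i
  · rw [h0, sub_zero]; exact hy i

end Bounds

/-! ### the lower bound for points of order `p` -/

section LB

variable (A : ValuationSubring Qb) {M : Type*} [AddCommGroup M] {ι : Type*} [Finite ι]
  (T : ι → M → Qb) {p : ℕ}

open Fermat.Agent.GP.Ram.KummerBreak in
/-- **(LB)**: a nonzero point of order `p` has a coordinate `T_j x` with `|p| ≤ |T_j x|^(p-1)`.
(Newton's forward differences + `hΔ`; no formal group law.) -/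
theorem val_p_le (hp : p.Prime) (hval : ∀ i x, T i x ∈ A.nonunits) (h0 : ∀ i, T i 0 = 0)
    (hsep : ∀ x y : M, x ≠ y → ∃ i, T i x ≠ T i y)
    (hΔ : ∀ j, (fun q : M × M => T j (q.1 + q.2)) ∈ tens (Algebra.adjoin A (Set.range T)))
    {x : M} (hx0 : x ≠ 0) (hpx : p • x = 0) :
    ∃ j, (∀ i, A.valuation (T i x) ≤ A.valuation (T j x)) ∧
      A.valuation (p : Qb) ≤ A.valuation (T j x) ^ (p - 1) := by
  classical
  set v := A.valuation with hv
  have hvalA : ∀ i x, T i x ∈ A := fun i x =>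
    (A.valuation_le_one_iff _).1 (le_of_lt ((A.mem_nonunits_iff).1 (hval i x)))
  obtain ⟨i₀, hi₀⟩ := hsep x 0 hx0
  rw [h0] at hi₀
  haveI : Nonempty ι := ⟨i₀⟩
  obtain ⟨j, hj⟩ := Finite.exists_max (fun i => v (T i x))
  refine ⟨j, hj, ?_⟩
  set δ := v (T j x) with hδ
  have hδ0 : δ ≠ 0 := by
    intro h
    have h1 : v (T i₀ x) ≤ 0 := h ▸ hj i₀
    exact hi₀ ((map_eq_zero v).1 (le_antisymm h1 zero_le))
  have hδ1 : δ < 1 := (A.mem_nonunits_iff).1 (hval j x)
  have hxδ : ∀ i, v (T i x - T i 0) ≤ δ := fun i => by rw [h0, sub_zero]; exact hj i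
  have hTj : T j ∈ Algebra.adjoin A (Set.range T) := Algebra.subset_adjoin ⟨j, rfl⟩
  -- Newton at `n = p`, `y = 0`
  have hN := newton (K := Qb) x p (T j) 0
  rw [zero_add, hpx, h0] at hN
  have h1mem : 1 ∈ Finset.range (p + 1) := Finset.mem_range.2 (by have := hp.two_le; omega)
  rw [← Finset.add_sum_erase _ _ h1mem] at hN
  have hterm1 : ((p.choose 1 : ℕ) : Qb) * (diffOp (K := Qb) x ^ 1) (T j) 0 = (p : Qb) * T j x := by
    rw [Nat.choose_one_right, pow_one, diffOp_apply, zero_add, h0, sub_zero]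
  rw [hterm1] at hN
  have hpv0 : v (p : Qb) ≠ 0 := by
    rw [Ne, map_eq_zero]
    exact_mod_cast hp.ne_zero
  -- the bound on the other terms
  have hB : v ((p : Qb) * T j x) ≤ max (v (p : Qb) * δ ^ 2) (δ ^ p) := by
    have h2 : (p : Qb) * T j x = -∑ k ∈ (Finset.range (p + 1)).erase 1,
        ((p.choose k : ℕ) : Qb) * (diffOp (K := Qb) x ^ k) (T j) 0 := by
      rw [eq_neg_iff_add_eq_zero]; exact hN.symm
    rw [h2, Valuation.map_neg]
    refine v.map_sum_le fun k hk => ?_
    rw [Finset.mem_erase, Finset.mem_range] at hk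
    obtain ⟨hk1, hkp⟩ := hk
    have hdk := val_diffOp_pow_le A T hvalA hΔ hxδ k (T j) hTj 0
    rw [map_mul]
    rcases Nat.lt_or_ge k 1 with hk0 | hk2
    · -- `k = 0`
      have : k = 0 := by omega
      subst this
      rw [pow_zero, Module.End.one_apply, h0, map_zero, mul_zero]
      exact zero_le
    rcases Nat.lt_or_ge k p with hlt | hge
    · -- `2 ≤ k < p`
      have hk2' : 2 ≤ k := by omega
      obtain ⟨c, hc⟩ := hp.dvd_choose_self (by omega : k ≠ 0) hlt
      refine le_max_of_le_left ?_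
      have h3 : v ((p.choose k : ℕ) : Qb) ≤ v (p : Qb) := by
        rw [hc, Nat.cast_mul, map_mul]
        calc v (p : Qb) * v (c : Qb) ≤ v (p : Qb) * 1 :=
              mul_le_mul' le_rfl (val_natCast_le_one v c)
          _ = v (p : Qb) := mul_one _
      have h4 : δ ^ k ≤ δ ^ 2 := pow_le_pow_of_le_one zero_le hδ1.le hk2'
      exact mul_le_mul' h3 (hdk.trans h4)
    · -- `k = p`
      have : k = p := by omega
      subst this
      refine le_max_of_le_right ?_
      rw [Nat.choose_self, Nat.cast_one, map_one, one_mul]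
      exact hdk
  rw [map_mul] at hB
  rcases le_max_iff.1 hB with h | h
  · -- impossible: `δ ≤ δ²`
    exfalso
    have h5 : δ ≤ δ ^ 2 := by
      have := le_of_mul_le_mul_left h (zero_lt_iff.2 hpv0)
      exact this
    rw [pow_two] at h5
    have h6 : (1 : A.ValueGroup) * δ ≤ δ * δ := by rwa [one_mul]
    have h7 := le_of_mul_le_mul_right h6 (zero_lt_iff.2 hδ0)
    exact absurd hδ1 (not_lt.2 h7)
  · have hp1 : p = (p - 1) + 1 := (Nat.sub_add_cancel hp.one_le).symm
    have h5 : δ ^ p = δ ^ (p - 1) * δ := by conv_lhs => rw [hp1, pow_succ]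
    rw [h5] at h
    exact le_of_mul_le_mul_right h (zero_lt_iff.2 hδ0)

end LB

/-! ### the cyclotomic uniformiser -/

section Cyclo

open Fermat.Agent.GP.Ram.KummerBreak

variable (A : ValuationSubring Qb) {p : ℕ} {ζ : Qb}

theorem val_zeta_sub_one_ne_zero (hp : p.Prime) (hζ : IsPrimitiveRoot ζ p) :
    A.valuation (ζ - 1) ≠ 0 := by
  rw [Ne, map_eq_zero, sub_eq_zero]
  exact hζ.ne_one hp.one_lt

theorem val_p_eq' (hp : p.Prime) (hζ : IsPrimitiveRoot ζ p) :
    A.valuation (p : Qb) = A.valuation (ζ - 1) ^ (p - 1) := by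
  haveI : Fact p.Prime := ⟨hp⟩
  exact val_p_eq A.valuation hζ

theorem val_zeta_sub_one_lt (hp : p.Prime) (hA : (p : Qb) ∈ A.nonunits)
    (hζ : IsPrimitiveRoot ζ p) : A.valuation (ζ - 1) < 1 := by
  by_contra h
  rw [not_lt] at h
  have h1 : A.valuation (p : Qb) < 1 := (A.mem_nonunits_iff).1 hA
  rw [val_p_eq' A hp hζ] at h1
  exact absurd h1 (not_lt.2 (one_le_pow₀ h))

/-- `ζ^a - 1 ≡ a (ζ - 1) mod (ζ - 1)^2`. -/
theorem val_zeta_pow_sub_le (hp : p.Prime) (hζ : IsPrimitiveRoot ζ p) (a : ℕ) :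
    A.valuation (ζ ^ a - 1 - (a : Qb) * (ζ - 1)) ≤ A.valuation (ζ - 1) ^ 2 := by
  haveI : Fact p.Prime := ⟨hp⟩
  have hζ1 : A.valuation ζ ≤ 1 := le_of_eq (val_zeta A.valuation hζ)
  have h1 : ζ ^ a - 1 - (a : Qb) * (ζ - 1) =
      (∑ i ∈ Finset.range a, (ζ ^ i - 1)) * (ζ - 1) := by
    rw [Finset.sum_sub_distrib, Finset.sum_const, Finset.card_range, nsmul_eq_mul, mul_one,
      sub_mul, geom_sum_mul]
  rw [h1, map_mul, pow_two]
  refine mul_le_mul' (A.valuation.map_sum_le fun i _ => ?_) le_rfl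
  exact val_pow_sub_one_le A.valuation hζ1 i

end Cyclo

/-! ### the main theorem -/

section Main

variable (A : ValuationSubring Qb) {M : Type*} [AddCommGroup M] {ι : Type*} [Finite ι]
  (T : ι → M → Qb) {p : ℕ} {ζ : Qb}

/-- **(A) of the (DS-ω) route**: a group killed by `p` with an action of `I_A` carrying
`I_A`-equivariant, separating, `Δ`-stable coordinates ALL of absolute value `≤ |ζ - 1|`:
`I_A` acts through the mod-`p` cyclotomic character. -/
theorem act_eq_nsmul (hp : p.Prime) (hA : (p : Qb) ∈ A.nonunits) (hζ : IsPrimitiveRoot ζ p)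
    (act : ↥(A.inertiaSubgroupIn ℚ) → M → M) (hpM : ∀ x : M, p • x = 0)
    (h0 : ∀ i, T i 0 = 0)
    (heq : ∀ i σ x, T i (act σ x) = σ • T i x)
    (hsep : ∀ x y : M, x ≠ y → ∃ i, T i x ≠ T i y)
    (hΔ : ∀ j, (fun q : M × M => T j (q.1 + q.2)) ∈ tens (Algebra.adjoin A (Set.range T)))
    (hsmall : ∀ i x, A.valuation (T i x) ≤ A.valuation (ζ - 1))
    (σ : ↥(A.inertiaSubgroupIn ℚ)) (a : ℕ) (ha : σ.1 ζ = ζ ^ a) (x : M) :
    act σ x = a • x := by
  set v := A.valuation with hv
  set lam : Qb := ζ - 1 with hlam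
  set Λ := v lam with hΛ
  have hΛ0 : Λ ≠ 0 := val_zeta_sub_one_ne_zero A hp hζ
  have hΛ1 : Λ < 1 := val_zeta_sub_one_lt A hp hA hζ
  have hΛpos : 0 < Λ := zero_lt_iff.2 hΛ0
  have hΛ2 : Λ ^ 2 < Λ := by
    rw [pow_two]
    calc Λ * Λ < 1 * Λ := mul_lt_mul_of_pos_right hΛ1 hΛpos
      _ = Λ := one_mul _
  have hlam0 : lam ≠ 0 := (map_ne_zero v).1 hΛ0
  have hval : ∀ i x, T i x ∈ A.nonunits := fun i x =>
    (A.mem_nonunits_iff).2 (lt_of_le_of_lt (hsmall i x) hΛ1)
  have hvalA : ∀ i x, T i x ∈ A := fun i x =>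
    (A.valuation_le_one_iff _).1 (le_of_lt ((A.mem_nonunits_iff).1 (hval i x)))
  have hadd2 : ∀ (y z : M) (j : ι), v (T j (y + z) - T j y - T j z) ≤ Λ ^ 2 := fun y z j => by
    rw [pow_two]
    exact val_add_sub_le A T hvalA h0 hΔ (fun i => hsmall i y) (fun i => hsmall i z) j
  -- multiples
  have hmul : ∀ (n : ℕ) (y : M) (j : ι), v (T j (n • y) - (n : Qb) * T j y) ≤ Λ ^ 2 := by
    intro n y j
    induction n with
    | zero => rw [zero_smul, h0, Nat.cast_zero, zero_mul, sub_zero, map_zero]; exact zero_le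
    | succ n ih =>
      have h1 : T j ((n + 1) • y) - ((n + 1 : ℕ) : Qb) * T j y =
          (T j (n • y + y) - T j (n • y) - T j y) + (T j (n • y) - (n : Qb) * T j y) := by
        rw [succ_nsmul, Nat.cast_succ]; ring
      rw [h1]
      exact (v.map_add _ _).trans (max_le (hadd2 _ _ j) ih)
  -- negation
  have hneg : ∀ (y : M) (j : ι), v (T j (-y) + T j y) ≤ Λ ^ 2 := by
    intro y j
    have h1 := hadd2 y (-y) j
    rw [add_neg_cancel, h0, zero_sub, ← neg_add', Valuation.map_neg, add_comm] at h1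
    exact h1
  -- the class `z := σ x - a x`
  set z : M := act σ x + -(a • x) with hz
  have hzsmall : ∀ j, v (T j z) < Λ := by
    intro j
    set τ := T j x with hτ
    set Y : Qb := τ / lam with hY
    have hYA : Y ∈ A := by
      rw [← A.valuation_le_one_iff, hY, map_div₀]
      exact div_le_one_of_le₀ (hsmall j x) zero_le
    have hτY : τ = lam * Y := by rw [hY]; field_simp
    have hσ := (mem_inertiaSubgroupIn_iff_forall A σ.1).1 σ.2
    have hσY : σ.1 Y ∈ A := (hσ.1 Y).2 hYA
    have hσYsub : v (σ.1 Y - Y) < 1 := (A.mem_nonunits_iff).1 (hσ.2 Y hYA)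
    have hσlam : σ.1 lam = ζ ^ a - 1 := by rw [hlam, map_sub, map_one, ha]
    -- the main term
    have hmain : v (σ.1 τ - (a : Qb) * τ) < Λ := by
      have h1 : σ.1 τ - (a : Qb) * τ =
          (ζ ^ a - 1 - (a : Qb) * lam) * σ.1 Y + (a : Qb) * lam * (σ.1 Y - Y) := by
        rw [hτY, map_mul, hσlam]; ring
      rw [h1]
      refine lt_of_le_of_lt (v.map_add _ _) (max_lt ?_ ?_)
      · rw [map_mul]
        calc v (ζ ^ a - 1 - (a : Qb) * lam) * v (σ.1 Y) ≤ Λ ^ 2 * 1 :=
              mul_le_mul' (val_zeta_pow_sub_le A hp hζ a) ((A.valuation_le_one_iff _).2 hσY)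
          _ = Λ ^ 2 := mul_one _
          _ < Λ := hΛ2
      · rw [map_mul, map_mul]
        have h2 : v (a : Qb) ≤ 1 := Fermat.Agent.GP.Ram.KummerBreak.val_natCast_le_one v a
        calc v (a : Qb) * Λ * v (σ.1 Y - Y) ≤ 1 * Λ * v (σ.1 Y - Y) :=
              mul_le_mul' (mul_le_mul' h2 le_rfl) le_rfl
          _ = Λ * v (σ.1 Y - Y) := by rw [one_mul]
          _ < Λ * 1 := mul_lt_mul_of_pos_left hσYsub hΛpos
          _ = Λ := mul_one _
    -- assemble
    have h3 : T j z = (T j (act σ x + -(a • x)) - T j (act σ x) - T j (-(a • x))) +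
        (T j (-(a • x)) + T j (a • x)) - (T j (a • x) - (a : Qb) * τ) +
        (σ.1 τ - (a : Qb) * τ) := by
      rw [heq j σ x]
      show T j z = _
      rw [hz, hτ]
      have : (σ • T j x : Qb) = σ.1 (T j x) := rfl
      rw [this]
      ring
    rw [h3]
    refine lt_of_le_of_lt (v.map_add _ _) (max_lt ?_ hmain)
    refine lt_of_le_of_lt (v.map_sub _ _) (max_lt ?_ (lt_of_le_of_lt (hmul a x j) hΛ2))
    exact lt_of_le_of_lt (v.map_add _ _)
      (max_lt (lt_of_le_of_lt (hadd2 _ _ j) hΛ2) (lt_of_le_of_lt (hneg _ j) hΛ2))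
  -- `z = 0` by the lower bound
  have hz0 : z = 0 := by
    by_contra hne
    obtain ⟨j, -, hj⟩ := val_p_le A T hp hval h0 hsep hΔ hne (hpM z)
    rw [val_p_eq' A hp hζ] at hj
    have hp1 : p - 1 ≠ 0 := by have := hp.two_le; omega
    exact absurd hj (not_le.2 (pow_lt_pow_left₀ (hzsmall j) zero_le hp1))
  rw [hz, add_neg_eq_zero] at hz0
  exact hz0

end Main

end

end Fermat.Agent.GE8.LLP.DSOmega.OmegaAbs
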