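/-
S59 PRE-WORK / E8.4 LLP, RISK-1, node (DS-ω), route V (helper47 board 7304; ruling helper5 T1
item 6): **the skeleton of `Main`** (helper77) -- everything EXCEPT the frame obtain and (B).

`N = M' p`, `A | p`, `M⁰ = M0mod N A h p ⊆ J₀(N)[p]`.  INPUT, in the vocabulary of the GATE-S frame
node (`GS/Top/FramePlug.FrameNode`, `GS/Frame/Vocab`): a disc frame `Φ` over `A` with the six
contracts (`CoordUnique`, `CoordSmall`, `CoordInj`, `CoordExists` on `M⁰`, `ChartSupply`, `AddSpec`),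
ONE chart `𝔠₀` whose coordinates are `I_A`-equivariant on `M⁰` (`hgal`), and

* `DeepSmallOn h A Φ 𝔠₀` = **(B) on the chart `𝔠₀`**: the coordinates in `𝔠₀` of a doubly deep class
  of `M⁰` have absolute value `≤ |ζ_p - 1|`.

OUTPUT: `I_A` acts through `ω = cyc p` on the doubly deep classes of `M⁰`, i.e. the body of
`DSOmegaAt p M' h` at `A` (`gal_eq_cyc_smul_of_frame`), and `dsOmegaAt_of_parts`.

Proof: coordinate functions `T` on the finite group `M⁰` (`coords_disc`: `𝔪_A`-valued, separating,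
`Δ`-stable), `T i 0 = 0` (`isCoord_zero` + uniqueness), `T i (σ x) = σ (T i x)` (`hgal` +
uniqueness), `lam = ζ - 1`, `|lam|^(p-1) = |p|`, `σ lam ≡ a lam mod lam²` for `σ ζ = ζ ^ a`, then
helper47's `SmallTors.act_eq_nsmul` gives `σ x = a • x`, and `a = ω(σ)` by `GJ/CycChar`.
-/
import Mathlib
import Fermat.Agent.GE8.LLP.DSOmegaStmt
import Fermat.Agent.GE8.LLP.DSOmega.SmallTors
import Fermat.Agent.GE8.LLP.DSOmega.OmegaAbs
import Fermat.Agent.GS.Loc2.ChartsDisc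
import Fermat.Agent.GS.Top.FramePlug

set_option autoImplicit false
set_option linter.unusedSectionVars false

noncomputable section

namespace Fermat.Agent.GE8.LLP.DSOmega

open AlgebraicCurve ModularCurve
open Fermat.Agent.GJ Fermat.Agent.GJ.KumGroup Fermat.Agent.GJ.Kum
open Fermat.Agent.GJ.J1 Fermat.Agent.GJ.J1.Val
open Fermat.Agent.GK.AL Fermat.Agent.GK.UqKronecker
open Fermat.Agent.GJ.CycChar
open Fermat.Agent.GF.Shape.Plug Fermat.Agent.GS Fermat.Agent.GS.F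
open Fermat.Agent.GF.NormDepth.Inst
open Fermat.Agent.GS.Frame Fermat.Agent.GS.Loc2.Disc Fermat.Agent.GS.Top.FramePlug
open Fermat.Agent.GL.Local.InertiaField

local notation "Qb" => AlgebraicClosure ℚ
local notation "GQ" => (AlgebraicClosure ℚ ≃ₐ[ℚ] AlgebraicClosure ℚ)

variable {p : ℕ} [Fact p.Prime] {M' : ℕ} [NeZero M']

/-- **(B) on the chart `𝔠`**: the coordinates of a doubly deep class of `M⁰` have absolute value
`≤ |ζ_p - 1|`. -/
def DeepSmallOn (h : ExactDvd p (M' * p)) (A : ValuationSubring Qb)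
    {k Sp 𝒬 : Type} [Field k] [CommRing Sp] [Algebra k Sp]
    (Φ : DiscData Qb (FK (M' * p)) k Sp 𝒬) {n : ℕ} (𝔠 : Frame.Chart Φ n) : Prop :=
  ∀ y : Additive (Kum Qb (FK (M' * p)) p), y ∈ M0Kum (M' * p) A h p →
    Deep (redDataBar (M' * p) A) p y → Deep (redData2 (M' * p) A h) p y →
    ∀ τ : Fin n → Qb, Frame.IsCoord 𝔠 (kumJ (M' * p) p y) τ →
      ∀ ζ : Qb, IsPrimitiveRoot ζ p → ∀ i, A.valuation (τ i) ≤ A.valuation (ζ - 1)

set_option maxHeartbeats 1000000 in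
/-- **the skeleton of `Main` at one `A | p`**: frame contracts + one `I_A`-equivariant chart + (B) on
that chart ⟹ `I_A` acts through `ω` on the doubly deep classes of `M⁰`. -/
theorem gal_eq_cyc_smul_of_frame (h : ExactDvd p (M' * p)) (A : ValuationSubring Qb)
    (hA : A.LiesOverPrime p)
    {k Sp 𝒬 : Type} [Field k] [CommRing Sp] [Algebra k Sp]
    (Φ : DiscData Qb (FK (M' * p)) k Sp 𝒬) {n : ℕ} (hΦA : Φ.A = A)
    (hun : CoordUnique Φ n) (hsm : CoordSmall Φ n) (hinj : CoordInj Φ n)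
    (hex : CoordExists Φ n
      ((M0mod (M' * p) A h p : AddSubgroup (JZero (M' * p))) : Set (JZero (M' * p))))
    (hsup : ChartSupply Φ n) (hadd : AddSpec Φ n) (𝔠₀ : Frame.Chart Φ n)
    (hgal : ∀ σ ∈ A.inertiaSubgroupIn ℚ, ∀ x ∈ M0mod (M' * p) A h p,
      ∀ τ : Fin n → Qb, Frame.IsCoord 𝔠₀ x τ → Frame.IsCoord 𝔠₀ (σ • x) (fun i => σ (τ i)))
    (hB : DeepSmallOn h A Φ 𝔠₀)
    {σ : GQ} (hσ : σ ∈ A.inertiaSubgroupIn ℚ)
    {y : Additive (Kum Qb (FK (M' * p)) p)} (hyM : y ∈ M0Kum (M' * p) A h p)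
    (hy1 : Deep (redDataBar (M' * p) A) p y) (hy2 : Deep (redData2 (M' * p) A h) p y) :
    KumType.gal (M' * p) p σ y = ((cyc p σ : (ZMod p)ˣ) : ZMod p) • y := by
  subst hΦA
  have hp : p.Prime := Fact.out
  have hσD : σ ∈ Φ.A.decompositionSubgroup ℚ :=
    Fermat.Agent.GS.Alg.S33OfGeom.mem_decomposition_of_mem_inertiaIn hσ
  have hσ' := (mem_inertiaSubgroupIn_iff_forall Φ.A σ).1 hσ
  -- the finite group `M⁰` and its coordinate functions
  have : Finite ↥(M0mod (M' * p) Φ.A h p) := finite_M0mod Φ.A h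
  have hexW : ∀ x : ↥(M0mod (M' * p) Φ.A h p), ∃ τ : Fin n → Qb,
      Frame.IsCoord 𝔠₀ (x : JZero (M' * p)) τ := fun x => hex 𝔠₀ x x.2
  choose T0 hT0 using hexW
  set T : Fin n → ↥(M0mod (M' * p) Φ.A h p) → Qb := fun i x => T0 x i with hTdef
  have hT : ∀ x : ↥(M0mod (M' * p) Φ.A h p),
      Frame.IsCoord 𝔠₀ ((M0mod (M' * p) Φ.A h p).subtype x) (fun i => T i x) := hT0
  obtain ⟨hnon, hsep', hΔ⟩ := coords_disc hun hsm hinj hex hsup hadd
    (M0mod (M' * p) Φ.A h p).subtype (AddSubgroup.subtype_injective _) (fun x => x.2) 𝔠₀ T hT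
  have hval : ∀ i x, T i x ∈ Φ.A := fun i x =>
    (Φ.A.valuation_le_one_iff _).1 (le_of_lt ((Φ.A.mem_nonunits_iff).1 (hnon i x)))
  have h0 : ∀ i, T i 0 = 0 := by
    intro i
    have h1 : Frame.IsCoord 𝔠₀ (0 : JZero (M' * p)) (fun i => T i 0) := by
      have := hT 0
      rwa [map_zero] at this
    exact congrFun (hun 𝔠₀ _ _ _ h1 (isCoord_zero 𝔠₀)) i
  have hsep : ∀ z : ↥(M0mod (M' * p) Φ.A h p), (∀ i, T i z = 0) → z = 0 := by
    intro z hz
    by_contra hne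
    obtain ⟨i, hi⟩ := hsep' z 0 hne
    exact hi (by rw [hz i, h0 i])
  -- the action of `σ`
  let s : ↥(M0mod (M' * p) Φ.A h p) →+ ↥(M0mod (M' * p) Φ.A h p) :=
    { toFun := fun x => ⟨σ • (x : JZero (M' * p)), smul_mem_M0mod hσD x.2⟩
      map_zero' := Subtype.ext (smul_zero σ)
      map_add' := fun x z => Subtype.ext (smul_add σ _ _) }
  have hsT : ∀ i x, T i (s x) = (σ : Qb →+* Qb) (T i x) := by
    intro i x
    have h1 := hgal σ hσ x x.2 _ (hT x)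
    have h2 := hT (s x)
    exact congrFun (hun 𝔠₀ _ _ _ h2 h1) i
  -- the cyclotomic data
  obtain ⟨ζ, hζ⟩ := exists_primitiveRoot p
  set a : ℕ := ((cyc p σ : (ZMod p)ˣ) : ZMod p).val with ha
  have hσζ : σ ζ = ζ ^ a := apply_eq_pow hζ σ
  have hp0 : (p : Qb) ≠ 0 := Nat.cast_ne_zero.2 hp.ne_zero
  have hplt : Φ.A.valuation (p : Qb) < 1 := (Φ.A.mem_nonunits_iff).1 hA
  have hlam0 : ζ - 1 ≠ 0 := sub_ne_zero.2 (hζ.ne_one hp.one_lt)
  have hlam : Φ.A.valuation (ζ - 1) ^ (p - 1) = Φ.A.valuation (p : Qb) :=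
    (OmegaAbs.val_p_eq' Φ.A hp hζ).symm
  have hσlam : Φ.A.valuation ((σ : Qb →+* Qb) (ζ - 1) - (a : Qb) * (ζ - 1)) ≤
      Φ.A.valuation (ζ - 1) * Φ.A.valuation (ζ - 1) := by
    have e : (σ : Qb →+* Qb) (ζ - 1) = ζ ^ a - 1 := by
      rw [map_sub, map_one]
      exact congrArg (· - 1) hσζ
    rw [e, ← pow_two]
    exact OmegaAbs.val_zeta_pow_sub_le Φ.A hp hζ a
  -- the class
  obtain ⟨x, hxv⟩ : ∃ x : ↥(M0mod (M' * p) Φ.A h p), (x : JZero (M' * p)) = kumJ (M' * p) p y :=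
    ⟨⟨kumJ (M' * p) p y, mem_M0Kum.1 hyM⟩, rfl⟩
  have hpx : p • x = 0 := by
    apply Subtype.ext
    have h1 := smul_eq_zero_of_mem_M0mod x.2
    rw [natCast_zsmul] at h1
    rw [AddSubgroup.coe_nsmul, h1, AddSubgroup.coe_zero]
  have hx : ∀ i, Φ.A.valuation (T i x) ≤ Φ.A.valuation (ζ - 1) := by
    have h1 := hT x
    rw [AddSubgroup.subtype_apply, hxv] at h1
    exact hB y hyM hy1 hy2 (fun i => T i x) h1 ζ hζ
  have hmain : s x = a • x :=
    act_eq_nsmul hp hp0 hplt hval h0 hΔ hsep (σ : Qb →+* Qb)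
      (fun c hc => (hσ'.1 c).2 hc) (fun c hc => (Φ.A.mem_nonunits_iff).1 (hσ'.2 c hc))
      s hsT hlam0 hlam hσlam hpx hx
  -- back to `Kum`
  have h1 : (M0mod (M' * p) Φ.A h p).subtype (s x) = (M0mod (M' * p) Φ.A h p).subtype (a • x) :=
    congrArg _ hmain
  rw [map_nsmul] at h1
  have h2 : σ • kumJ (M' * p) p y = a • kumJ (M' * p) p y := by
    rw [← hxv]
    exact h1
  have hJ : kumJ (M' * p) p (KumType.gal (M' * p) p σ y) = kumJ (M' * p) p (a • y) := by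
    rw [kumJ_gal, map_nsmul]
    exact h2
  have h3 : KumType.gal (M' * p) p σ y = a • y := kumJ_injective (M' * p) p hJ
  have h4 : ((cyc p σ : (ZMod p)ˣ) : ZMod p) = (a : ZMod p) := by
    rw [ha, ZMod.natCast_zmod_val]
  rw [h3, h4, Nat.cast_smul_eq_nsmul]

/-- **(DS-ω) at the level `M' p` from its parts**: at every `A | p` a disc frame over `A` with the six
frame contracts for `M⁰`, one `I_A`-equivariant chart, and (B) on that chart. -/
theorem dsOmegaAt_of_parts (h : ExactDvd p (M' * p))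
    (hparts : ∀ A : ValuationSubring Qb, A.LiesOverPrime p →
      ∃ (k Sp 𝒬 : Type) (_ : Field k) (_ : CommRing Sp) (_ : Algebra k Sp)
        (Φ : DiscData Qb (FK (M' * p)) k Sp 𝒬) (n : ℕ),
        Φ.A = A ∧ CoordUnique Φ n ∧ CoordSmall Φ n ∧ CoordInj Φ n ∧
        CoordExists Φ n
          ((M0mod (M' * p) A h p : AddSubgroup (JZero (M' * p))) : Set (JZero (M' * p))) ∧
        ChartSupply Φ n ∧ AddSpec Φ n ∧
        ∃ 𝔠₀ : Frame.Chart Φ n,
          (∀ σ ∈ A.inertiaSubgroupIn ℚ, ∀ x ∈ M0mod (M' * p) A h p,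
            ∀ τ : Fin n → Qb, Frame.IsCoord 𝔠₀ x τ →
              Frame.IsCoord 𝔠₀ (σ • x) (fun i => σ (τ i))) ∧
          DeepSmallOn h A Φ 𝔠₀) :
    DSOmegaAt p M' h := by
  intro A hA σ hσ y hyM hy1 hy2
  obtain ⟨k, Sp, 𝒬, _, _, _, Φ, n, hΦA, hun, hsm, hinj, hex, hsup, hadd, 𝔠₀, hgal, hB⟩ :=
    hparts A hA
  exact gal_eq_cyc_smul_of_frame h A hA Φ hΦA hun hsm hinj hex hsup hadd 𝔠₀ hgal hB hσ hyM hy1 hy2

end Fermat.Agent.GE8.LLP.DSOmega

end
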