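/-
GATE-E / E8.4 (DS-ω), route of helper47 7304 — the PURE VALUATION lemmas (helper3).
`v` a valuation of a field `K`, `p` a prime, `lam ∈ K` with `v p = v lam ^ (p − 1)` (`lam = ζ − 1`).

* `exists_pow_sub_one_eq` : `(1 + β) ^ p − 1 = β ^ p + p β r` with `v r ≤ 1` (for `v β ≤ 1`);
* `val_pow_sub_one_of_lt` : `v lam < v β < 1 ⟹ v ((1 + β) ^ p − 1) = v β ^ p`   ((B)(i), first case);
* `val_pow_sub_one_le_of_le` : `v β ≤ v lam ⟹ v ((1 + β) ^ p − 1) ≤ v lam ^ p`   ((B)(i), second case);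
* **`val_pow_sub_one_sub_pow_lt`** : `v lam ^ p < δ`, `v ((1 + β) ^ p − 1) ≤ δ ⟹
  v ((1 + β) ^ p − 1 − β ^ p) < δ`   ("the term `p β` never leads when `δ > |lam| ^ p`");
* `val_pow_le_of_pow_sub_one_le` : under the same hypotheses `v β ^ p ≤ δ`;
* **`val_div_sub_pow_lt`** : the shape consumed by (B)(i): `u = b ^ p (1 + c r)`, `b = 1 + β`, `v c < δ`, `v r ≤ 1`,
  `v (u − 1) ≤ δ = v (γ ^ p)`, `v lam ^ p < δ ⟹ v ((u − 1) / γ ^ p − (β / γ) ^ p) < 1`
  (so `red e = red (β / γ) ^ p` for `e = (u − 1) / γ ^ p`);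
* `val_one_add_pow_sub_lt` (§0): `v ((1 + lam) ^ a − 1 − a lam) ≤ v lam ^ 2` for `v lam ≤ 1`
  (`σ lam ≡ a lam mod lam²` for `σ ζ = ζ ^ a`, `lam = ζ − 1`).
-/
import Mathlib

set_option autoImplicit false

namespace Fermat.Agent.GE8.LLP.DSOmega.PthPowVal

variable {K : Type*} [Field K] {Γ₀ : Type*} [LinearOrderedCommGroupWithZero Γ₀]
  (v : Valuation K Γ₀)

/-- natural numbers are integral for every valuation. -/
theorem val_natCast_le_one (n : ℕ) : v (n : K) ≤ 1 := by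
  induction n with
  | zero => simp
  | succ n ih =>
    rw [Nat.cast_succ]
    exact (v.map_add _ _).trans (max_le ih (by rw [map_one]))

variable {p : ℕ} (hp : p.Prime)

include hp in
/-- `(1 + β) ^ p − 1 = β ^ p + p β r` with `r` integral. -/
theorem exists_pow_sub_one_eq {β : K} (hβ : v β ≤ 1) :
    ∃ r : K, v r ≤ 1 ∧ (1 + β) ^ p - 1 = β ^ p + (p : K) * β * r := by
  let O : Subring K := v.integer
  let β' : O := ⟨β, hβ⟩
  obtain ⟨r, hr⟩ := exists_add_pow_prime_eq hp β' (1 : O)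
  refine ⟨(r : K), r.2, ?_⟩
  have h := congrArg (fun z : O => (z : K)) hr
  simp only [Subring.coe_add, Subring.coe_pow, Subring.coe_mul, Subring.coe_one,
    Subring.coe_natCast, one_pow, mul_one] at h
  have hβ' : ((β' : O) : K) = β := rfl
  rw [hβ'] at h
  rw [add_comm 1 β, h]
  ring

variable {lam : K} (hlam : v (p : K) = v lam ^ (p - 1))

include hp hlam in
/-- **(B)(i), first case**: `|lam| < |β| < 1 ⟹ |(1 + β) ^ p − 1| = |β| ^ p`. -/
theorem val_pow_sub_one_of_lt {β : K} (hβ1 : v β < 1) (hβ : v lam < v β) :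
    v ((1 + β) ^ p - 1) = v β ^ p := by
  obtain ⟨r, hr, h⟩ := exists_pow_sub_one_eq v hp hβ1.le
  have hβ0 : 0 < v β := lt_of_le_of_lt zero_le hβ
  have hlt : v ((p : K) * β * r) < v (β ^ p) := by
    rw [map_mul, map_mul, map_pow, hlam]
    have h1 : v lam ^ (p - 1) * v β * v r ≤ v lam ^ (p - 1) * v β :=
      mul_le_of_le_one_right' hr
    refine lt_of_le_of_lt h1 ?_
    have h2 : v β ^ p = v β ^ (p - 1) * v β := by
      rw [← pow_succ, Nat.sub_add_cancel hp.one_lt.le]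
    rw [h2]
    have h3 : v lam ^ (p - 1) < v β ^ (p - 1) :=
      pow_lt_pow_left₀ hβ zero_le (Nat.sub_ne_zero_of_lt hp.one_lt)
    exact mul_lt_mul_of_pos_right h3 hβ0
  rw [h, v.map_add_eq_of_lt_left hlt, map_pow]

include hp hlam in
/-- **(B)(i), second case**: `|β| ≤ |lam| ⟹ |(1 + β) ^ p − 1| ≤ |lam| ^ p`. -/
theorem val_pow_sub_one_le_of_le {β : K} (hlam1 : v lam ≤ 1) (hβ : v β ≤ v lam) :
    v ((1 + β) ^ p - 1) ≤ v lam ^ p := by
  obtain ⟨r, hr, h⟩ := exists_pow_sub_one_eq v hp (hβ.trans hlam1)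
  rw [h]
  refine (v.map_add _ _).trans (max_le ?_ ?_)
  · rw [map_pow]
    exact pow_le_pow_left₀ zero_le hβ p
  · rw [map_mul, map_mul, hlam]
    have h1 : v lam ^ (p - 1) * v β * v r ≤ v lam ^ (p - 1) * v β :=
      mul_le_of_le_one_right' hr
    refine h1.trans ?_
    have h2 : v lam ^ p = v lam ^ (p - 1) * v lam := by
      rw [← pow_succ, Nat.sub_add_cancel hp.one_lt.le]
    rw [h2]
    exact mul_le_mul' le_rfl hβ

include hp hlam in
/-- the term `p β r` alone: it is `< δ` as soon as `|lam| ^ p < δ` and `|(1 + β) ^ p − 1| ≤ δ`. -/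
theorem val_pow_sub_one_sub_pow_lt {β : K} (hβ1 : v β < 1) {δ : Γ₀}
    (hδ : v lam ^ p < δ) (hb : v ((1 + β) ^ p - 1) ≤ δ) :
    v ((1 + β) ^ p - 1 - β ^ p) < δ := by
  obtain ⟨r, hr, h⟩ := exists_pow_sub_one_eq v hp hβ1.le
  have e : (1 + β) ^ p - 1 - β ^ p = (p : K) * β * r := by rw [h]; ring
  rw [e, map_mul, map_mul, hlam]
  have h1 : v lam ^ (p - 1) * v β * v r ≤ v lam ^ (p - 1) * v β :=
    mul_le_of_le_one_right' hr
  refine lt_of_le_of_lt h1 ?_
  rcases le_or_gt (v β) (v lam) with hle | hgt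
  · have h2 : v lam ^ p = v lam ^ (p - 1) * v lam := by
      rw [← pow_succ, Nat.sub_add_cancel hp.one_lt.le]
    refine lt_of_le_of_lt ?_ hδ
    rw [h2]
    exact mul_le_mul' le_rfl hle
  · have hβ0 : 0 < v β := lt_of_le_of_lt zero_le hgt
    have h2 : v β ^ p = v β ^ (p - 1) * v β := by
      rw [← pow_succ, Nat.sub_add_cancel hp.one_lt.le]
    have h3 : v lam ^ (p - 1) < v β ^ (p - 1) :=
      pow_lt_pow_left₀ hgt zero_le (Nat.sub_ne_zero_of_lt hp.one_lt)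
    have h4 : v lam ^ (p - 1) * v β < v β ^ p := by
      rw [h2]
      exact mul_lt_mul_of_pos_right h3 hβ0
    refine lt_of_lt_of_le h4 ?_
    rw [← val_pow_sub_one_of_lt v hp hlam hβ1 hgt]
    exact hb

include hp hlam in
/-- under the same hypotheses `|β| ^ p ≤ δ`. -/
theorem val_pow_le_of_pow_sub_one_le {β : K} (hβ1 : v β < 1) {δ : Γ₀}
    (hδ : v lam ^ p < δ) (hb : v ((1 + β) ^ p - 1) ≤ δ) : v β ^ p ≤ δ := by
  have h1 := val_pow_sub_one_sub_pow_lt v hp hlam hβ1 hδ hb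
  have e : β ^ p = ((1 + β) ^ p - 1) - ((1 + β) ^ p - 1 - β ^ p) := by ring
  rw [← map_pow, e]
  exact (v.map_sub _ _).trans (max_le hb h1.le)

include hp hlam in
/-- **the shape consumed by (B)(i)**: `u = b ^ p (1 + c r)` with `b = 1 + β` a principal unit,
`|c| < δ`, `|r| ≤ 1`, `|u − 1| ≤ δ = |γ| ^ p`, `|lam| ^ p < δ`: then
`(u − 1) / γ ^ p ≡ (β / γ) ^ p` modulo the maximal ideal. -/
theorem val_div_sub_pow_lt {β c r γ u : K} (hβ1 : v β < 1) (hr : v r ≤ 1)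
    (hγ : γ ≠ 0) (hδ : v lam ^ p < v γ ^ p) (hc : v c < v γ ^ p)
    (hu : u = (1 + β) ^ p * (1 + c * r)) (hu1 : v (u - 1) ≤ v γ ^ p) :
    v ((u - 1) / γ ^ p - (β / γ) ^ p) < 1 := by
  have hγp : γ ^ p ≠ 0 := pow_ne_zero _ hγ
  have hγv : 0 < v (γ ^ p) := by
    rw [zero_lt_iff]
    exact (v.ne_zero_iff).2 hγp
  -- `|b| = 1`
  have hb1 : v (1 + β) = 1 := by
    have : v (1 + β) = v (1 : K) := v.map_add_eq_of_lt_left (by rw [map_one]; exact hβ1)
    rw [this, map_one]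
  have hbcr : v ((1 + β) ^ p * (c * r)) < v γ ^ p := by
    rw [map_mul, map_pow, hb1, one_pow, one_mul, map_mul]
    exact lt_of_le_of_lt (mul_le_of_le_one_right' hr) hc
  -- `|b ^ p − 1| ≤ δ`
  have hb : v ((1 + β) ^ p - 1) ≤ v γ ^ p := by
    have e : (1 + β) ^ p - 1 = (u - 1) - (1 + β) ^ p * (c * r) := by rw [hu]; ring
    rw [e]
    exact (v.map_sub _ _).trans (max_le hu1 hbcr.le)
  have h1 := val_pow_sub_one_sub_pow_lt v hp hlam hβ1 hδ hb
  have e : (u - 1) / γ ^ p - (β / γ) ^ p =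
      (((1 + β) ^ p - 1 - β ^ p) + (1 + β) ^ p * (c * r)) / γ ^ p := by
    rw [hu, div_pow]
    field_simp
    ring
  rw [e, map_div₀, div_lt_one₀ hγv, map_pow]
  exact lt_of_le_of_lt (v.map_add _ _) (max_lt h1 hbcr)

omit hlam in
/-- **§0**: `(1 + lam) ^ a ≡ 1 + a lam mod lam ^ 2` (`σ lam ≡ a lam` for `σ ζ = ζ ^ a`). -/
theorem val_one_add_pow_sub_le (hlam1 : v lam ≤ 1) (a : ℕ) :
    v ((1 + lam) ^ a - 1 - (a : K) * lam) ≤ v lam ^ 2 := by
  induction a with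
  | zero => simp
  | succ a ih =>
    have e : (1 + lam) ^ (a + 1) - 1 - ((a + 1 : ℕ) : K) * lam =
        ((1 + lam) ^ a - 1 - (a : K) * lam) * (1 + lam) + (a : K) * lam ^ 2 := by
      push_cast
      ring
    rw [e]
    refine (v.map_add _ _).trans (max_le ?_ ?_)
    · rw [map_mul]
      have h1 : v (1 + lam) ≤ 1 :=
        (v.map_add _ _).trans (max_le (by rw [map_one]) hlam1)
      exact (mul_le_of_le_one_right' h1).trans ih
    · rw [map_mul, map_pow]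
      exact mul_le_of_le_one_left' (val_natCast_le_one v a)

end Fermat.Agent.GE8.LLP.DSOmega.PthPowVal
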