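/-
GATE-E / E8.4 (DS-ω), route of helper47 7304 — the VAL leaves (V2) (V3) of 7365 §4 (helper3):
the constants `lam = ζ − 1`, `p`, and an inertia element `σ ∈ I_A` in the EXACT binder shapes of
`SmallTors.act_eq_nsmul` (`K := ℚ̄`, `A | p`).

* (V2) `natCast_ne_zero`, `val_p_lt_one` (`hplt`), `zeta_sub_one_ne_zero` (`hlam0`),
  **`val_zeta_sub_one_pow`** (`hlam : v (ζ − 1) ^ (p − 1) = v p`), `val_zeta_sub_one_lt_one`,
  `zeta_mem`;
* (V3) `apply_mem_of_inertia` (`hσA`), `val_apply_sub_lt_one` (`hσI`), `apply_zeta_sub_one`,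
  **`val_apply_lam_sub_le`** (`hσlam : v (σ lam − a lam) ≤ v lam * v lam` for `σ ζ = ζ ^ a`),
  **`exists_pow_cyc`** : `∃ a : ℕ, σ ζ = ζ ^ a ∧ ((cyc p σ : (ZMod p)ˣ) : ZMod p) = a`
  (the `cyc` spelling of `TorPStmt`), `cyc_smul_eq_nsmul` (`(cyc p σ) • x = a • x` in a
  `ZMod p`-module);
* `inertia_binders` : everything at once for `σ ∈ A.inertiaSubgroupIn ℚ`.
-/
import Fermat.Agent.GL.Local.TameZeta
import Fermat.Agent.GJ.CycChar
import Fermat.Agent.S05.Inertia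
import Fermat.Agent.GE8.LLP.DSOmega.PthPowVal

set_option autoImplicit false
set_option linter.unusedSectionVars false

noncomputable section

namespace Fermat.Agent.GE8.LLP.DSOmega.ZetaVal

open Fermat.Agent.GJ.CycChar Fermat.Agent.GL.Local.InertiaField
open Fermat.Agent.GE8.LLP.DSOmega.PthPowVal

local notation "Qb" => AlgebraicClosure ℚ
local notation "GQ" => (AlgebraicClosure ℚ ≃ₐ[ℚ] AlgebraicClosure ℚ)

variable {p : ℕ} [hpF : Fact p.Prime] (A : ValuationSubring Qb) {ζ : Qb}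
  (hζ : IsPrimitiveRoot ζ p)

/-! ### (V2) the constants -/

theorem natCast_ne_zero : ((p : ℕ) : Qb) ≠ 0 := Nat.cast_ne_zero.mpr hpF.out.ne_zero

/-- **`hplt`**. -/
theorem val_p_lt_one (hA : A.LiesOverPrime p) : A.valuation ((p : ℕ) : Qb) < 1 :=
  (A.mem_nonunits_iff).mp hA

include hζ in
/-- **`hlam0`**. -/
theorem zeta_sub_one_ne_zero : ζ - 1 ≠ 0 := fun h =>
  hζ.ne_one hpF.out.one_lt (sub_eq_zero.mp h)

include hζ in
/-- **`hlam`**: `v (ζ − 1) ^ (p − 1) = v p`. -/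
theorem val_zeta_sub_one_pow :
    A.valuation (ζ - 1) ^ (p - 1) = A.valuation ((p : ℕ) : Qb) := by
  rw [← valuation_one_sub_zeta_pow A hpF.out hζ, Valuation.map_sub_swap]

include hζ in
theorem zeta_mem : ζ ∈ A := (Fermat.Agent.GL.Local.InertiaField.zeta_mem A hpF.out hζ).1

include hζ in
theorem val_zeta_sub_one_lt_one (hA : A.LiesOverPrime p) : A.valuation (ζ - 1) < 1 := by
  rw [Valuation.map_sub_swap]
  exact (A.mem_nonunits_iff).mp (one_sub_zeta_mem_nonunits A hpF.out hA hζ)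

/-! ### (V3) an inertia element -/

variable {A}

/-- **`hσA`**. -/
theorem apply_mem_of_inertia {σ : GQ} (hσ : σ ∈ A.inertiaSubgroupIn ℚ) :
    ∀ c ∈ A, (σ : Qb →+* Qb) c ∈ A := fun c hc =>
  (Fermat.Agent.S05.apply_mem_iff_of_mem_inertiaSubgroupIn hσ c).2 hc

/-- **`hσI`**: inertia acts trivially on the residue field. -/
theorem val_apply_sub_lt_one {σ : GQ} (hσ : σ ∈ A.inertiaSubgroupIn ℚ) :
    ∀ c ∈ A, A.valuation ((σ : Qb →+* Qb) c - c) < 1 := fun _ hc =>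
  (A.mem_nonunits_iff).mp (Fermat.Agent.S05.apply_sub_mem_nonunits_of_mem_inertiaSubgroupIn hσ hc)

variable (A)

theorem apply_zeta_sub_one (σ : GQ) {a : ℕ} (hσ : σ ζ = ζ ^ a) :
    (σ : Qb →+* Qb) (ζ - 1) = (1 + (ζ - 1)) ^ a - 1 := by
  show σ (ζ - 1) = _
  rw [map_sub, map_one, hσ]
  ring

include hζ in
/-- **`hσlam`**: `σ lam ≡ a lam mod lam ^ 2` for `σ ζ = ζ ^ a`, `lam = ζ − 1`. -/
theorem val_apply_lam_sub_le (σ : GQ) {a : ℕ} (hσ : σ ζ = ζ ^ a) :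
    A.valuation ((σ : Qb →+* Qb) (ζ - 1) - (a : Qb) * (ζ - 1)) ≤
      A.valuation (ζ - 1) * A.valuation (ζ - 1) := by
  have hlam1 : A.valuation (ζ - 1) ≤ 1 :=
    (A.valuation_le_one_iff _).mpr (sub_mem (zeta_mem A hζ) A.one_mem)
  rw [apply_zeta_sub_one σ hσ, ← pow_two]
  exact val_one_add_pow_sub_le A.valuation hlam1 a

include hζ in
/-- **the `cyc` link** (spelling of `TorPStmt`). -/
theorem exists_pow_cyc (σ : GQ) :
    ∃ a : ℕ, σ ζ = ζ ^ a ∧ ((cyc p σ : (ZMod p)ˣ) : ZMod p) = (a : ZMod p) :=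
  ⟨((cyc p σ : (ZMod p)ˣ) : ZMod p).val, apply_eq_pow hζ σ, (ZMod.natCast_zmod_val _).symm⟩

/-- `ω(σ) • x = a • x` in a `ZMod p`-module. -/
theorem cyc_smul_eq_nsmul {V : Type*} [AddCommGroup V] [Module (ZMod p) V] {σ : GQ} {a : ℕ}
    (ha : ((cyc p σ : (ZMod p)ˣ) : ZMod p) = (a : ZMod p)) (x : V) :
    ((cyc p σ : (ZMod p)ˣ) : ZMod p) • x = a • x := by
  rw [ha, Nat.cast_smul_eq_nsmul]

include hζ in
/-- **all the constant / inertia binders of `SmallTors.act_eq_nsmul` at once.** -/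
theorem inertia_binders (hA : A.LiesOverPrime p) {σ : GQ} (hσ : σ ∈ A.inertiaSubgroupIn ℚ) :
    ((p : ℕ) : Qb) ≠ 0 ∧ A.valuation ((p : ℕ) : Qb) < 1 ∧
    (∀ c ∈ A, (σ : Qb →+* Qb) c ∈ A) ∧
    (∀ c ∈ A, A.valuation ((σ : Qb →+* Qb) c - c) < 1) ∧
    ζ - 1 ≠ 0 ∧ A.valuation (ζ - 1) ^ (p - 1) = A.valuation ((p : ℕ) : Qb) ∧
    ∃ a : ℕ, ((cyc p σ : (ZMod p)ˣ) : ZMod p) = (a : ZMod p) ∧
      A.valuation ((σ : Qb →+* Qb) (ζ - 1) - (a : Qb) * (ζ - 1)) ≤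
        A.valuation (ζ - 1) * A.valuation (ζ - 1) := by
  obtain ⟨a, ha, hc⟩ := exists_pow_cyc hζ σ
  exact ⟨natCast_ne_zero, val_p_lt_one A hA, apply_mem_of_inertia hσ, val_apply_sub_lt_one hσ,
    zeta_sub_one_ne_zero hζ, val_zeta_sub_one_pow A hζ, a, hc, val_apply_lam_sub_le A hζ σ ha⟩

end Fermat.Agent.GE8.LLP.DSOmega.ZetaVal
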