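/-
GATE-E / E8.4 (DS-ω), route of helper47 7304 (helper3): **`SmallTors.act_eq_nsmul` at `K := ℚ̄`,
`lam := ζ − 1`, `σ ∈ I_A`, concluded in the `cyc` spelling of `TorPStmt`** — every constant / inertia
binder discharged by `ZetaVal.inertia_binders` (PLUG-TEST of the seam (A) ↔ (V2)(V3)).

`act_eq_cyc_smul` : coordinates `T i : M → ℚ̄` with values in `A`, `T i 0 = 0`, `Δ`-stable (`hΔ`),
separating (`hsep`), `s : M →+ M` with `T i (s x) = σ (T i x)`, `p • x = 0`,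
`|T i x| ≤ |ζ − 1|` for all `i`  ⟹  `s x = (cyc p σ) • x`.
-/
import Fermat.Agent.GE8.LLP.DSOmega.ZetaVal
import Fermat.Agent.GE8.LLP.DSOmega.SmallTors

set_option autoImplicit false
set_option linter.unusedSectionVars false

noncomputable section

namespace Fermat.Agent.GE8.LLP.DSOmega.OmegaPlug

open Fermat.Agent.GE8.LLP.DSOmega Fermat.Agent.GE8.LLP.DSOmega.ZetaVal
open Fermat.Agent.GJ.CycChar Fermat.Agent.GH

local notation "Qb" => AlgebraicClosure ℚ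
local notation "GQ" => (AlgebraicClosure ℚ ≃ₐ[ℚ] AlgebraicClosure ℚ)

/-- **the `ω`-criterion in the `cyc` spelling.** -/
theorem act_eq_cyc_smul {p : ℕ} [hpF : Fact p.Prime] (A : ValuationSubring Qb) {ζ : Qb}
    (hζ : IsPrimitiveRoot ζ p) (hA : A.LiesOverPrime p) {σ : GQ}
    (hσ : σ ∈ A.inertiaSubgroupIn ℚ)
    {M : Type*} [AddCommGroup M] [Module (ZMod p) M] {ι : Type*} [Finite ι] {T : ι → M → Qb}
    (hval : ∀ i x, T i x ∈ A) (h0 : ∀ i, T i 0 = 0)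
    (hΔ : ∀ j, (fun q : M × M => T j (q.1 + q.2)) ∈ tens (coordAlg A T))
    (hsep : ∀ z : M, (∀ i, T i z = 0) → z = 0)
    (s : M →+ M) (hsT : ∀ i x, T i (s x) = (σ : Qb →+* Qb) (T i x))
    {x : M} (hpx : p • x = 0) (hx : ∀ i, A.valuation (T i x) ≤ A.valuation (ζ - 1)) :
    s x = ((cyc p σ : (ZMod p)ˣ) : ZMod p) • x := by
  obtain ⟨hp0, hplt, hσA, hσI, hlam0, hlam, a, hc, hσlam⟩ := inertia_binders A hζ hA hσ
  rw [cyc_smul_eq_nsmul hc]
  exact act_eq_nsmul hpF.out hp0 hplt hval h0 hΔ hsep (σ : Qb →+* Qb) hσA hσI s hsT hlam0 hlam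
    hσlam hpx hx

end Fermat.Agent.GE8.LLP.DSOmega.OmegaPlug
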