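/-
GATE-E / E8.4-SS / (DS-ω) (helper45): **root descent** — the abstract, Mathlib-only local lemma
behind "a `p`-th root in the completions of the two Gauss valuations is regular at every closed
point of the special fibre, and the only obstruction at a node is an `𝔽_p`-cochain living at ONE
level".  No purity of the branch locus, no Zariski–Nagata, no formal functions.

Setting.  `S` a commutative ring (`= Ŝ₁ × Ŝ₂`, the product of the completed local rings at the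
generic points of the components through a closed point `P`; one factor at a smooth point),
`R ≤ S` a subring (the completed local ring of the normal model at `P`), `ϖ ∈ R` (a uniformiser of
the ring of constants `O'`), `p = c · ϖ ^ ((p - 1) j₀)` with `c` a unit of `R` (`j₀ = v(ζ_p - 1)`).
`Frame` collects the elementary facts used:

* `sat` : `ϖ x ∈ R → x ∈ R` for `x : S` (`R` normal, `ϖ R` radical);
* `jac` : `1 + ϖ r` is a unit of `R` (`ϖ` in the Jacobson radical).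

For `Γ : S` with `Γ ^ p = u` a unit of `R` we run the induction `H_j : Γ = ρ (1 + ϖ ^ j δ)`,
`ρ ∈ Rˣ`:

* `level_lt`  (`j < j₀`)  : `δ ^ p ≡ m  (ϖ S)`, `m ∈ R`;
* `level_eq`  (`j = j₀`)  : `δ ^ p + c δ ≡ m  (ϖ S)`, `m ∈ R`   (the ARTIN–SCHREIER level);
* `level_gt`  (`j > j₀`)  : `δ ∈ R + ϖ S` AUTOMATICALLY.

Results.

* `mem_add_pow_of_root` (smooth point): if `R + ϖ S` is closed under the roots of `X ^ p = m` and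
  `X ^ p + c X = m` (`m ∈ R`) — i.e. `R / ϖ` is integrally closed in `S / ϖ` for these two shapes —
  then `Γ ∈ R + ϖ ^ j S` for every `j`.
* `NodeEval` (node): `T ≤ S` (the elements whose reduction is integral, `= ` pairs of functions
  regular on both branches), two evaluations `ev₁ ev₂ : T →+* k` (values at the node on the two
  branches; `k` a field of characteristic `p`) with `R + ϖ S = {x ∈ T | ev₁ x = ev₂ x}`.  Then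
  `IsCoch Γ v` (`v = ev₁ δ - ev₂ δ` for a presentation `Γ = ρ (1 + ϖ ^ j₀ δ)`) satisfies:
  `exists_isCoch`, `isCoch_unique` (independent of all choices), `isCoch_mul` (additive),
  `isCoch_of_mem` (`0` on `Rˣ`), `isCoch_as` (`v ^ p + c̄ v = 0`: `v` lies on an `𝔽_p`-line),
  `mem_add_pow_of_isCoch_zero` (`v = 0 ⟹ Γ ∈ R + ϖ ^ j S` for every `j`), and `isCoch_map`
  (equivariance: `σ ϖ = χ ϖ` multiplies `v` by `χ̄ ^ j₀`).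
-/
import Mathlib

set_option autoImplicit false

namespace Fermat.Agent.GE8.LLP.DSOmega.RootDescent

open Finset

/-! ### the binomial expansion `(1 + x) ^ p = 1 + p x + p x² B + x ^ p` -/

section Binomial

variable {S : Type*} [CommRing S]

theorem exists_one_add_pow_prime {p : ℕ} (hp : p.Prime) (x : S) :
    ∃ B : S, (1 + x) ^ p = 1 + (p : S) * x + (p : S) * x ^ 2 * B + x ^ p := by
  obtain ⟨q, rfl⟩ : ∃ q, p = q + 2 := ⟨p - 2, by have := hp.two_le; omega⟩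
  refine ⟨∑ m ∈ range q, x ^ m * (((q + 2).choose (m + 2) / (q + 2) : ℕ) : S), ?_⟩
  have hterm : ∀ m ∈ range q,
      x ^ (m + 1 + 1) * 1 ^ (q + 2 - (m + 1 + 1)) * (((q + 2).choose (m + 1 + 1) : ℕ) : S) =
        ((q + 2 : ℕ) : S) * x ^ 2 *
          (x ^ m * (((q + 2).choose (m + 2) / (q + 2) : ℕ) : S)) := by
    intro m hm
    have hm' := mem_range.1 hm
    have hdvd : (q + 2) ∣ (q + 2).choose (m + 2) :=
      hp.dvd_choose_self (by omega) (by omega)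
    obtain ⟨k, hk⟩ := hdvd
    rw [show m + 1 + 1 = m + 2 from rfl, hk, Nat.mul_div_cancel_left _ (by omega : 0 < q + 2)]
    push_cast
    ring
  rw [add_comm 1 x, add_pow, Finset.sum_range_succ, Finset.sum_range_succ',
    Finset.sum_range_succ', Finset.sum_congr rfl hterm, ← Finset.mul_sum]
  simp only [one_pow, mul_one, Nat.choose_self, Nat.cast_one, pow_zero, Nat.choose_zero_right,
    zero_add, pow_one, Nat.choose_one_right, Nat.sub_self]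
  ring

end Binomial

/-! ### the frame -/

section Frame

variable {S : Type*} [CommRing S]

/-- the elementary facts about `R ≤ S`, `ϖ`, `p = c ϖ ^ ((p-1) j₀)`. -/
structure Frame (R : Subring S) (ϖ : S) (p : ℕ) (c : S) (j₀ : ℕ) : Prop where
  prime : p.Prime
  pi_mem : ϖ ∈ R
  c_mem : c ∈ R
  c_unit : ∃ c' ∈ R, c * c' = 1
  p_eq : (p : S) = c * ϖ ^ ((p - 1) * j₀)
  j₀_pos : 0 < j₀
  sat : ∀ x : S, ϖ * x ∈ R → x ∈ R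
  jac : ∀ r ∈ R, ∃ s ∈ R, (1 + ϖ * r) * s = 1

/-- `x ∈ R + ϖ S`. -/
def Good (R : Subring S) (ϖ : S) (x : S) : Prop := ∃ r ∈ R, ∃ y : S, x = r + ϖ * y

/-- `Γ = ρ (1 + ϖ ^ j δ)` with `ρ` a unit of `R`. -/
def Pres (R : Subring S) (ϖ : S) (j : ℕ) (Γ ρ ρ' δ : S) : Prop :=
  ρ ∈ R ∧ ρ' ∈ R ∧ ρ * ρ' = 1 ∧ Γ = ρ * (1 + ϖ ^ j * δ)

variable {R : Subring S} {ϖ : S} {p : ℕ} {c : S} {j₀ : ℕ}

theorem good_of_mem {x : S} (hx : x ∈ R) : Good R ϖ x := ⟨x, hx, 0, by ring⟩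

theorem Frame.sat_pow (F : Frame R ϖ p c j₀) (n : ℕ) (x : S) (h : ϖ ^ n * x ∈ R) : x ∈ R := by
  induction n with
  | zero => simpa using h
  | succ n ih =>
    refine ih (F.sat _ ?_)
    rwa [← mul_assoc, ← pow_succ']

theorem Frame.pi_pow_mem (F : Frame R ϖ p c j₀) (n : ℕ) : ϖ ^ n ∈ R := R.pow_mem F.pi_mem n

/-- `1 + ϖ ^ (i+1) r` is a unit of `R`. -/
theorem Frame.jac_pow (F : Frame R ϖ p c j₀) (i : ℕ) {r : S} (hr : r ∈ R) :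
    ∃ s ∈ R, (1 + ϖ ^ (i + 1) * r) * s = 1 := by
  obtain ⟨s, hs, h⟩ := F.jac (ϖ ^ i * r) (R.mul_mem (F.pi_pow_mem i) hr)
  exact ⟨s, hs, by linear_combination h⟩

/-! ### the three algebraic identities -/

theorem aux_lt (ϖ δ c B : S) (p e j n t : ℕ) (h : e + j = n + (t + 1)) (hn : n = p * j) :
    1 + (c * ϖ ^ e) * (ϖ ^ j * δ) + (c * ϖ ^ e) * (ϖ ^ j * δ) ^ 2 * B + (ϖ ^ j * δ) ^ p - 1 =
      ϖ ^ n * (δ ^ p + ϖ * (ϖ ^ t * (c * δ + c * ϖ ^ j * δ ^ 2 * B))) := by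
  have h1 : ϖ ^ e * ϖ ^ j = ϖ ^ n * ϖ ^ (t + 1) := by rw [← pow_add, ← pow_add, h]
  have h2 : (ϖ ^ j * δ) ^ p = ϖ ^ n * δ ^ p := by rw [mul_pow, ← pow_mul, hn, mul_comm j p]
  linear_combination (c * δ + c * ϖ ^ j * δ ^ 2 * B) * h1 + h2

theorem aux_eq (ϖ δ c B : S) (p e i n : ℕ) (h : e + (i + 1) = n) (hn : n = p * (i + 1)) :
    1 + (c * ϖ ^ e) * (ϖ ^ (i + 1) * δ) + (c * ϖ ^ e) * (ϖ ^ (i + 1) * δ) ^ 2 * B
        + (ϖ ^ (i + 1) * δ) ^ p - 1 =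
      ϖ ^ n * (δ ^ p + c * δ + ϖ * (ϖ ^ i * c * δ ^ 2 * B)) := by
  have h1 : ϖ ^ e * ϖ ^ (i + 1) = ϖ ^ n := by rw [← pow_add, h]
  have h2 : (ϖ ^ (i + 1) * δ) ^ p = ϖ ^ n * δ ^ p := by
    rw [mul_pow, ← pow_mul, hn, mul_comm (i + 1) p]
  linear_combination (c * δ + c * ϖ ^ (i + 1) * δ ^ 2 * B) * h1 + h2

theorem aux_gt (ϖ δ c B : S) (p e i n t : ℕ) (h : p * (i + 1) = n + (t + 1))
    (hn : n = e + (i + 1)) :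
    1 + (c * ϖ ^ e) * (ϖ ^ (i + 1) * δ) + (c * ϖ ^ e) * (ϖ ^ (i + 1) * δ) ^ 2 * B
        + (ϖ ^ (i + 1) * δ) ^ p - 1 =
      ϖ ^ n * (c * δ + ϖ * (ϖ ^ i * c * δ ^ 2 * B + ϖ ^ t * δ ^ p)) := by
  have h1 : ϖ ^ e * ϖ ^ (i + 1) = ϖ ^ n := by rw [← pow_add, hn]
  have h2 : (ϖ ^ (i + 1) * δ) ^ p = ϖ ^ n * ϖ ^ (t + 1) * δ ^ p := by
    rw [mul_pow, ← pow_mul, mul_comm (i + 1) p, h, pow_add]
  linear_combination (c * δ + c * ϖ ^ (i + 1) * δ ^ 2 * B) * h1 + h2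

/-! ### the level step -/

/-- `(1 + ϖ ^ j δ) ^ p ∈ R` for a presentation of `Γ` with `Γ ^ p ∈ R`. -/
theorem Pres.pow_mem {j : ℕ} {Γ ρ ρ' δ : S} (hP : Pres R ϖ j Γ ρ ρ' δ) (hu : Γ ^ p ∈ R) :
    (1 + ϖ ^ j * δ) ^ p ∈ R := by
  obtain ⟨hρ, hρ', h1, hΓ⟩ := hP
  have : (1 + ϖ ^ j * δ) = Γ * ρ' := by
    rw [hΓ, mul_comm ρ, mul_assoc, h1, mul_one]
  rw [this, mul_pow]
  exact R.mul_mem hu (R.pow_mem hρ' p)

/-- **level `j < j₀`**: `δ ^ p ≡ m` modulo `ϖ S` with `m ∈ R`. -/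
theorem level_lt (F : Frame R ϖ p c j₀) {j : ℕ} (hj : j < j₀) {Γ ρ ρ' δ : S}
    (hP : Pres R ϖ j Γ ρ ρ' δ) (hu : Γ ^ p ∈ R) :
    ∃ m ∈ R, ∃ y : S, δ ^ p = m + ϖ * y := by
  have hW := hP.pow_mem hu
  obtain ⟨B, hB⟩ := exists_one_add_pow_prime F.prime (ϖ ^ j * δ)
  have hp2 := F.prime.two_le
  -- `(p-1) j₀ + j = p j + (t+1)`
  obtain ⟨d, rfl⟩ : ∃ d, j₀ = j + (d + 1) := ⟨j₀ - j - 1, by omega⟩
  obtain ⟨q, hq⟩ : ∃ q, p = q + 2 := ⟨p - 2, by omega⟩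
  have hE : (p - 1) * (j + (d + 1)) + j = p * j + ((q + 1) * d + q + 1) := by
    subst hq
    have : q + 2 - 1 = q + 1 := by omega
    rw [this]; ring
  have hid := aux_lt ϖ δ c B p ((p - 1) * (j + (d + 1))) j (p * j) ((q + 1) * d + q) hE rfl
  rw [← F.p_eq, ← hB] at hid
  set y : S := ϖ ^ ((q + 1) * d + q) * (c * δ + c * ϖ ^ j * δ ^ 2 * B) with hy
  have hm : δ ^ p + ϖ * y ∈ R := by
    refine F.sat_pow (p * j) _ ?_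
    rw [← hid]
    exact R.sub_mem hW R.one_mem
  exact ⟨_, hm, -y, by ring⟩

/-- **level `j = j₀`** (Artin–Schreier): `δ ^ p + c δ ≡ m` modulo `ϖ S` with `m ∈ R`. -/
theorem level_eq (F : Frame R ϖ p c j₀) {Γ ρ ρ' δ : S}
    (hP : Pres R ϖ j₀ Γ ρ ρ' δ) (hu : Γ ^ p ∈ R) :
    ∃ m ∈ R, ∃ y : S, δ ^ p + c * δ = m + ϖ * y := by
  have hW := hP.pow_mem hu
  obtain ⟨B, hB⟩ := exists_one_add_pow_prime F.prime (ϖ ^ j₀ * δ)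
  have hp2 := F.prime.two_le
  obtain ⟨i, hi⟩ : ∃ i, j₀ = i + 1 := ⟨j₀ - 1, by have := F.j₀_pos; omega⟩
  subst hi
  obtain ⟨q, hq⟩ : ∃ q, p = q + 2 := ⟨p - 2, by omega⟩
  have hE : (p - 1) * (i + 1) + (i + 1) = p * (i + 1) := by
    subst hq
    have : q + 2 - 1 = q + 1 := by omega
    rw [this]; ring
  have hid := aux_eq ϖ δ c B p ((p - 1) * (i + 1)) i (p * (i + 1)) hE rfl
  rw [← F.p_eq, ← hB] at hid
  set y : S := ϖ ^ i * c * δ ^ 2 * B with hy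
  have hm : δ ^ p + c * δ + ϖ * y ∈ R := by
    refine F.sat_pow (p * (i + 1)) _ ?_
    rw [← hid]
    exact R.sub_mem hW R.one_mem
  exact ⟨_, hm, -y, by ring⟩

/-- **level `j > j₀`**: `δ ∈ R + ϖ S` automatically. -/
theorem level_gt (F : Frame R ϖ p c j₀) {j : ℕ} (hj : j₀ < j) {Γ ρ ρ' δ : S}
    (hP : Pres R ϖ j Γ ρ ρ' δ) (hu : Γ ^ p ∈ R) : Good R ϖ δ := by
  have hW := hP.pow_mem hu
  obtain ⟨B, hB⟩ := exists_one_add_pow_prime F.prime (ϖ ^ j * δ)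
  have hp2 := F.prime.two_le
  obtain ⟨i, hi⟩ : ∃ i, j = i + 1 := ⟨j - 1, by omega⟩
  subst hi
  obtain ⟨d, hd⟩ : ∃ d, i + 1 = j₀ + (d + 1) := ⟨i + 1 - j₀ - 1, by omega⟩
  obtain ⟨q, hq⟩ : ∃ q, p = q + 2 := ⟨p - 2, by omega⟩
  have hE : p * (i + 1) = ((p - 1) * j₀ + (i + 1)) + ((q + 1) * d + q + 1) := by
    rw [hd]
    subst hq
    have : q + 2 - 1 = q + 1 := by omega
    rw [this]; ring
  have hid := aux_gt ϖ δ c B p ((p - 1) * j₀) i ((p - 1) * j₀ + (i + 1)) ((q + 1) * d + q) hE rfl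
  rw [← F.p_eq, ← hB] at hid
  set y : S := ϖ ^ i * c * δ ^ 2 * B + ϖ ^ ((q + 1) * d + q) * δ ^ p with hy
  have hm : c * δ + ϖ * y ∈ R := by
    refine F.sat_pow ((p - 1) * j₀ + (i + 1)) _ ?_
    rw [← hid]
    exact R.sub_mem hW R.one_mem
  obtain ⟨c', hc', hcc⟩ := F.c_unit
  refine ⟨c' * (c * δ + ϖ * y), R.mul_mem hc' hm, -(c' * y), ?_⟩
  linear_combination (-δ) * hcc

/-- **the step** `H_j ⟹ H_{j+1}` (`j ≥ 1`) when `δ ∈ R + ϖ S`. -/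
theorem Pres.succ (F : Frame R ϖ p c j₀) {i : ℕ} {Γ ρ ρ' δ : S}
    (hP : Pres R ϖ (i + 1) Γ ρ ρ' δ) (hδ : Good R ϖ δ) :
    ∃ ρ₂ ρ₂' δ₂ : S, Pres R ϖ (i + 2) Γ ρ₂ ρ₂' δ₂ := by
  obtain ⟨hρ, hρ', h1, hΓ⟩ := hP
  obtain ⟨r, hr, y, rfl⟩ := hδ
  obtain ⟨s, hs, hs1⟩ := F.jac_pow i hr
  refine ⟨ρ * (1 + ϖ ^ (i + 1) * r), ρ' * s, y * s,
    R.mul_mem hρ (R.add_mem R.one_mem (R.mul_mem (F.pi_pow_mem _) hr)), R.mul_mem hρ' hs, ?_, ?_⟩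
  · linear_combination (1 + ϖ ^ (i + 1) * r) * s * h1 + hs1
  · rw [hΓ]
    linear_combination (-(ρ * ϖ ^ (i + 2) * y)) * hs1

/-- **the start** `H_1`, from `Γ ∈ R + ϖ S` and `Γ ^ p` a unit of `R`. -/
theorem Pres.start (F : Frame R ϖ p c j₀) {Γ u u' : S} (hu : u ∈ R) (hu' : u' ∈ R)
    (huu : u * u' = 1) (hΓu : Γ ^ p = u) (hΓ : Good R ϖ Γ) :
    ∃ ρ ρ' δ : S, Pres R ϖ 1 Γ ρ ρ' δ := by
  obtain ⟨r, hr, y, rfl⟩ := hΓ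
  -- `r ^ p = u + ϖ z`
  obtain ⟨z, hz⟩ : ∃ z : S, r ^ p = (r + ϖ * y) ^ p + ϖ * z := by
    obtain ⟨s, hs⟩ : ∃ s : S, (r + ϖ * y) ^ p - r ^ p = (r + ϖ * y - r) * s :=
      ⟨_, ((Commute.all (r + ϖ * y) r).mul_geom_sum₂ p).symm⟩
    exact ⟨-(y * s), by linear_combination (-1 : S) * hs⟩
  have hzR : z ∈ R := by
    refine F.sat z ?_
    have : ϖ * z = r ^ p - u := by rw [hz, hΓu]; ring
    rw [this]
    exact R.sub_mem (R.pow_mem hr p) hu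
  obtain ⟨s, hs, hs1⟩ := F.jac (u' * z) (R.mul_mem hu' hzR)
  -- `r ^ p = u (1 + ϖ u' z)`
  have hrp : r ^ p * (u' * s) = 1 := by
    rw [hz, hΓu]
    linear_combination s * huu + hs1
  obtain ⟨q, hq⟩ : ∃ q, p = q + 1 := ⟨p - 1, by have := F.prime.two_le; omega⟩
  set r' : S := r ^ q * (u' * s) with hr'
  have hr'R : r' ∈ R := R.mul_mem (R.pow_mem hr q) (R.mul_mem hu' hs)
  have hrr' : r * r' = 1 := by
    rw [← hrp, hq, pow_succ]; ring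
  refine ⟨r, r', y * r', hr, hr'R, hrr', ?_⟩
  rw [pow_one]
  linear_combination (-(ϖ * y)) * hrr'

end Frame

/-! ### smooth points -/

section Smooth

variable {S : Type*} [CommRing S] {R : Subring S} {ϖ : S} {p : ℕ} {c : S} {j₀ : ℕ}

/-- the induction: `H_j` for all `j ≥ 1`. -/
theorem exists_pres (F : Frame R ϖ p c j₀)
    (hroot : ∀ (δ : S), ∀ m ∈ R, ∀ y : S, δ ^ p = m + ϖ * y → Good R ϖ δ)
    (hAS : ∀ (δ : S), ∀ m ∈ R, ∀ y : S, δ ^ p + c * δ = m + ϖ * y → Good R ϖ δ)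
    {Γ u u' : S} (hu : u ∈ R) (hu' : u' ∈ R) (huu : u * u' = 1) (hΓu : Γ ^ p = u) (i : ℕ) :
    ∃ ρ ρ' δ : S, Pres R ϖ (i + 1) Γ ρ ρ' δ := by
  have huR : Γ ^ p ∈ R := hΓu ▸ hu
  induction i with
  | zero =>
    exact Pres.start F hu hu' huu hΓu (hroot Γ u hu 0 (by rw [hΓu]; ring))
  | succ i ih =>
    obtain ⟨ρ, ρ', δ, hP⟩ := ih
    refine Pres.succ F hP ?_
    rcases lt_trichotomy (i + 1) j₀ with hlt | heq | hgt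
    · obtain ⟨m, hm, y, hy⟩ := level_lt F hlt hP huR
      exact hroot δ m hm y hy
    · obtain ⟨m, hm, y, hy⟩ := level_eq F (heq ▸ hP) huR
      exact hAS δ m hm y hy
    · exact level_gt F hgt hP huR

/-- **root descent at a smooth point**: `Γ ∈ R + ϖ ^ j S` for every `j`. -/
theorem mem_add_pow_of_root (F : Frame R ϖ p c j₀)
    (hroot : ∀ (δ : S), ∀ m ∈ R, ∀ y : S, δ ^ p = m + ϖ * y → Good R ϖ δ)
    (hAS : ∀ (δ : S), ∀ m ∈ R, ∀ y : S, δ ^ p + c * δ = m + ϖ * y → Good R ϖ δ)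
    {Γ u u' : S} (hu : u ∈ R) (hu' : u' ∈ R) (huu : u * u' = 1) (hΓu : Γ ^ p = u) (j : ℕ) :
    ∃ r ∈ R, ∃ y : S, Γ = r + ϖ ^ j * y := by
  obtain ⟨ρ, ρ', δ, hρ, -, -, hΓ⟩ := exists_pres F hroot hAS hu hu' huu hΓu j
  exact ⟨ρ, hρ, ρ * ϖ * δ, by rw [hΓ]; ring⟩

end Smooth

/-! ### nodes -/

section Node

variable {S : Type*} [CommRing S] {R : Subring S} {ϖ : S} {p : ℕ} {c : S} {j₀ : ℕ}
variable {k : Type*} [Field k]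

/-- **the evaluation package at a node**: `T` = the elements of `S` whose reduction is regular on
both branches, `ev₁ ev₂` the values at the node on the two branches, and
`R + ϖ S = {x ∈ T | ev₁ x = ev₂ x}` (the special fibre is the glued curve). -/
structure NodeEval (R : Subring S) (ϖ : S) (k : Type*) [Field k] where
  T : Subring S
  le : R ≤ T
  pi_mul_mem : ∀ x : S, ϖ * x ∈ T
  ev₁ : T →+* k
  ev₂ : T →+* k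
  ev₁_pi : ∀ x : S, ev₁ ⟨ϖ * x, pi_mul_mem x⟩ = 0
  ev₂_pi : ∀ x : S, ev₂ ⟨ϖ * x, pi_mul_mem x⟩ = 0
  glue : ∀ x : T, ev₁ x = ev₂ x ↔ Good R ϖ (x : S)

namespace NodeEval

variable (E : NodeEval R ϖ k)

theorem ev_eq_of_mem {r : S} (hr : r ∈ R) : E.ev₁ ⟨r, E.le hr⟩ = E.ev₂ ⟨r, E.le hr⟩ :=
  (E.glue ⟨r, E.le hr⟩).2 (good_of_mem hr)

/-- `ev₁` only depends on the class modulo `ϖ S`. -/
theorem ev₁_congr {x x' y : S} (hx : x ∈ E.T) (hx' : x' ∈ E.T) (h : x = x' + ϖ * y) :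
    E.ev₁ ⟨x, hx⟩ = E.ev₁ ⟨x', hx'⟩ := by
  have : (⟨x, hx⟩ : E.T) = ⟨x', hx'⟩ + ⟨ϖ * y, E.pi_mul_mem y⟩ := Subtype.ext h
  rw [this, map_add, E.ev₁_pi, add_zero]

theorem ev₂_congr {x x' y : S} (hx : x ∈ E.T) (hx' : x' ∈ E.T) (h : x = x' + ϖ * y) :
    E.ev₂ ⟨x, hx⟩ = E.ev₂ ⟨x', hx'⟩ := by
  have : (⟨x, hx⟩ : E.T) = ⟨x', hx'⟩ + ⟨ϖ * y, E.pi_mul_mem y⟩ := Subtype.ext h
  rw [this, map_add, E.ev₂_pi, add_zero]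

end NodeEval

/-- **the cochain relation**: `v = ev₁ δ - ev₂ δ` for a presentation `Γ = ρ (1 + ϖ ^ j₀ δ)` at the
critical level. -/
def IsCoch (E : NodeEval R ϖ k) (j₀ : ℕ) (Γ : S) (v : k) : Prop :=
  ∃ ρ ρ' δ : S, Pres R ϖ j₀ Γ ρ ρ' δ ∧ ∃ hδ : δ ∈ E.T, v = E.ev₁ ⟨δ, hδ⟩ - E.ev₂ ⟨δ, hδ⟩

variable (E : NodeEval R ϖ k)

/-- at a node the `p`-th root closure of `R + ϖ S` follows from the integral closedness of `T` and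
the injectivity of Frobenius. -/
theorem good_of_pow_eq [CharP k p] (hp : p.Prime)
    (hint0 : ∀ (δ : S), ∀ m ∈ R, ∀ y : S, δ ^ p = m + ϖ * y → δ ∈ E.T)
    (δ : S) (m : S) (hm : m ∈ R) (y : S) (h : δ ^ p = m + ϖ * y) : Good R ϖ δ := by
  have : Fact p.Prime := ⟨hp⟩
  have hδ := hint0 δ m hm y h
  refine (E.glue ⟨δ, hδ⟩).1 ?_
  have h1 : E.ev₁ ⟨δ, hδ⟩ ^ p = E.ev₁ ⟨m, E.le hm⟩ := by
    rw [← map_pow]
    exact E.ev₁_congr (E.T.pow_mem hδ p) (E.le hm) h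
  have h2 : E.ev₂ ⟨δ, hδ⟩ ^ p = E.ev₂ ⟨m, E.le hm⟩ := by
    rw [← map_pow]
    exact E.ev₂_congr (E.T.pow_mem hδ p) (E.le hm) h
  refine frobenius_inj k p ?_
  simp only [frobenius_def]
  rw [h1, h2, E.ev_eq_of_mem hm]

/-- the induction up to the critical level. -/
theorem exists_pres_le (F : Frame R ϖ p c j₀)
    (hroot : ∀ (δ : S), ∀ m ∈ R, ∀ y : S, δ ^ p = m + ϖ * y → Good R ϖ δ)
    {Γ u u' : S} (hu : u ∈ R) (hu' : u' ∈ R) (huu : u * u' = 1) (hΓu : Γ ^ p = u) (i : ℕ)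
    (hi : i + 1 ≤ j₀) : ∃ ρ ρ' δ : S, Pres R ϖ (i + 1) Γ ρ ρ' δ := by
  have huR : Γ ^ p ∈ R := hΓu ▸ hu
  induction i with
  | zero =>
    exact Pres.start F hu hu' huu hΓu (hroot Γ u hu 0 (by rw [hΓu]; ring))
  | succ i ih =>
    obtain ⟨ρ, ρ', δ, hP⟩ := ih (by omega)
    refine Pres.succ F hP ?_
    obtain ⟨m, hm, y, hy⟩ := level_lt F (by omega : i + 1 < j₀) hP huR
    exact hroot δ m hm y hy

/-- a presentation at the critical level. -/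
theorem exists_pres_crit (F : Frame R ϖ p c j₀)
    (hroot : ∀ (δ : S), ∀ m ∈ R, ∀ y : S, δ ^ p = m + ϖ * y → Good R ϖ δ)
    {Γ u u' : S} (hu : u ∈ R) (hu' : u' ∈ R) (huu : u * u' = 1) (hΓu : Γ ^ p = u) :
    ∃ ρ ρ' δ : S, Pres R ϖ j₀ Γ ρ ρ' δ := by
  obtain ⟨i, hi⟩ : ∃ i, j₀ = i + 1 := ⟨j₀ - 1, by have := F.j₀_pos; omega⟩
  rw [hi]
  exact exists_pres_le F hroot hu hu' huu hΓu i (by omega)

/-- **the cochain exists.** -/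
theorem exists_isCoch (F : Frame R ϖ p c j₀)
    (hroot : ∀ (δ : S), ∀ m ∈ R, ∀ y : S, δ ^ p = m + ϖ * y → Good R ϖ δ)
    (hint : ∀ (δ : S), ∀ m ∈ R, ∀ y : S, δ ^ p + c * δ = m + ϖ * y → δ ∈ E.T)
    {Γ u u' : S} (hu : u ∈ R) (hu' : u' ∈ R) (huu : u * u' = 1) (hΓu : Γ ^ p = u) :
    ∃ v : k, IsCoch E j₀ Γ v := by
  obtain ⟨ρ, ρ', δ, hP⟩ := exists_pres_crit F hroot hu hu' huu hΓu
  obtain ⟨m, hm, y, hy⟩ := level_eq F hP (hΓu ▸ hu)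
  exact ⟨_, ρ, ρ', δ, hP, hint δ m hm y hy, rfl⟩

/-- **the cochain is independent of all choices.** -/
theorem isCoch_unique (F : Frame R ϖ p c j₀) {Γ : S} {v v' : k}
    (h : IsCoch E j₀ Γ v) (h' : IsCoch E j₀ Γ v') : v = v' := by
  obtain ⟨ρ, ρ', δ, ⟨hρ, hρ', h1, hΓ⟩, hδ, rfl⟩ := h
  obtain ⟨ρ₂, ρ₂', δ₂, ⟨hρ₂, hρ₂', h2, hΓ₂⟩, hδ₂, rfl⟩ := h'
  obtain ⟨i, hi⟩ : ∃ i, j₀ = i + 1 := ⟨j₀ - 1, by have := F.j₀_pos; omega⟩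
  subst hi
  set t : S := ρ * ρ₂' with ht
  have htR : t ∈ R := R.mul_mem hρ hρ₂'
  -- `t (1 + ϖ^j₀ δ) = 1 + ϖ^j₀ δ₂`
  have hkey : t * (1 + ϖ ^ (i + 1) * δ) = 1 + ϖ ^ (i + 1) * δ₂ := by
    have : ρ * (1 + ϖ ^ (i + 1) * δ) = ρ₂ * (1 + ϖ ^ (i + 1) * δ₂) := by rw [← hΓ, ← hΓ₂]
    linear_combination ρ₂' * this + (1 + ϖ ^ (i + 1) * δ₂) * h2
  set y : S := δ₂ - t * δ with hy
  have hyR : y ∈ R := by
    refine F.sat_pow (i + 1) y ?_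
    have : ϖ ^ (i + 1) * y = t - 1 := by rw [hy]; linear_combination (-1 : S) * hkey
    rw [this]
    exact R.sub_mem htR R.one_mem
  have hyT : y ∈ E.T := E.le hyR
  -- `y = δ₂ - δ + ϖ (…)`
  have hy2 : y = (δ₂ - δ) + ϖ * (-(ϖ ^ i * y * δ)) := by
    have : t = 1 + ϖ ^ (i + 1) * y := by rw [hy]; linear_combination hkey
    rw [hy]
    linear_combination (-δ) * this
  have hsub : δ₂ - δ ∈ E.T := E.T.sub_mem hδ₂ hδ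
  have e1 := E.ev₁_congr hyT hsub hy2
  have e2 := E.ev₂_congr hyT hsub hy2
  have e3 := E.ev_eq_of_mem hyR
  have d1 : E.ev₁ ⟨δ₂ - δ, hsub⟩ = E.ev₁ ⟨δ₂, hδ₂⟩ - E.ev₁ ⟨δ, hδ⟩ := by
    rw [← map_sub]; rfl
  have d2 : E.ev₂ ⟨δ₂ - δ, hsub⟩ = E.ev₂ ⟨δ₂, hδ₂⟩ - E.ev₂ ⟨δ, hδ⟩ := by
    rw [← map_sub]; rfl
  rw [d1] at e1
  rw [d2] at e2
  rw [e1, e2] at e3
  linear_combination (-1 : k) * e3

/-- **the cochain is additive.** -/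
theorem isCoch_mul (F : Frame R ϖ p c j₀) {Γ Γ' : S} {v v' : k}
    (h : IsCoch E j₀ Γ v) (h' : IsCoch E j₀ Γ' v') : IsCoch E j₀ (Γ * Γ') (v + v') := by
  obtain ⟨ρ, ρ', δ, ⟨hρ, hρ', h1, hΓ⟩, hδ, rfl⟩ := h
  obtain ⟨ρ₂, ρ₂', δ₂, ⟨hρ₂, hρ₂', h2, hΓ₂⟩, hδ₂, rfl⟩ := h'
  obtain ⟨i, hi⟩ : ∃ i, j₀ = i + 1 := ⟨j₀ - 1, by have := F.j₀_pos; omega⟩
  subst hi
  have hsum : δ + δ₂ ∈ E.T := E.T.add_mem hδ hδ₂
  have hδ₃ : δ + δ₂ + ϖ * (ϖ ^ i * δ * δ₂) ∈ E.T := E.T.add_mem hsum (E.pi_mul_mem _)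
  refine ⟨ρ * ρ₂, ρ' * ρ₂', δ + δ₂ + ϖ * (ϖ ^ i * δ * δ₂),
    ⟨R.mul_mem hρ hρ₂, R.mul_mem hρ' hρ₂', ?_, ?_⟩, hδ₃, ?_⟩
  · linear_combination ρ₂ * ρ₂' * h1 + h2
  · rw [hΓ, hΓ₂]; ring
  · rw [E.ev₁_congr hδ₃ hsum rfl, E.ev₂_congr hδ₃ hsum rfl]
    have d1 : E.ev₁ ⟨δ + δ₂, hsum⟩ = E.ev₁ ⟨δ, hδ⟩ + E.ev₁ ⟨δ₂, hδ₂⟩ := by
      rw [← map_add]; rfl
    have d2 : E.ev₂ ⟨δ + δ₂, hsum⟩ = E.ev₂ ⟨δ, hδ⟩ + E.ev₂ ⟨δ₂, hδ₂⟩ := by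
      rw [← map_add]; rfl
    rw [d1, d2]; ring

/-- **the cochain vanishes on the units of `R`.** -/
theorem isCoch_of_mem {Γ Γ' : S} (hΓ : Γ ∈ R) (hΓ' : Γ' ∈ R) (h : Γ * Γ' = 1) :
    IsCoch E j₀ Γ 0 :=
  ⟨Γ, Γ', 0, ⟨hΓ, hΓ', h, by ring⟩, E.T.zero_mem, by
    have : (⟨0, E.T.zero_mem⟩ : E.T) = 0 := rfl
    rw [this, map_zero, map_zero, sub_zero]⟩

/-- **the cochain lies on an `𝔽_p`-line**: `v ^ p + c̄ v = 0`. -/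
theorem isCoch_as [CharP k p] (F : Frame R ϖ p c j₀) {Γ : S} {v : k} (h : IsCoch E j₀ Γ v)
    (hu : Γ ^ p ∈ R) : v ^ p + E.ev₁ ⟨c, E.le F.c_mem⟩ * v = 0 := by
  have : Fact p.Prime := ⟨F.prime⟩
  obtain ⟨ρ, ρ', δ, hP, hδ, rfl⟩ := h
  obtain ⟨m, hm, y, hy⟩ := level_eq F hP hu
  have hcT : c ∈ E.T := E.le F.c_mem
  have hlhs : δ ^ p + c * δ ∈ E.T := E.T.add_mem (E.T.pow_mem hδ p) (E.T.mul_mem hcT hδ)
  have e1 := E.ev₁_congr hlhs (E.le hm) hy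
  have e2 := E.ev₂_congr hlhs (E.le hm) hy
  have d1 : E.ev₁ ⟨δ ^ p + c * δ, hlhs⟩ =
      E.ev₁ ⟨δ, hδ⟩ ^ p + E.ev₁ ⟨c, hcT⟩ * E.ev₁ ⟨δ, hδ⟩ := by
    rw [← map_pow, ← map_mul, ← map_add]; rfl
  have d2 : E.ev₂ ⟨δ ^ p + c * δ, hlhs⟩ =
      E.ev₂ ⟨δ, hδ⟩ ^ p + E.ev₂ ⟨c, hcT⟩ * E.ev₂ ⟨δ, hδ⟩ := by
    rw [← map_pow, ← map_mul, ← map_add]; rfl
  rw [d1] at e1
  rw [d2, ← E.ev_eq_of_mem F.c_mem, ← E.ev_eq_of_mem hm] at e2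
  rw [sub_pow_char]
  linear_combination e1 - e2

/-- **trivial cochain ⟹ the root descends**: `Γ ∈ R + ϖ ^ j S` for every `j`. -/
theorem mem_add_pow_of_isCoch_zero (F : Frame R ϖ p c j₀) {Γ : S} (h : IsCoch E j₀ Γ 0)
    (hu : Γ ^ p ∈ R) (j : ℕ) : ∃ r ∈ R, ∃ y : S, Γ = r + ϖ ^ j * y := by
  obtain ⟨ρ, ρ', δ, hP, hδ, hv⟩ := h
  obtain ⟨i, hi⟩ : ∃ i, j₀ = i + 1 := ⟨j₀ - 1, by have := F.j₀_pos; omega⟩
  subst hi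
  have hgood : Good R ϖ δ := (E.glue ⟨δ, hδ⟩).1 (sub_eq_zero.1 hv.symm)
  have hall : ∀ n : ℕ, ∃ ρ ρ' δ : S, Pres R ϖ (i + 2 + n) Γ ρ ρ' δ := by
    intro n
    induction n with
    | zero => exact Pres.succ F hP hgood
    | succ n ih =>
      obtain ⟨ρ₂, ρ₂', δ₂, hP₂⟩ := ih
      have hP₂' : Pres R ϖ ((i + 1 + n) + 1) Γ ρ₂ ρ₂' δ₂ := by
        rw [show (i + 1 + n) + 1 = i + 2 + n by ring]; exact hP₂
      have hg := level_gt F (by omega : i + 1 < (i + 1 + n) + 1) hP₂' hu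
      obtain ⟨a, b, d, hd⟩ := Pres.succ F hP₂' hg
      exact ⟨a, b, d, by rw [show i + 2 + (n + 1) = (i + 1 + n) + 2 by ring]; exact hd⟩
  obtain ⟨ρ₂, ρ₂', δ₂, hρ₂, -, -, hΓ₂⟩ := hall j
  refine ⟨ρ₂, hρ₂, ϖ ^ (i + 2) * ρ₂ * δ₂, ?_⟩
  rw [hΓ₂, show i + 2 + j = j + (i + 2) by ring, pow_add]; ring

/-- **equivariance**: a ring endomorphism `σ` of `S` preserving `R` and `T`, with `σ ϖ = χ ϖ`
(`χ ∈ R`) and acting on the values through `τ`, multiplies the cochain by `χ̄ ^ j₀`. -/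
theorem isCoch_map (σ : S →+* S) (hσR : ∀ r ∈ R, σ r ∈ R) (hσT : ∀ x ∈ E.T, σ x ∈ E.T)
    {χ : S} (hχ : χ ∈ R) (hσϖ : σ ϖ = χ * ϖ) (τ : k →+* k)
    (hτ₁ : ∀ (x : S) (hx : x ∈ E.T), E.ev₁ ⟨σ x, hσT x hx⟩ = τ (E.ev₁ ⟨x, hx⟩))
    (hτ₂ : ∀ (x : S) (hx : x ∈ E.T), E.ev₂ ⟨σ x, hσT x hx⟩ = τ (E.ev₂ ⟨x, hx⟩))
    {Γ : S} {v : k} (h : IsCoch E j₀ Γ v) :
    IsCoch E j₀ (σ Γ) (E.ev₁ ⟨χ, E.le hχ⟩ ^ j₀ * τ v) := by
  obtain ⟨ρ, ρ', δ, ⟨hρ, hρ', h1, hΓ⟩, hδ, rfl⟩ := h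
  have hχT : χ ∈ E.T := E.le hχ
  have hδ' : χ ^ j₀ * σ δ ∈ E.T := E.T.mul_mem (E.T.pow_mem hχT j₀) (hσT δ hδ)
  refine ⟨σ ρ, σ ρ', χ ^ j₀ * σ δ, ⟨hσR ρ hρ, hσR ρ' hρ', ?_, ?_⟩, hδ', ?_⟩
  · rw [← map_mul, h1, map_one]
  · rw [hΓ, map_mul, map_add, map_one, map_mul, map_pow, hσϖ, mul_pow]; ring
  · have d1 : E.ev₁ ⟨χ ^ j₀ * σ δ, hδ'⟩ = E.ev₁ ⟨χ, hχT⟩ ^ j₀ * τ (E.ev₁ ⟨δ, hδ⟩) := by
      rw [← hτ₁ δ hδ, ← map_pow, ← map_mul]; rfl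
    have d2 : E.ev₂ ⟨χ ^ j₀ * σ δ, hδ'⟩ = E.ev₁ ⟨χ, hχT⟩ ^ j₀ * τ (E.ev₂ ⟨δ, hδ⟩) := by
      rw [E.ev_eq_of_mem hχ, ← hτ₂ δ hδ, ← map_pow, ← map_mul]; rfl
    rw [d1, d2, map_sub]; ring

end Node

end Fermat.Agent.GE8.LLP.DSOmega.RootDescent
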